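import Fermat.Agent.S34.V2.ConcGal

set_option autoImplicit false
set_option linter.unusedSectionVars false

/-!
# S34/V2 : the Frobenius twist at level `M`   (task V2-ConcFrob)

See the header of `ConcB.lean` for the sketches.
-/

noncomputable section

namespace Fermat.Agent.S34.V2

open ModularCurve Polynomial IntermediateField AlgebraicCurve Fermat.Agent.S18 Fermat.Agent.S18.V
open Fermat.Agent.S24 (Kb FN)
open Fermat.Agent.GES (GQ galF)
open Fermat.Agent.S34

/-- a semilinear automorphism fixing `t` preserves `CInt R K t`. -/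
theorem mem_CInt_of_semilinear {R K E : Type} [CommRing R] [IsDomain R]
    [IsDiscreteValuationRing R] [Field K] [Algebra R K] [IsFractionRing R K] [Field E] [Algebra K E]
    (σ : E ≃+* E) {t : E} (ht : σ t = t) (hR : ∀ r : R, ∃ r' : R, σ (rE R K E r) = rE R K E r')
    {y : E} (hy : y ∈ CInt R K t) : σ y ∈ CInt R K t := by
  let θ : R →+* R :=
    { toFun := fun r => Classical.choose (hR r)
      map_one' := by
        apply rE_injective (K := K) (E := E)
        rw [← Classical.choose_spec (hR 1), map_one, map_one]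
      map_mul' := fun a b => by
        apply rE_injective (K := K) (E := E)
        rw [← Classical.choose_spec (hR (a * b)), map_mul, map_mul, map_mul,
          ← Classical.choose_spec (hR a), ← Classical.choose_spec (hR b)]
      map_zero' := by
        apply rE_injective (K := K) (E := E)
        rw [← Classical.choose_spec (hR 0), map_zero, map_zero]
      map_add' := fun a b => by
        apply rE_injective (K := K) (E := E)
        rw [← Classical.choose_spec (hR (a + b)), map_add, map_add, map_add,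
          ← Classical.choose_spec (hR a), ← Classical.choose_spec (hR b)] }
  have hθ : ∀ r, rE R K E (θ r) = σ (rE R K E r) := fun r => (Classical.choose_spec (hR r)).symm
  have hcomp : (evR R K t).comp (Polynomial.mapRingHom θ) = (σ : E →+* E).comp (evR R K t) := by
    apply Polynomial.ringHom_ext
    · intro a
      simp only [RingHom.comp_apply, Polynomial.coe_mapRingHom, Polynomial.map_C, evR,
        Polynomial.coe_eval₂RingHom, Polynomial.eval₂_C]
      exact hθ a
    · simp only [RingHom.comp_apply, Polynomial.coe_mapRingHom, Polynomial.map_X, evR,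
        Polynomial.coe_eval₂RingHom, Polynomial.eval₂_X]
      exact ht.symm
  obtain ⟨p, hp, hpz⟩ := hy
  refine ⟨p.map (Polynomial.mapRingHom θ), hp.map _, ?_⟩
  rw [Polynomial.eval₂_map, hcomp]
  have := Polynomial.hom_eval₂ p (evR R K t) (σ : E →+* E) y
  rw [hpz, map_zero] at this
  exact this.symm

section

variable {K : Type} [Field K] [NumberField K] [IsGalois ℚ K] (ι : K →+* Kb)
  (A : ValuationSubring Kb) [IsDiscreteValuationRing ↥(A.comap ι)] {M q : ℕ} [NeZero M] [NeZero q]
  {E : Type} [Field E] [Algebra K E] [Algebra E ↥(FK K (M * q))]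
  [IsScalarTower K E ↥(FK K (M * q))] {T : Two ↥(A.comap ι) K q E ↥(FK K (M * q))}

omit [NumberField K] [IsGalois ℚ K] in
theorem IsConc.exists_galE [CharZero K] (hT : IsConc M q T) (σ : K ≃+* K) :
    ∃ σE : E ≃+* E, ∀ y, T.jE (σE y) = coeffMap (σ : K →+* K) (T.jE y) := by
  have hinj : Function.Injective T.jE := T.jE.toRingHom.injective
  have hex : ∀ (s : K ≃+* K) (y : E), ∃ y' : E, T.jE y' = coeffMap (s : K →+* K) (T.jE y) :=
    fun s y => hT.jE_surj _ (coeffMap_mem_FK _ M (hT.jE_mem y))
  let g : (K ≃+* K) → E → E := fun s y => Classical.choose (hex s y)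
  have hg : ∀ s y, T.jE (g s y) = coeffMap (s : K →+* K) (T.jE y) :=
    fun s y => Classical.choose_spec (hex s y)
  have h1 : ∀ x : LaurentSeries K,
      coeffMap (σ.symm : K →+* K) (coeffMap (σ : K →+* K) x) = x := by
    intro x
    rw [coeffMap_coeffMap]
    ext k
    simp
  have h2 : ∀ x : LaurentSeries K,
      coeffMap (σ : K →+* K) (coeffMap (σ.symm : K →+* K) x) = x := by
    intro x
    rw [coeffMap_coeffMap]
    ext k
    simp
  refine ⟨{ toFun := g σ
            invFun := g σ.symm
            left_inv := fun y => hinj (by rw [hg, hg, h1])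
            right_inv := fun y => hinj (by rw [hg, hg, h2])
            map_mul' := fun a b => hinj (by rw [hg, map_mul, map_mul, map_mul, hg, hg])
            map_add' := fun a b => hinj (by rw [hg, map_add, map_add, map_add, hg, hg]) },
    fun y => hg σ y⟩

/-- the Frobenius twist at level `M`. -/
theorem IsConc.exists_frobE (hT : IsConc M q T) (hA : A.LiesOverPrime q) :
    ∃ σE : E ≃+* E, σE T.x = T.x ∧
      (∀ r : ↥(A.comap ι), ∃ r' : ↥(A.comap ι), σE (rE _ K E r) = rE _ K E r') ∧
      (∀ r : ↥(A.comap ι), ∃ r' : ↥(A.comap ι), σE.symm (rE _ K E r) = rE _ K E r') ∧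
      (∀ y, σE y ∈ T.VE ↔ y ∈ T.VE) ∧
      (∀ y ∈ T.VE, T.i2 (σE y) - algebraMap E ↥(FK K (M * q)) y ^ q ∈ T.Vi.nonunits) ∧
      (∀ y ∈ T.VE, algebraMap E ↥(FK K (M * q)) (σE y) - T.i2 y ^ q ∈ T.V0.nonunits) := by
  obtain ⟨s, hs⟩ := Fermat.Agent.S54.exists_isFrobeniusAt A T.hq hA
  have hd := hs.mem_decompositionSubgroup
  obtain ⟨σE, hσE⟩ := IsConc.exists_galE ι A hT (resK ι s)
  have hinj : Function.Injective T.jE := T.jE.toRingHom.injective
  have hσ := resK_algebraMap ι A hd
  have hrE : ∀ r : ↥(A.comap ι), σE (rE _ K E r) = rE _ K E (resR ι A hd r) := by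
    intro r
    apply hinj
    rw [hσE, T.jE_rE, T.jE_rE, cst_eq_cR, cst_eq_cR,
      coeffMap_cR (resK ι s : K →+* K) (resR ι A hd) hσ, coeffMap_single]
    rfl
  refine ⟨σE, ?_, fun r => ⟨_, hrE r⟩, fun r => ⟨(resR ι A hd).symm r, ?_⟩, ?_, ?_, ?_⟩
  · apply hinj
    rw [hσE, hT.jE_x, coeffMap_xK]
  · rw [RingEquiv.symm_apply_eq, hrE, RingEquiv.apply_symm_apply]
  · intro y
    exact T.galE_mem_VE (resK ι s : K →+* K) (resR ι A hd) hσ (σE : E →+* E) hσE
  · intro y hy
    exact T.frob_i (resK ι s : K →+* K) (resR ι A hd) hσ (σE : E →+* E) hσE (resR_frob ι A hs) hy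
  · intro y hy
    exact T.frob_0 (resK ι s : K →+* K) (resR ι A hd) hσ (σE : E →+* E) hσE (resR_frob ι A hs) hy

end

end Fermat.Agent.S34.V2
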