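import Fermat.Agent.S34.V2.ConcB

set_option autoImplicit false
set_option linter.unusedSectionVars false

/-!
# S34/V2 : inertia acts on the concrete two-level context   (task V2-ConcGal)

See the header of `ConcB.lean` for the sketches.
-/

noncomputable section

namespace Fermat.Agent.S34.V2

open ModularCurve Polynomial IntermediateField AlgebraicCurve Fermat.Agent.S18 Fermat.Agent.S18.V
open Fermat.Agent.S24 (Kb FN)
open Fermat.Agent.GES (GQ galF)
open Fermat.Agent.S34

/-- `w_Q` commutes with coefficientwise automorphisms (no hypothesis on `Q`). -/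
theorem wQ_galFK {K : Type} [Field K] [CharZero K] (N Q : ℕ) [NeZero N] (σ : K ≃+* K)
    (z : ↥(FK K N)) : galFK σ N (Mod.wQ K N Q z) = Mod.wQ K N Q (galFK σ N z) := by
  have h0 : ∀ f : ↥(FK K N), galFK σ N f = Mod.mapFK (σ : K →+* K) N f := by
    intro f
    apply Subtype.ext
    rw [coe_galFK, Mod.coe_mapFK]
  rw [h0, h0]
  by_cases h : Q ∣ N ∧ Nat.Coprime Q (N / Q)
  · exact (Mod.wQ_mapFK K N Q h.1 h.2 (σ : K →+* K) z).symm
  · have h1 : Mod.wQ K N Q = AlgEquiv.refl := by
      rw [Mod.wQ, dif_neg h]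
    rw [h1]
    rfl

theorem coeffMap_xK {K : Type} [Field K] (σ : K →+* K) (Λ : Line) :
    coeffMap σ (xK K Λ) = xK K Λ := by
  rw [xK, coeffMap_coeffMap]
  exact coeffMap_congr (RingHom.ext_int _ _) _

section

variable {K : Type} [Field K] [NumberField K] [IsGalois ℚ K] (ι : K →+* Kb)
  (A : ValuationSubring Kb) [IsDiscreteValuationRing ↥(A.comap ι)] {M q : ℕ} [NeZero M] [NeZero q]
  {E : Type} [Field E] [Algebra K E] [Algebra E ↥(FK K (M * q))]
  [IsScalarTower K E ↥(FK K (M * q))] {T : Two ↥(A.comap ι) K q E ↥(FK K (M * q))}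

/-- inertia acts as an `InertiaLike` automorphism.  (Compatibility with `GES.galF`: `toFN_galFK`.) -/
theorem IsConc.gal (hT : IsConc M q T) {τ : GQ} (hτ : τ ∈ A.inertiaSubgroupIn ℚ) :
    InertiaLike (R := ↥(A.comap ι)) (K := K) T.xF T.Vi T.V0 (galFK (resK ι τ) (M * q)) := by
  have hd := Fermat.Agent.GES.mem_decomposition_of_mem_inertia A hτ
  refine T.inertiaLike (resK ι τ : K →+* K) (resR ι A hd) (resK_algebraMap ι A hd)
    (galFK (resK ι τ) (M * q)) ?_ ?_ (resR_inertia ι A hτ) ?_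
  · intro z
    rw [hT.jF_eq, hT.jF_eq, coe_galFK]
  · intro z
    rw [hT.w_eq, hT.w_eq, wQ_galFK]
  · apply T.jF.toRingHom.injective
    show T.jF (galFK (resK ι τ) (M * q) T.xF) = T.jF T.xF
    rw [hT.jF_eq, coe_galFK, ← hT.jF_eq, Two.xF, T.compat, hT.jE_x, coeffMap_xK]

end

end Fermat.Agent.S34.V2
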