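import Fermat.Agent.S34.V2.Conc
import Fermat.Agent.S54.Frob

set_option autoImplicit false
set_option linter.unusedSectionVars false

/-!
# S34/V2 : outputs of the concrete two-level context   (tasks V2-ConcB, V2-ConcGal, V2-ConcFrob)

`IsConc M q T` links an abstract `T : Two R K q E ↥(FK K (M * q))` (`E` an OPAQUE type) with the concrete objects.
Consumers: `obtain ⟨E, _, _, _, _, T, hT, hc1, hc2⟩ := exists_two' ..` and then only use `T`, `hT`.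

## Sketches
* `exists_two`: `E := ↥𝒞.E`, instances `Ctx.alg 𝒞 hu hX`, `algIncl_tower _`, `T := Ctx.two 𝒞 hu hX` with `hX := Mod.out_X 𝒞.K q M hr` (`𝒞.Λ = lineOf q` by `rfl`).
  `T.jF = (FK ..).val`, `T.jE = 𝒞.E.val`, `T.w = wQ ..`, `T.x = ⟨cR (xK R Λ), _⟩` by `rfl` (unfold `Ctx.two`, `instTwo`); `T.x = 𝒞.x` by `Subtype.ext (Ctx.cR_xK 𝒞)`.
  `jE_mem := Ctx.E_le_FK`, `jE_surj` from `𝒞.FK_le_E`.
  `Chart1`: `chart1_fin (Ctx.isTameP1 𝒞 (Ctx.u_mem_E0 𝒞 hu)) hϖ T.VE ?_ ?_ ?_` (after rewriting `T.x = 𝒞.x`) with `hV y := inO_iff_gauss 𝒞.vhyp 𝒞.FK_le_E (Ctx.E_le_FK ..) 𝒞.finiteDimensional hϖ y`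
  (`haveI : Fact q.Prime := ⟨𝒞.hℓ⟩`), `T.rE_mem_VE_nonunits`, `T.div_unif_E` (`div_eq_mul_inv`, `mul_comm`).
* `IsConc.gal`: `T.inertiaLike (resK ι τ) (resR ι A _) (resK_algebraMap ι A _) (galFK (resK ι τ) (M*q)) ?_ ?_ (resR_inertia ι A hτ) ?_`:
  `hσF`: `hT.jF_eq`, `coe_galFK`; `hσw`: `hT.w_eq`, `Mod.out_W_map` with `σ := resK ι τ` (`Mod.mapFK σ N f = galFK σ N f` by `Subtype.ext`, `Mod.coe_mapFK`, `coe_galFK`);
  `hx`: `T.jF` injective, `T.compat`, `hT.jE_x`, `coeffMap σ (xK K Λ) = xK K Λ` (`xK = coeffMap (Int.castRingHom K) _`, `coeffMap_coeffMap`, `coeffMap_congr (RingHom.ext_int _ _)`).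
* `IsConc.exists_galE`: for `y : E`, `coeffMap σ (T.jE y) ∈ FK K M` (`coeffMap_mem_FK`), so `= T.jE y'` for a unique `y'` (`T.jE` injective); this defines a ring hom; inverse from `σ.symm`.
* `mem_CInt_of_semilinear`: copy of `S34.InertiaLike.mem_CInt` (`S34/T0.lean`: `t0_theta`, `t0_comp`).
* `IsConc.exists_frobE`: `S54.exists_isFrobeniusAt A hq hA` gives `s`; `σ := resK ι s`, `σR := resR ι A _`, `resR_frob`; `σE` from `exists_galE`; `T.frob_i`, `T.frob_0`.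
-/

noncomputable section

namespace Fermat.Agent.S34.V2

open ModularCurve Polynomial IntermediateField AlgebraicCurve Fermat.Agent.S18 Fermat.Agent.S18.V
open Fermat.Agent.S24 (Kb FN)
open Fermat.Agent.GES (GQ galF)
open Fermat.Agent.S34

/-- `T` is the concrete two-level context of levels `M`, `M * q` over `K`. -/
structure IsConc {R K : Type} [CommRing R] [IsDomain R] [IsDiscreteValuationRing R] [Field K]
    [CharZero K] [Algebra R K] [IsFractionRing R K] (M q : ℕ) [NeZero M] [NeZero q] {E : Type}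
    [Field E] [Algebra K E] [Algebra E ↥(FK K (M * q))] (T : Two R K q E ↥(FK K (M * q))) :
    Prop where
  jF_eq : ∀ z, T.jF z = z.1
  w_eq : ∀ z, T.w z = Mod.wQ K (M * q) q z
  jE_x : T.jE T.x = xK K (lineOf q)
  jE_mem : ∀ y : E, T.jE y ∈ FK K M
  jE_surj : ∀ f ∈ FK K M, ∃ y : E, T.jE y = f

/-! ### V2-ConcB -/

theorem exists_two {M q p : ℕ} [NeZero M] [NeZero q] {A : ValuationSubring Kb} (𝒞 : Ctx M q p A)
    (hu : 𝒞.u = 1) (hr : (lineOf q).r ∣ M) {ϖ : 𝒞.R} (hϖ : Irreducible ϖ) :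
    ∃ (E : Type) (_ : Field E) (_ : Algebra 𝒞.K E) (_ : Algebra E ↥(FK 𝒞.K (M * q)))
      (_ : IsScalarTower 𝒞.K E ↥(FK 𝒞.K (M * q))) (T : Two 𝒞.R 𝒞.K q E ↥(FK 𝒞.K (M * q))),
      IsConc M q T ∧ Chart1 𝒞.K ϖ T.x T.VE ∧ Chart1 𝒞.K ϖ T.x⁻¹ T.VE := by
  have hX : xK 𝒞.K 𝒞.Λ ∈ FK 𝒞.K M := Mod.out_X 𝒞.K q M hr
  let _ := Ctx.alg 𝒞 hu hX
  have htow : IsScalarTower 𝒞.K ↥𝒞.E ↥(FK 𝒞.K (M * q)) := algIncl_tower _
  have : Fact q.Prime := ⟨𝒞.hℓ⟩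
  set T := Ctx.two 𝒞 hu hX with hT
  have hTx : T.x = 𝒞.x := Subtype.ext (Ctx.cR_xK 𝒞)
  have hV : ∀ y, InO 𝒞.K ϖ 𝒞.x y ↔ y ∈ T.VE := fun y =>
    inO_iff_gauss (xM := 𝒞.x) 𝒞.vhyp 𝒞.FK_le_E (Ctx.E_le_FK 𝒞 hu hX) 𝒞.finiteDimensional hϖ y
  have hmem : rE 𝒞.R 𝒞.K ↥𝒞.E ϖ ∈ T.VE.nonunits := T.rE_mem_VE_nonunits.mpr hϖ.not_isUnit
  have hunif : ∀ z ∈ T.VE.nonunits, (rE 𝒞.R 𝒞.K ↥𝒞.E ϖ)⁻¹ * z ∈ T.VE := by
    intro z hz
    have h1 := T.div_unif_E hϖ hz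
    rwa [div_eq_mul_inv, mul_comm z] at h1
  refine ⟨↥𝒞.E, inferInstance, inferInstance, Ctx.alg 𝒞 hu hX, htow, T, ?_, ?_, ?_⟩
  · exact
    { jF_eq := fun z => rfl
      w_eq := fun z => rfl
      jE_x := Ctx.cR_xK 𝒞
      jE_mem := fun y => Ctx.E_le_FK 𝒞 hu hX y.2
      jE_surj := fun f hf => ⟨⟨f, 𝒞.FK_le_E hf⟩, rfl⟩ }
  · rw [hTx]
    exact chart1_fin (Ctx.isTameP1 𝒞 (Ctx.u_mem_E0 𝒞 hu)) hϖ T.VE hV hmem hunif
  · rw [hTx]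
    exact chart1_inf (Ctx.isTameP1 𝒞 (Ctx.u_mem_E0 𝒞 hu)) hϖ T.VE hV hmem hunif

/-- the same for an explicit `(K, ι)`. -/
theorem exists_two' (M q p : ℕ) [NeZero M] [NeZero q] (hq : q.Prime) (hqM : ¬ q ∣ M)
    (hr : (lineOf q).r ∣ M) (A : ValuationSubring Kb) (hA : A.LiesOverPrime q) (hp : p.Prime)
    (hpq : p ≠ q) (K : Type) [Field K] [NumberField K] [IsGalois ℚ K] (ι : K →+* Kb) (ζ : K)
    (hζ : IsPrimitiveRoot ζ p) (ζM : K) (hζM : IsPrimitiveRoot ζM M)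
    [IsDiscreteValuationRing ↥(A.comap ι)] {ϖ : ↥(A.comap ι)} (hϖ : Irreducible ϖ) :
    ∃ (E : Type) (_ : Field E) (_ : Algebra K E) (_ : Algebra E ↥(FK K (M * q)))
      (_ : IsScalarTower K E ↥(FK K (M * q))) (T : Two ↥(A.comap ι) K q E ↥(FK K (M * q))),
      IsConc M q T ∧ Chart1 K ϖ T.x T.VE ∧ Chart1 K ϖ T.x⁻¹ T.VE :=
  exists_two (trivCtx M q p A hq hqM hA hp hpq K ι ζ hζ ζM hζM) rfl hr hϖ

end Fermat.Agent.S34.V2
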