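import Fermat.Agent.S34.Defs
import Fermat.Agent.S34.Val

set_option autoImplicit false
set_option linter.unusedSectionVars false

/-!
# S34/V2 : saturation: integral over `K[t]` and `InO` ⇒ integral over `R[t]`   (task V2-Sat)

* `exists_pow_mul_mem_CInt`: `z` is a root of a monic `P` with coefficients in `K[t]`; finitely many denominators: there is `k` with
  `ϖ^k * (coefficients) ∈ evR (R[X])` (`S18.exists_evR_eq_aeval` gives `aeval t r = evR r' / evR (C a)`, `a ≠ 0`, and `a ∣ ϖ^k * unit`..., or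
  `IsLocalization.integerNormalization`); `ϖ^k z` is a root of `scaleRoots P (ϖ^k)`, monic with coefficients in `evR (R[X])`
  (`S18.mem_CInt_of_lifts` in `S18/AT/Inv.lean`).
* `mem_CInt_of_isIntegral`: descending induction on `k` with `S18.mem_CInt_of_mul_of_InO` (`InO` is stable under multiplication by `rE ϖ ^ j`:
  `InO.mul`, `InO.of_mem_CInt`, `rE_mem_CInt`).
* `_inv`: `InO_inv_iff`, `glue_transcendental_inv`.
-/

noncomputable section

namespace Fermat.Agent.S34.V2

open Polynomial IntermediateField Fermat.Agent.S18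

variable {R K F : Type} [CommRing R] [IsDomain R] [IsDiscreteValuationRing R] [Field K] [CharZero K]
  [Algebra R K] [IsFractionRing R K] [Field F] [Algebra K F]

theorem exists_pow_mul_mem_CInt {ϖ : R} (hϖ : Irreducible ϖ) {t z : F}
    (hz : IsIntegral (Algebra.adjoin K {t}) z) : ∃ k : ℕ, rE R K F ϖ ^ k * z ∈ CInt R K t :=
  Fermat.Agent.S34.exists_pow_mul_mem_CInt hϖ hz

theorem mem_CInt_of_isIntegral {ϖ : R} (hϖ : Irreducible ϖ) {t z : F} (ht : Transcendental K t)
    (hz : IsIntegral (Algebra.adjoin K {t}) z) (hO : InO K ϖ t z) : z ∈ CInt R K t := by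
  obtain ⟨k, hk⟩ := exists_pow_mul_mem_CInt hϖ hz
  induction k with
  | zero => simpa using hk
  | succ k ih =>
    apply ih
    apply mem_CInt_of_mul_of_InO ht hϖ
    · rw [← mul_assoc, ← pow_succ']
      exact hk
    · exact InO.mul hϖ (InO.of_mem_CInt hϖ (pow_mem (rE_mem_CInt t ϖ) k)) hO

theorem mem_CInt_inv_of_isIntegral {ϖ : R} (hϖ : Irreducible ϖ) {x z : F} (hx : Transcendental K x)
    (hz : IsIntegral (Algebra.adjoin K {x⁻¹}) z) (hO : InO K ϖ x z) : z ∈ CInt R K x⁻¹ := by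
  have hx0 : x ≠ 0 := by
    rintro rfl
    exact hx isAlgebraic_zero
  exact mem_CInt_of_isIntegral hϖ (glue_transcendental_inv hx) hz ((InO_inv_iff hϖ hx0).2 hO)

/-- the form used with `Branches`. -/
theorem Branches.mem_CInt {ϖ : R} (hϖ : Irreducible ϖ) {x : F} {Vi V0 : ValuationSubring F}
    (B : Branches (K := K) ϖ x Vi V0) {z : F} (hz : IsIntegral (Algebra.adjoin K {x}) z) (hi : z ∈ Vi)
    (h0 : z ∈ V0) : z ∈ CInt R K x :=
  mem_CInt_of_isIntegral hϖ B.trans hz ((B.inO_iff z).2 ⟨hi, h0⟩)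

theorem Branches.mem_CInt_inv {ϖ : R} (hϖ : Irreducible ϖ) {x : F} {Vi V0 : ValuationSubring F}
    (B : Branches (K := K) ϖ x Vi V0) {z : F} (hz : IsIntegral (Algebra.adjoin K {x⁻¹}) z) (hi : z ∈ Vi)
    (h0 : z ∈ V0) : z ∈ CInt R K x⁻¹ :=
  mem_CInt_inv_of_isIntegral hϖ B.trans hz ((B.inO_iff z).2 ⟨hi, h0⟩)

end Fermat.Agent.S34.V2
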