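import Fermat.Agent.S18.V.Hyp
import Fermat.Agent.S18.AT.Val

set_option autoImplicit false
set_option linter.unusedSectionVars false

/-!
# S34/V2 : the Gauss valuation on `Frac R((q)) ⊆ K((q))`   (task V2-Gauss)

`R` a DVR, `K = Frac R`.  `gaussL R K` = restriction to `K((q))` of `S18.V.gaussO R K` (a valuation ring of an algebraic
closure of `K((q))` dominating `R((q))_(ϖ)`).  Everything we know about it:
`S18.V.inc_mem_gaussO` (`cR α ∈ gaussL`) and `S18.V.inc_mem_nonunits_iff` (`cR α ∈ 𝔪 ↔` no coefficient of `α` is a unit).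

WARNING: `gaussL ∩ F` is NOT `{f : all coefficients in R}`.  The right description is by fractions:
`InQF R f` : `f = cR α / cR β`; `Prim α` : some coefficient of `α` is a unit.

All statements live in the single field `K((q))`: no subfield coercions.

## Sketches
* `exists_prim`: `n` := the minimum of the `ϖ`-adic valuations of the nonzero coefficients of `α` (`Nat.find`; compare
  `S18.V.BRDiv.normalize_aux`, `BR_normalize`); `α' := ` coefficientwise quotient (same support, so `isPWO`).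
* `InQF.nf`: normalise `α` and `β` with `exists_prim`, `k = n_α - n_β`.
* `frac_mem`, `frac_mem_nonunits_iff`: `cR β` is a unit of `gaussL` (`cR_mem_nonunits_iff`), `f = cR α * (cR β)⁻¹`.
* `InQF.exists_frac`: from `nf`: `k ≥ 0` because `ϖ^k * unit ∈ gaussL`; take `α := ϖ^k α'`.
-/

noncomputable section

namespace Fermat.Agent.S34.V2

open ModularCurve Fermat.Agent.S18 Fermat.Agent.S18.V

variable (R K : Type) [CommRing R] [IsDomain R] [IsDiscreteValuationRing R] [Field K]
  [Algebra R K] [IsFractionRing R K]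

/-- the Gauss valuation ring of `K((q))` (only meaningful on `Frac R((q))`). -/
def gaussL : ValuationSubring (LaurentSeries K) := (gaussO R K).comap (inc K)

/-- constants `R → K((q))`. -/
def cst : R →+* LaurentSeries K := (algebraMap K (LaurentSeries K)).comp (algebraMap R K)

variable {R K}

/-- some coefficient is a unit. -/
def Prim (α : LaurentSeries R) : Prop := ∃ n, IsUnit (α.coeff n)

variable (R) in
/-- `f ∈ Frac R((q))`. -/
def InQF (f : LaurentSeries K) : Prop :=
  ∃ α β : LaurentSeries R, β ≠ 0 ∧ f * cR R K β = cR R K α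

theorem mem_gaussL_iff (f : LaurentSeries K) : f ∈ gaussL R K ↔ inc K f ∈ gaussO R K := Iff.rfl

theorem mem_nonunits_gaussL_iff (f : LaurentSeries K) :
    f ∈ (gaussL R K).nonunits ↔ inc K f ∈ (gaussO R K).nonunits := by
  rw [ValuationSubring.mem_nonunits_iff_or, ValuationSubring.mem_nonunits_iff_or, mem_gaussL_iff,
    map_inv₀, map_eq_zero]

theorem cR_mem_gaussL (α : LaurentSeries R) : cR R K α ∈ gaussL R K := inc_mem_gaussO R K α

theorem cR_mem_nonunits_iff (α : LaurentSeries R) :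
    cR R K α ∈ (gaussL R K).nonunits ↔ ∀ n, ¬ IsUnit (α.coeff n) := by
  rw [mem_nonunits_gaussL_iff]
  exact inc_mem_nonunits_iff R K α

theorem cR_notMem_nonunits {α : LaurentSeries R} (h : Prim α) : cR R K α ∉ (gaussL R K).nonunits := by
  rw [cR_mem_nonunits_iff]
  obtain ⟨n, hn⟩ := h
  exact fun h' => h' n hn

theorem cst_eq_cR (r : R) : cst R K r = cR R K (HahnSeries.single 0 r) := by
  rw [cst, RingHom.comp_apply, algebraMap_laurentSeries_eq_single, coeffMap_single]

theorem cst_mem_gaussL (r : R) : cst R K r ∈ gaussL R K := by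
  rw [cst_eq_cR]
  exact cR_mem_gaussL _

theorem cst_mem_nonunits_iff (r : R) : cst R K r ∈ (gaussL R K).nonunits ↔ ¬ IsUnit r := by
  rw [cst_eq_cR, cR_mem_nonunits_iff]
  constructor
  · intro h
    have := h 0
    rwa [HahnSeries.coeff_single_same] at this
  · intro h n
    by_cases hn : n = 0
    · subst hn; rwa [HahnSeries.coeff_single_same]
    · rw [HahnSeries.coeff_single_of_ne hn]; exact not_isUnit_zero

theorem Prim.ne_zero {α : LaurentSeries R} (h : Prim α) : α ≠ 0 := by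
  rintro rfl
  obtain ⟨n, hn⟩ := h
  exact not_isUnit_zero hn

theorem Prim.cR_ne_zero {α : LaurentSeries R} (h : Prim α) : cR R K α ≠ 0 := by
  intro h0
  apply h.ne_zero
  apply Gauss.cR_injective R K
  rw [h0, map_zero]

theorem prim_iff_redR_ne_zero (α : LaurentSeries R) : Prim α ↔ Gauss.redR R α ≠ 0 := by
  rw [Ne, Gauss.redR_eq_zero_iff, Prim]
  push Not
  rfl

theorem prim_one : Prim (1 : LaurentSeries R) := ⟨0, by simp⟩

theorem cR_C (r : R) : cR R K (HahnSeries.C r) = cst R K r := by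
  rw [cst_eq_cR]; rfl

theorem cst_ne_zero {r : R} (hr : r ≠ 0) : cst R K r ≠ 0 := by
  rw [cst, RingHom.comp_apply, Ne, map_eq_zero]
  exact (map_ne_zero_iff _ (IsFractionRing.injective R K)).mpr hr

/-- division of a non-primitive series by the uniformiser. -/
theorem exists_div_of_not_prim {ϖ : R} (hϖ : Irreducible ϖ) {α : LaurentSeries R} (hα : ¬ Prim α) :
    ∃ α₁ : LaurentSeries R, α = HahnSeries.C ϖ * α₁ := by
  have hdvd : ∀ n, ϖ ∣ α.coeff n := by
    intro n
    have hn : ¬ IsUnit (α.coeff n) := fun h => hα ⟨n, h⟩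
    have h1 : α.coeff n ∈ IsLocalRing.maximalIdeal R := (IsLocalRing.mem_maximalIdeal _).mpr hn
    rw [hϖ.maximalIdeal_eq, Ideal.mem_span_singleton] at h1
    exact h1
  choose c hc using hdvd
  refine ⟨⟨c, ?_⟩, ?_⟩
  · refine α.isPWO_support.mono ?_
    intro n hn
    simp only [Function.mem_support, ne_eq] at hn ⊢
    intro h
    apply hn
    rw [hc n] at h
    exact (mul_eq_zero.mp h).resolve_left hϖ.ne_zero
  · ext n
    rw [HahnSeries.C_mul_eq_smul, HahnSeries.coeff_smul, smul_eq_mul]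
    exact hc n

theorem exists_prim_aux {ϖ : R} (hϖ : Irreducible ϖ) (v : ℕ) : ∀ (α : LaurentSeries R) (n₀ : ℤ)
    (u : Rˣ), α.coeff n₀ = u * ϖ ^ v →
    ∃ (n : ℕ) (α' : LaurentSeries R), Prim α' ∧ α = HahnSeries.C (ϖ ^ n) * α' := by
  induction v with
  | zero =>
    intro α n₀ u h
    refine ⟨0, α, ⟨n₀, ?_⟩, by simp⟩
    rw [h, pow_zero, mul_one]; exact u.isUnit
  | succ v ih =>
    intro α n₀ u h
    by_cases hα : Prim α
    · exact ⟨0, α, hα, by simp⟩
    · obtain ⟨α₁, h₁⟩ := exists_div_of_not_prim hϖ hα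
      have h2 : α₁.coeff n₀ = u * ϖ ^ v := by
        rw [h₁, HahnSeries.C_mul_eq_smul, HahnSeries.coeff_smul, smul_eq_mul] at h
        apply mul_left_cancel₀ hϖ.ne_zero
        rw [h]; ring
      obtain ⟨n, α', hα', e⟩ := ih α₁ n₀ u h2
      refine ⟨n + 1, α', hα', ?_⟩
      rw [h₁, e, ← mul_assoc, ← map_mul, pow_succ']

/-- the product of two primitive series is primitive (`κ((q))` is a domain). -/
theorem Prim.mul {α β : LaurentSeries R} (hα : Prim α) (hβ : Prim β) : Prim (α * β) := by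
  rw [prim_iff_redR_ne_zero] at hα hβ ⊢
  rw [map_mul]
  exact mul_ne_zero hα hβ

theorem exists_prim {ϖ : R} (hϖ : Irreducible ϖ) {α : LaurentSeries R} (hα : α ≠ 0) :
    ∃ (n : ℕ) (α' : LaurentSeries R), Prim α' ∧ α = HahnSeries.C (ϖ ^ n) * α' := by
  obtain ⟨n₀, hn₀⟩ : ∃ n₀, α.coeff n₀ ≠ 0 := by
    by_contra hcon
    push Not at hcon
    exact hα (HahnSeries.ext (funext hcon))
  obtain ⟨v, u, hu⟩ := IsDiscreteValuationRing.eq_unit_mul_pow_irreducible hn₀ hϖ
  exact exists_prim_aux hϖ v α n₀ u hu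

theorem val_cR_eq_one {α : LaurentSeries R} (h : Prim α) :
    (gaussL R K).valuation (cR R K α) = 1 := by
  apply le_antisymm
  · exact ((gaussL R K).valuation_le_one_iff _).mpr (cR_mem_gaussL α)
  · rw [← not_lt, ← ValuationSubring.mem_nonunits_iff]
    exact cR_notMem_nonunits h

theorem val_cst_lt_one {ϖ : R} (hϖ : Irreducible ϖ) : (gaussL R K).valuation (cst R K ϖ) < 1 := by
  rw [← ValuationSubring.mem_nonunits_iff, cst_mem_nonunits_iff]
  exact hϖ.not_isUnit

theorem val_cst_pos {ϖ : R} (hϖ : Irreducible ϖ) : 0 < (gaussL R K).valuation (cst R K ϖ) := by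
  rw [zero_lt_iff, Ne, map_eq_zero]
  exact cst_ne_zero hϖ.ne_zero

theorem val_frac {f : LaurentSeries K} {α β : LaurentSeries R} (hβ : Prim β)
    (h : f * cR R K β = cR R K α) :
    (gaussL R K).valuation f = (gaussL R K).valuation (cR R K α) := by
  rw [← h, map_mul, val_cR_eq_one hβ, mul_one]

theorem val_nf {ϖ : R} {f : LaurentSeries K} {k : ℤ} {α β : LaurentSeries R}
    (hα : Prim α) (hβ : Prim β) (h : f * cR R K β = cst R K ϖ ^ k * cR R K α) :
    (gaussL R K).valuation f = (gaussL R K).valuation (cst R K ϖ) ^ k := by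
  have := congrArg (gaussL R K).valuation h
  rwa [map_mul, map_mul, val_cR_eq_one hα, val_cR_eq_one hβ, mul_one, mul_one, map_zpow₀] at this

/-- a fraction with primitive denominator is Gauss-integral. -/
theorem frac_mem {f : LaurentSeries K} {α β : LaurentSeries R} (hβ : Prim β)
    (h : f * cR R K β = cR R K α) : f ∈ gaussL R K := by
  rw [← ValuationSubring.valuation_le_one_iff, val_frac hβ h, ValuationSubring.valuation_le_one_iff]
  exact cR_mem_gaussL α

theorem frac_mem_nonunits_iff {f : LaurentSeries K} {α β : LaurentSeries R} (hβ : Prim β)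
    (h : f * cR R K β = cR R K α) : f ∈ (gaussL R K).nonunits ↔ ∀ n, ¬ IsUnit (α.coeff n) := by
  rw [← cR_mem_nonunits_iff (K := K), ValuationSubring.mem_nonunits_iff,
    ValuationSubring.mem_nonunits_iff, val_frac hβ h]

/-- normal form. -/
theorem InQF.nf {ϖ : R} (hϖ : Irreducible ϖ) {f : LaurentSeries K} (hf : InQF R f) (hf0 : f ≠ 0) :
    ∃ (k : ℤ) (α β : LaurentSeries R), Prim α ∧ Prim β ∧ f * cR R K β = cst R K ϖ ^ k * cR R K α := by
  obtain ⟨α, β, hβ, h⟩ := hf
  have hα : α ≠ 0 := by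
    rintro rfl
    rw [map_zero] at h
    rcases mul_eq_zero.mp h with h | h
    · exact hf0 h
    · apply hβ
      apply Gauss.cR_injective R K
      rw [h, map_zero]
  obtain ⟨a, α', hα', rfl⟩ := exists_prim hϖ hα
  obtain ⟨b, β', hβ', rfl⟩ := exists_prim hϖ hβ
  refine ⟨(a : ℤ) - b, α', β', hα', hβ', ?_⟩
  have hc := cst_ne_zero (K := K) hϖ.ne_zero
  rw [map_mul, map_mul, cR_C, cR_C, map_pow, map_pow] at h
  rw [zpow_sub₀ hc, zpow_natCast, zpow_natCast]
  field_simp
  linear_combination h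

theorem nf_mem_iff {ϖ : R} (hϖ : Irreducible ϖ) {f : LaurentSeries K} {k : ℤ} {α β : LaurentSeries R}
    (hα : Prim α) (hβ : Prim β) (h : f * cR R K β = cst R K ϖ ^ k * cR R K α) :
    f ∈ gaussL R K ↔ 0 ≤ k := by
  rw [← ValuationSubring.valuation_le_one_iff, val_nf hα hβ h,
    zpow_le_one_iff_right_of_lt_one₀ (val_cst_pos hϖ) (val_cst_lt_one hϖ)]

theorem nf_mem_nonunits_iff {ϖ : R} (hϖ : Irreducible ϖ) {f : LaurentSeries K} {k : ℤ}
    {α β : LaurentSeries R} (hα : Prim α) (hβ : Prim β)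
    (h : f * cR R K β = cst R K ϖ ^ k * cR R K α) : f ∈ (gaussL R K).nonunits ↔ 0 < k := by
  rw [ValuationSubring.mem_nonunits_iff, val_nf hα hβ h,
    zpow_lt_one_iff_right_of_lt_one₀ (val_cst_pos hϖ) (val_cst_lt_one hϖ)]

/-- a Gauss-integral element of `Frac R((q))` is a fraction with primitive denominator. -/
theorem InQF.exists_frac {f : LaurentSeries K} (hf : InQF R f) (h : f ∈ gaussL R K) :
    ∃ α β : LaurentSeries R, Prim β ∧ f * cR R K β = cR R K α := by
  by_cases hf0 : f = 0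
  · exact ⟨0, 1, prim_one, by rw [hf0, zero_mul, map_zero]⟩
  obtain ⟨ϖ, hϖ⟩ := IsDiscreteValuationRing.exists_irreducible R
  obtain ⟨k, α, β, hα, hβ, e⟩ := hf.nf hϖ hf0
  have hk := (nf_mem_iff hϖ hα hβ e).mp h
  obtain ⟨n, rfl⟩ := Int.eq_ofNat_of_zero_le hk
  refine ⟨HahnSeries.C (ϖ ^ n) * α, β, hβ, ?_⟩
  rw [e, map_mul, cR_C, map_pow, zpow_natCast]

/-- `ϖ` is a uniformiser. -/
theorem InQF.exists_unit {ϖ : R} (hϖ : Irreducible ϖ) {f : LaurentSeries K} (hf : InQF R f)
    (hf0 : f ≠ 0) : ∃ k : ℤ, cst R K ϖ ^ k * f ∈ gaussL R K ∧ (cst R K ϖ ^ k * f)⁻¹ ∈ gaussL R K := by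
  obtain ⟨k, α, β, hα, hβ, e⟩ := hf.nf hϖ hf0
  have hv := val_nf hα hβ e
  have hpos := val_cst_pos (K := K) hϖ
  refine ⟨-k, ?_, ?_⟩
  · rw [← ValuationSubring.valuation_le_one_iff, map_mul, map_zpow₀, hv, ← zpow_add₀ hpos.ne']
    simp
  · rw [← ValuationSubring.valuation_le_one_iff, map_inv₀, map_mul, map_zpow₀, hv,
      ← zpow_add₀ hpos.ne']
    simp

theorem InQF.div_unif {ϖ : R} (hϖ : Irreducible ϖ) {f : LaurentSeries K} (hf : InQF R f)
    (h : f ∈ (gaussL R K).nonunits) : f / cst R K ϖ ∈ gaussL R K := by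
  by_cases hf0 : f = 0
  · rw [hf0, zero_div]; exact zero_mem _
  obtain ⟨k, α, β, hα, hβ, e⟩ := hf.nf hϖ hf0
  have hk := (nf_mem_nonunits_iff hϖ hα hβ e).mp h
  have hc := cst_ne_zero (K := K) hϖ.ne_zero
  have e' : f / cst R K ϖ * cR R K β = cst R K ϖ ^ (k - 1) * cR R K α := by
    rw [zpow_sub₀ hc, zpow_one]
    field_simp
    linear_combination e
  exact (nf_mem_iff hϖ hα hβ e').mpr (by omega)

end Fermat.Agent.S34.V2
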