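import Fermat.Agent.S34.Defs
import Fermat.Agent.S34.V2.Gauss

set_option autoImplicit false
set_option linter.unusedSectionVars false

/-!
# S34/V2 : the abstract two-level context `Two`  (definitions only)

`E` (level `M`, prime to `q`) and `F` (level `N = qM`) are ABSTRACT fields (type variables: kernel-safe) with `K`-embeddings
`jE`, `jF` into `K((Q))` (`q`-expansions), `w : F ≃ F` the Atkin-Lehner involution, characterised by `w (y) = y(Q^q)` for `y ∈ E`.

* `T.VE := gaussL.comap jE`, `T.Vi := gaussL.comap jF`, `T.V0 := T.Vi.comap w`.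
-/

noncomputable section

namespace Fermat.Agent.S34.V2

open ModularCurve Polynomial IntermediateField Fermat.Agent.S18 Fermat.Agent.S18.V

/-- the two-level context. -/
structure Two (R K : Type) [CommRing R] [IsDomain R] [IsDiscreteValuationRing R] [Field K]
    [Algebra R K] [IsFractionRing R K] (q : ℕ) [NeZero q] (E F : Type) [Field E] [Field F]
    [Algebra K E] [Algebra K F] [Algebra E F] where
  /-- `q`-expansion at level `M`. -/
  jE : E →ₐ[K] LaurentSeries K
  /-- `q`-expansion at level `N`. -/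
  jF : F →ₐ[K] LaurentSeries K
  compat : ∀ y, jF (algebraMap E F y) = jE y
  inQF : ∀ z, InQF R (jF z)
  /-- the Atkin-Lehner involution. -/
  w : F ≃ₐ[K] F
  w_w : ∀ z, w (w z) = z
  w_E : ∀ y : E, jF (w (algebraMap E F y)) = qExpand K q (jE y)
  fin : FiniteDimensional E F
  deg : Module.finrank E F ≤ q + 1
  /-- the coordinate. -/
  x : E
  /-- its integral `q`-expansion. -/
  x₀ : LaurentSeries R
  hx : cR R K x₀ = jE x
  hord : x₀.order = -1
  hlead : IsUnit (x₀.coeff (-1))
  hq : q.Prime
  hqR : ¬ IsUnit (q : R)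
  hfrob : qExpand K q (jE x) - jE x ^ q ∈ (gaussL R K).nonunits

namespace Two

variable {R K : Type} [CommRing R] [IsDomain R] [IsDiscreteValuationRing R] [Field K]
  [Algebra R K] [IsFractionRing R K] {q : ℕ} [NeZero q] {E F : Type} [Field E] [Field F]
  [Algebra K E] [Algebra K F] [Algebra E F] (T : Two R K q E F)

/-- the Gauss valuation ring of level `M`. -/
def VE : ValuationSubring E := (gaussL R K).comap (T.jE : E →+* LaurentSeries K)

/-- the branch `∞`. -/
def Vi : ValuationSubring F := (gaussL R K).comap (T.jF : F →+* LaurentSeries K)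

/-- the branch `0`. -/
def V0 : ValuationSubring F := T.Vi.comap (T.w : F →+* F)

/-- `x` at level `N`. -/
def xF : F := algebraMap E F T.x

/-- `x(Q^q)`. -/
def xq : F := T.w T.xF

/-- the second embedding `V_q : E → F`. -/
def i2 : E →+* F := (T.w : F →+* F).comp (algebraMap E F)

/-- `F` as an algebra over the DVR `T.VE`. -/
abbrev algVE : Algebra ↥T.VE F := ((algebraMap E F).comp T.VE.subtype).toAlgebra

theorem mem_VE {y : E} : y ∈ T.VE ↔ T.jE y ∈ gaussL R K := Iff.rfl

theorem mem_Vi {z : F} : z ∈ T.Vi ↔ T.jF z ∈ gaussL R K := Iff.rfl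

theorem mem_V0 {z : F} : z ∈ T.V0 ↔ T.jF (T.w z) ∈ gaussL R K := Iff.rfl

theorem mem_V0' {z : F} : z ∈ T.V0 ↔ T.w z ∈ T.Vi := Iff.rfl

theorem i2_apply (y : E) : T.i2 y = T.w (algebraMap E F y) := rfl

end Two

end Fermat.Agent.S34.V2
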