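import Fermat.Agent.S34.V2.TwoCount

set_option autoImplicit false
set_option linter.unusedSectionVars false
set_option linter.style.haveILetI false

/-!
# S34/V2 : `Branches ϖ xF Vi V0`   (task V2-TwoBranches)

Input from level `M`: `hE : InO K ϖ T.x y ↔ y ∈ T.VE` (unique Gauss extension at level prime to `q`, `LevelM.lean`).

* `trans`, `const`, `unif_i`, `unif_0`, `mem_i`, `mem_0`: `TwoBasic.lean`;  `fin`: `S34.finiteDimensional_tower` (`haveI := T.fin`).
* `inO_iff` (→): `InO K ϖ xF y` gives `s : R[X]`, `¬ C ϖ ∣ s`, `evR xF s * y ∈ CInt R K xF`.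
  `CInt R K xF ⊆ Vi, V0`: `S18.mem_of_isIntegralElem` with `evR R K xF P ∈ Vi` (a polynomial in `xF` with coefficients `rE r`; `eval₂` induction, or
  `S34.map_evR` + `hE` + `InO.of_mem_CInt`/`evR_mem_CInt` + `T.map_mem_Vi`).  `(evR R K T.x s)⁻¹` is `InO` at level `M` (witness `s`), so it lies in `VE` by `hE`,
  hence `(evR R K xF s)⁻¹ ∈ Vi, V0` (`S34.map_evR`, `map_inv₀`).  (`evR s ≠ 0` by `evR_injective T.trans_x`, or treat `evR s = 0` separately.)
* `inO_iff` (←): `T.integral_of_mem` gives `P : E[X]` monic with coefficients in `VE`, i.e. `InO K ϖ T.x (P.coeff i)` by `hE`: `s_i * P.coeff i ∈ CInt R K T.x`.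
  Let `s := ∏_{i < deg P} s_i` (`¬ C ϖ ∣ s`: `not_C_dvd_mul`); `evR s * P.coeff i ∈ CInt`.  `evR xF s * z` is a root of `scaleRoots P (evR s)`, monic with coefficients
  `P.coeff i * (evR s)^(n - i) ∈ CInt R K T.x` for `i < n`; so it is integral over `CInt R K T.x` (mapped to `F`), hence over `R[X]`
  (`isIntegral_trans`-style; `RingHom.IsIntegralElem`; compare `S18/AT/Inv.lean : mem_CInt_of_lifts`, `S34.map_mem_CInt`).
-/

noncomputable section

namespace Fermat.Agent.S34.V2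

open ModularCurve Polynomial IntermediateField Fermat.Agent.S18 Fermat.Agent.S18.V

namespace Two

variable {R K : Type} [CommRing R] [IsDomain R] [IsDiscreteValuationRing R] [Field K] [CharZero K]
  [Algebra R K] [IsFractionRing R K] {q : ℕ} [NeZero q] {E F : Type} [Field E] [Field F]
  [Algebra K E] [Algebra K F] [Algebra E F] [IsScalarTower K E F] (T : Two R K q E F)

omit [NeZero q] [Field E] [Algebra K E] [Algebra E F] [IsScalarTower K E F] in
theorem tb_evR_mem (V : ValuationSubring F) (hr : ∀ r : R, rE R K F r ∈ V) {t : F} (ht : t ∈ V)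
    (p : R[X]) : evR R K t p ∈ V := by
  induction p using Polynomial.induction_on' with
  | add p q hp hq => rw [map_add]; exact add_mem hp hq
  | monomial k a =>
    rw [← C_mul_X_pow_eq_monomial, map_mul, map_pow, evR_C, evR_X]
    exact mul_mem (hr a) (pow_mem ht k)

omit [NeZero q] in
/-- transitivity of integrality. -/
theorem tb_mem_CInt_of_coeff {t : E} {y : F} (Q : E[X]) (hQ : Q.Monic)
    (hc : ∀ i, Q.coeff i ∈ CInt R K t) (hy : aeval y Q = 0) :
    y ∈ CInt R K (algebraMap E F t) := by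
  letI : Algebra R[X] E := chartAlg R K t
  letI : Algebra R[X] F := chartAlg R K (algebraMap E F t)
  haveI : IsScalarTower R[X] E F := IsScalarTower.of_algebraMap_eq fun p => (map_evR t p).symm
  have hl : Q ∈ lifts (algebraMap (integralClosure R[X] E) E) :=
    (lifts_iff_coeff_lifts Q).2 fun i => ⟨⟨Q.coeff i, hc i⟩, rfl⟩
  obtain ⟨Q', hQ', -, hQm⟩ := lifts_and_natDegree_eq_and_monic hl hQ
  have h1 : IsIntegral (integralClosure R[X] E) y := by
    refine ⟨Q', hQm, ?_⟩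
    rw [IsScalarTower.algebraMap_eq (integralClosure R[X] E) E F, ← eval₂_map, hQ']
    exact hy
  exact isIntegral_trans y h1

theorem CInt_le_Vi {z : F} (hz : z ∈ CInt R K T.xF) : z ∈ T.Vi :=
  mem_of_isIntegralElem T.Vi (evR R K T.xF) (tb_evR_mem T.Vi T.rE_mem_Vi T.xF_mem_Vi) hz

theorem CInt_le_V0 {z : F} (hz : z ∈ CInt R K T.xF) : z ∈ T.V0 :=
  mem_of_isIntegralElem T.V0 (evR R K T.xF) (tb_evR_mem T.V0 T.rE_mem_V0 T.xF_mem_V0) hz

theorem inO_of_mem {ϖ : R} (hϖ : Irreducible ϖ) (hE : ∀ y : E, InO K ϖ T.x y ↔ y ∈ T.VE) {z : F}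
    (hi : z ∈ T.Vi) (h0 : z ∈ T.V0) : InO K ϖ T.xF z := by
  classical
  obtain ⟨P, hP, hPc, hPz⟩ := T.integral_of_mem hi h0
  choose s hs hsc using fun i => (hE (P.coeff i)).2 (hPc i)
  set S : R[X] := ∏ i ∈ Finset.range P.natDegree, s i with hS
  have hSnd : ¬ C ϖ ∣ S := by
    intro hd
    obtain ⟨i, -, hi⟩ := (prime_C_unif hϖ).exists_mem_finset_dvd hd
    exact hs i hi
  have hSc : ∀ i, i < P.natDegree → evR R K T.x S * P.coeff i ∈ CInt R K T.x := by
    intro i hi
    obtain ⟨c, hc⟩ := Finset.dvd_prod_of_mem s (Finset.mem_range.2 hi)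
    rw [hS, hc, map_mul, mul_comm (evR R K T.x (s i)), mul_assoc]
    exact mul_mem (evR_mem_CInt _ _) (hsc i)
  refine ⟨S, hSnd, ?_⟩
  have hmap : evR R K T.xF S = algebraMap E F (evR R K T.x S) := (map_evR T.x S).symm
  rw [hmap]
  refine tb_mem_CInt_of_coeff (P.scaleRoots (evR R K T.x S)) ((monic_scaleRoots_iff _).2 hP) ?_
    (scaleRoots_aeval_eq_zero hPz)
  intro i
  rw [coeff_scaleRoots]
  rcases lt_trichotomy i P.natDegree with hi | hi | hi
  · obtain ⟨k, hk⟩ : ∃ k, P.natDegree - i = k + 1 := ⟨P.natDegree - i - 1, by omega⟩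
    rw [hk, pow_succ, ← mul_assoc, mul_comm (P.coeff i * _), ← mul_assoc]
    exact mul_mem (hSc i hi) (pow_mem (evR_mem_CInt _ _) k)
  · rw [hi, Nat.sub_self, pow_zero, mul_one, hP.coeff_natDegree]
    exact one_mem _
  · rw [coeff_eq_zero_of_natDegree_lt hi, zero_mul]
    exact zero_mem _

theorem mem_of_inO {ϖ : R} (hϖ : Irreducible ϖ) (hE : ∀ y : E, InO K ϖ T.x y ↔ y ∈ T.VE) {z : F}
    (hz : InO K ϖ T.xF z) : z ∈ T.Vi ∧ z ∈ T.V0 := by
  obtain ⟨s, hs, h⟩ := hz
  have hs0 : s ≠ 0 := by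
    rintro rfl
    exact hs (dvd_zero _)
  have hne : evR R K T.x s ≠ 0 := by
    intro h0
    exact hs0 (evR_injective (R := R) T.trans_x (by rw [h0, map_zero]))
  have hinv : (evR R K T.x s)⁻¹ ∈ T.VE := by
    rw [← hE]
    exact ⟨s, hs, by rw [mul_inv_cancel₀ hne]; exact one_mem _⟩
  have hmap : evR R K T.xF s = algebraMap E F (evR R K T.x s) := (map_evR T.x s).symm
  have hneF : evR R K T.xF s ≠ 0 := by
    rw [hmap]
    simpa using hne
  have e : z = algebraMap E F (evR R K T.x s)⁻¹ * (evR R K T.xF s * z) := by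
    rw [map_inv₀, ← hmap, inv_mul_cancel_left₀ hneF]
  constructor
  · rw [e]
    exact mul_mem (T.map_mem_Vi.2 hinv) (T.CInt_le_Vi h)
  · rw [e]
    exact mul_mem (T.map_mem_V0.2 hinv) (T.CInt_le_V0 h)

theorem branches {ϖ : R} (hϖ : Irreducible ϖ) (hfinE : FiniteDimensional K⟮T.x⟯ E)
    (hE : ∀ y : E, InO K ϖ T.x y ↔ y ∈ T.VE) : Branches (K := K) ϖ T.xF T.Vi T.V0 where
  trans := T.trans_xF
  fin := by
    have := T.fin
    exact finiteDimensional_tower hfinE
  const := T.const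
  inO_iff y := ⟨T.mem_of_inO hϖ hE, fun h => T.inO_of_mem hϖ hE h.1 h.2⟩
  unif_i _ hz := T.unif_i hϖ hz
  unif_0 _ hz := T.unif_0 hϖ hz
  mem_i := T.rE_mem_Vi_nonunits.2 hϖ.not_isUnit
  mem_0 := T.rE_mem_V0_nonunits.2 hϖ.not_isUnit

end Two

end Fermat.Agent.S34.V2
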