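import Mathlib

set_option autoImplicit false
set_option linter.unusedSectionVars false
set_option linter.deprecated false

/-!
# S34/V2 (also S36/V3) : the counting lemma  (task V2-Count, Mathlib only)

`A₀` a DVR with fraction field `K1` (char. 0), `L / K1` finite.  `V i` (`i : ι`, finite) pairwise distinct valuation
subrings of `L` extending `A₀`, with `e(V i / A₀) ≥ e i` (witness `π i`) and `f(V i / A₀) ≥ f i` (witnesses `b i k`).
If `[L : K1] ≤ ∑ e i * f i` then the `V i` are ALL the extensions of `A₀`, the bounds are equalities, and `⋂ V i` is the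
integral closure of `A₀`.

## Suggested proof (via `Ideal.sum_ramification_inertia`)
`B := integralClosure A₀ L` is a Dedekind domain, finite over `A₀` (`integralClosure.isDedekindDomain`,
`IsIntegralClosure.finite`, `integralClosure.isFractionRing_of_finite_extension`).  For a valuation subring `W ⊇ A₀` with
`𝔪_{A₀} ⊆ 𝔪_W` put `P_W := {b : B | (b : L) ∈ W.nonunits}`.
1. `B ≤ W` (valuation rings are integrally closed), `P_W` is a prime of `B` over `𝔪_{A₀}`, nonzero, so maximal.
2. `W = B_{P_W}`: for `y : L` either `∃ s ∉ P_W, s y ∈ B` or `∃ s ∉ P_W, s y⁻¹ ∈ P_W` (the localisation of a Dedekind domain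
   at a maximal ideal is a DVR, in particular a valuation ring of `L`); the second case is excluded for `y ∈ W`.
   Hence `W ↦ P_W` is injective.
3. `f i ≤ inertiaDeg 𝔪 P_i`: write `b i k = c k / s` with `c k ∈ B`, `s ∈ B \ P_i`; the `c k` are linearly independent in
   `B / P_i` over `A₀ / 𝔪`.  `e i ≤ ramificationIdx`: `ϖ ∈ P_i ^ (e i)` because `v(ϖ) ≥ e i * v(π i) ≥ e i * v(unif)` in the DVR
   `B_{P_i}` (`P ^ n B_P ∩ B = P ^ n` for `P` maximal; or use `Ideal.IsDedekindDomain.ramificationIdx_eq_normalizedFactors_count`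
   / `HeightOneSpectrum.valuation`).
4. `∑_{P ∣ 𝔪} e_P f_P = [L : K1] ≤ ∑ e i f i ≤ ∑_i e_{P_i} f_{P_i}`, all terms positive: the `P_i` are all the primes over `𝔪` and
   `e_{P_i} = e i`, `f_{P_i} = f i`.
5. `count_integral`: the ideal `{s : B | s y ∈ B}` is not contained in any maximal ideal (they are the `P_i`; use 2).
   `count_all`: `P_W = P_i` for some `i`, so `W = V i` by 2.  `count_span`: `dim B / P_i = f i` and the `c k` are independent,
   so they span.  `count_unif`, `count_ram`: `v_i(ϖ) = e i * v_i(unif)` and `v_i(ϖ) ≥ e i * v_i(π i)`, `v_i(π i) ≥ v_i(unif)`.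

The first taker may split this file into `Count/*.lean` (add rows to `s34_tasks`), keeping the five final statements verbatim.
-/

noncomputable section

namespace Fermat.Agent.S34.V2

/-- `V` extends the valuation ring `A₀`; `π` witnesses `e(V/A₀) ≥ e`; the family `b` witnesses `f(V/A₀) ≥ f`. -/
structure ExtData (A₀ : Type*) {L : Type*} [CommRing A₀] [Field L] [Algebra A₀ L]
    (V : ValuationSubring L) (e : ℕ) (π : L) {f : ℕ} (b : Fin f → L) : Prop where
  mem : ∀ a : A₀, algebraMap A₀ L a ∈ V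
  nonunit : ∀ a : A₀, ¬ IsUnit a → algebraMap A₀ L a ∈ V.nonunits
  pi_ne : π ≠ 0
  pi_mem : π ∈ V.nonunits
  pi_dvd : ∀ a : A₀, ¬ IsUnit a → algebraMap A₀ L a / π ^ e ∈ V
  b_mem : ∀ k, b k ∈ V
  indep : ∀ a : Fin f → A₀, ∑ k, algebraMap A₀ L (a k) * b k ∈ V.nonunits → ∀ k, ¬ IsUnit (a k)

namespace Count

open IsDedekindDomain IsDedekindDomain.HeightOneSpectrum

section Abs

variable {A₀ L B : Type*} [CommRing A₀] [IsDomain A₀] [IsDiscreteValuationRing A₀]
  [Field L] [Algebra A₀ L] [FaithfulSMul A₀ L]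
  [CommRing B] [IsDedekindDomain B] [Algebra A₀ B] [Algebra B L] [IsFractionRing B L]
  [IsScalarTower A₀ B L] [Module.Finite A₀ B]

theorem mem_iff (P : HeightOneSpectrum B) (x : L) :
    x ∈ (P.valuation L).valuationSubring ↔ P.valuation L x ≤ 1 :=
  Valuation.mem_valuationSubring_iff _ _

theorem mem_nonunits_iff (P : HeightOneSpectrum B) (x : L) :
    x ∈ (P.valuation L).valuationSubring.nonunits ↔ P.valuation L x < 1 := by
  rw [ValuationSubring.mem_nonunits_iff]
  exact ((P.valuation L).isEquiv_valuation_valuationSubring.lt_one_iff_lt_one).symm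

/-- elements integral over `A₀` lie in every valuation ring containing `A₀`. -/
theorem mem_of_isIntegral (W : ValuationSubring L) (h1 : ∀ a : A₀, algebraMap A₀ L a ∈ W) {x : L}
    (hx : IsIntegral A₀ x) : x ∈ W := by
  let φ : A₀ →+* W := (algebraMap A₀ L).codRestrict W.toSubring h1
  let _ : Algebra A₀ W := φ.toAlgebra
  have : IsScalarTower A₀ W L := IsScalarTower.of_algebraMap_eq fun _ => rfl
  have h2 : IsIntegral W x := hx.tower_top
  obtain ⟨y, rfl⟩ := IsIntegrallyClosed.isIntegral_iff.mp h2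
  exact y.2

theorem algebraMap_mem (W : ValuationSubring L) (h1 : ∀ a : A₀, algebraMap A₀ L a ∈ W) (b : B) :
    algebraMap B L b ∈ W :=
  mem_of_isIntegral W h1 ((Algebra.IsIntegral.isIntegral (R := A₀) b).map
    (IsScalarTower.toAlgHom A₀ B L))

/-- a unit of `W`. -/
theorem inv_mem_of_not_nonunits (W : ValuationSubring L) {x : L} (hx : x ∈ W)
    (hx' : x ∉ W.nonunits) : x⁻¹ ∈ W := by
  rw [ValuationSubring.mem_nonunits_iff, not_lt] at hx'
  rw [← ValuationSubring.valuation_le_one_iff] at hx ⊢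
  have h1 : W.valuation x = 1 := le_antisymm hx hx'
  rw [map_inv₀, h1, inv_one]

/-- the centre on `B` of a valuation ring of `L` dominating `A₀`. -/
theorem exists_centre (W : ValuationSubring L) (h1 : ∀ a : A₀, algebraMap A₀ L a ∈ W)
    (h2 : ∀ a : A₀, ¬ IsUnit a → algebraMap A₀ L a ∈ W.nonunits) :
    ∃ P : HeightOneSpectrum B, W = (P.valuation L).valuationSubring ∧
      P.asIdeal.LiesOver (IsLocalRing.maximalIdeal A₀) := by
  have hB := algebraMap_mem (B := B) W h1
  let φ : B →+* W := (algebraMap B L).codRestrict W.toSubring hB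
  let P : Ideal B := (IsLocalRing.maximalIdeal W).comap φ
  have hPprime : P.IsPrime := Ideal.comap_isPrime φ _
  have hmemP : ∀ r : B, r ∈ P ↔ algebraMap B L r ∈ W.nonunits := by
    intro r
    rw [ValuationSubring.mem_nonunits_iff_exists_mem_maximalIdeal]
    constructor
    · intro h
      exact ⟨hB r, h⟩
    · rintro ⟨_, h⟩
      exact h
  obtain ⟨ϖ, hϖ⟩ := IsDiscreteValuationRing.exists_irreducible A₀
  have hinj : Function.Injective (algebraMap A₀ L) := FaithfulSMul.algebraMap_injective A₀ L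
  have hPbot : P ≠ ⊥ := by
    intro hbot
    have h3 : algebraMap A₀ B ϖ ∈ P := by
      rw [hmemP, ← IsScalarTower.algebraMap_apply]
      exact h2 ϖ hϖ.not_isUnit
    rw [hbot, Ideal.mem_bot] at h3
    have h4 : algebraMap A₀ L ϖ = 0 := by
      rw [IsScalarTower.algebraMap_apply A₀ B L, h3, map_zero]
    exact hϖ.ne_zero (hinj (by rw [h4, map_zero]))
  let w : HeightOneSpectrum B := ⟨P, hPprime, hPbot⟩
  have hle : ∀ f : L, w.valuation L f ≤ 1 → f ∈ W ∧ (w.valuation L f < 1 → f ∈ W.nonunits) := by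
    intro f hf
    obtain ⟨n, d, hnd⟩ := w.exists_primeCompl_mul_eq_of_integer f hf
    have hdP : (d : B) ∉ P := d.2
    have hd1 : w.valuation L (algebraMap B L d) = 1 := by
      rw [valuation_of_algebraMap]
      exact (w.intValuation_eq_one_iff_mem_primeCompl d).mpr d.2
    rw [hmemP] at hdP
    have hdinv := inv_mem_of_not_nonunits W (hB d) hdP
    have hd0 : algebraMap B L d ≠ 0 := by
      intro h0
      rw [h0, map_zero] at hd1
      exact zero_ne_one hd1
    have hfe : f = algebraMap B L n * (algebraMap B L d)⁻¹ := by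
      rw [← hnd, mul_assoc, mul_inv_cancel₀ hd0, mul_one]
    refine ⟨by rw [hfe]; exact mul_mem (hB n) hdinv, fun hlt => ?_⟩
    have hn : n ∈ P := by
      have : w.valuation L (algebraMap B L n) < 1 := by
        rw [← hnd, map_mul, hd1, mul_one]
        exact hlt
      exact (w.valuation_lt_one_iff_mem n).1 this
    rw [hmemP] at hn
    rw [hfe, ValuationSubring.mem_nonunits_iff, map_mul]
    rw [ValuationSubring.mem_nonunits_iff] at hn
    exact mul_lt_one_of_lt_of_le hn ((ValuationSubring.valuation_le_one_iff _ _).2 hdinv)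
  refine ⟨w, ?_, ⟨?_⟩⟩
  · ext f
    rw [mem_iff]
    refine ⟨fun hf => ?_, fun hf => (hle f hf).1⟩
    by_contra hcon
    rw [not_le] at hcon
    have hf0 : f ≠ 0 := by
      rintro rfl
      rw [map_zero] at hcon
      exact not_lt_of_ge zero_le hcon
    have h3 : w.valuation L f⁻¹ < 1 := by
      rw [map_inv₀]
      exact inv_lt_one_of_one_lt₀ hcon
    have h4 := (hle f⁻¹ h3.le).2 h3
    rw [ValuationSubring.mem_nonunits_iff] at h4
    have h5 := (ValuationSubring.valuation_le_one_iff _ _).2 hf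
    have h6 : W.valuation (f⁻¹ * f) < 1 := by
      rw [map_mul]
      exact mul_lt_one_of_lt_of_le h4 h5
    rw [inv_mul_cancel₀ hf0, map_one] at h6
    exact lt_irrefl _ h6
  · ext a
    rw [Ideal.mem_comap, IsLocalRing.mem_maximalIdeal, _root_.mem_nonunits_iff]
    show _ ↔ algebraMap A₀ B a ∈ P
    rw [hmemP, ← IsScalarTower.algebraMap_apply]
    refine ⟨h2 a, fun h3 hu => ?_⟩
    obtain ⟨u, rfl⟩ := hu
    rw [ValuationSubring.mem_nonunits_iff] at h3
    have h5 := (ValuationSubring.valuation_le_one_iff _ _).2 (h1 ((u⁻¹ : A₀ˣ) : A₀))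
    have h6 : W.valuation (algebraMap A₀ L u * algebraMap A₀ L ((u⁻¹ : A₀ˣ) : A₀)) < 1 := by
      rw [map_mul]
      exact mul_lt_one_of_lt_of_le h3 h5
    rw [← map_mul, Units.mul_inv, map_one, map_one] at h6
    exact lt_irrefl _ h6

attribute [local instance] Ideal.Quotient.field

theorem linearIndependent_mk (P : Ideal B) [P.LiesOver (IsLocalRing.maximalIdeal A₀)] {f : ℕ}
    (c : Fin f → B)
    (hind : ∀ a : Fin f → A₀, ∑ k, algebraMap A₀ B (a k) * c k ∈ P → ∀ k, ¬ IsUnit (a k)) :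
    LinearIndependent (A₀ ⧸ IsLocalRing.maximalIdeal A₀) (fun k => Ideal.Quotient.mk P (c k)) := by
  rw [Fintype.linearIndependent_iff]
  intro g hg k
  choose a ha using fun k => Ideal.Quotient.mk_surjective (g k)
  have h1 : ∑ k, algebraMap A₀ B (a k) * c k ∈ P := by
    rw [← Ideal.Quotient.eq_zero_iff_mem, map_sum, ← hg]
    apply Finset.sum_congr rfl
    intro k _
    rw [map_mul, ← ha k, Algebra.smul_def, Ideal.Quotient.algebraMap_mk_of_liesOver]
  have h2 := hind a h1 k
  rw [← ha k, Ideal.Quotient.eq_zero_iff_mem, IsLocalRing.mem_maximalIdeal, _root_.mem_nonunits_iff]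
  exact h2

/-- approximation of the `b k` by elements of `B`. -/
theorem exists_approx (P : HeightOneSpectrum B) {x : L} (hx : P.valuation L x ≤ 1) :
    ∃ c : B, P.valuation L (algebraMap B L c - x) < 1 := by
  obtain ⟨c, hc⟩ := P.exists_valuation_sub_lt_of_integer hx 1
  exact ⟨c, by simpa using hc⟩

theorem sum_lt_one (P : HeightOneSpectrum B) {f : ℕ} (a : Fin f → A₀) (x : Fin f → L)
    (hx : ∀ k, P.valuation L (x k) < 1) :
    P.valuation L (∑ k, algebraMap A₀ L (a k) * x k) < 1 := by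
  apply Valuation.map_sum_lt _ one_ne_zero
  intro k _
  rw [mul_comm, map_mul, IsScalarTower.algebraMap_apply A₀ B L]
  exact mul_lt_one_of_lt_of_le (hx k) (P.valuation_le_one _)

/-- additive version of the adic valuation. -/
def o (P : HeightOneSpectrum B) (x : L) : ℤ := -(WithZero.log (P.valuation L x))

theorem o_mul (P : HeightOneSpectrum B) {x y : L} (hx : x ≠ 0) (hy : y ≠ 0) :
    o P (x * y) = o P x + o P y := by
  simp only [o, map_mul]
  rw [WithZero.log_mul ((Valuation.ne_zero_iff _).mpr hx) ((Valuation.ne_zero_iff _).mpr hy)]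
  ring

theorem o_inv (P : HeightOneSpectrum B) (x : L) : o P x⁻¹ = - o P x := by
  simp only [o, map_inv₀, WithZero.log_inv]

theorem o_pow (P : HeightOneSpectrum B) (x : L) (n : ℕ) : o P (x ^ n) = n * o P x := by
  simp only [o, map_pow, WithZero.log_pow, nsmul_eq_mul]
  ring

theorem o_div (P : HeightOneSpectrum B) {x y : L} (hx : x ≠ 0) (hy : y ≠ 0) :
    o P (x / y) = o P x - o P y := by
  rw [div_eq_mul_inv, o_mul P hx (inv_ne_zero hy), o_inv]
  ring

theorem o_nonneg_iff (P : HeightOneSpectrum B) {x : L} (hx : x ≠ 0) :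
    0 ≤ o P x ↔ P.valuation L x ≤ 1 := by
  have h0 := (Valuation.ne_zero_iff (P.valuation L)).mpr hx
  rw [← WithZero.log_le_log h0 one_ne_zero, WithZero.log_one, o]
  omega

theorem o_pos_iff (P : HeightOneSpectrum B) {x : L} (hx : x ≠ 0) :
    0 < o P x ↔ P.valuation L x < 1 := by
  have h0 := (Valuation.ne_zero_iff (P.valuation L)).mpr hx
  rw [← WithZero.log_lt_log h0 one_ne_zero, WithZero.log_one, o]
  omega

theorem le_o_iff (P : HeightOneSpectrum B) {r : B} (hr : r ≠ 0) (n : ℕ) :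
    (n : ℤ) ≤ o P (algebraMap B L r) ↔ r ∈ P.asIdeal ^ n := by
  have hr' : algebraMap B L r ≠ 0 := by
    simpa using (IsFractionRing.injective B L).ne hr
  have h0 := (Valuation.ne_zero_iff (P.valuation L)).mpr hr'
  rw [← P.intValuation_le_pow_iff_mem, ← P.valuation_of_algebraMap (K := L),
    ← WithZero.log_le_iff_le_exp h0, o]
  omega

/-- the ramification index is the order of a uniformiser. -/
theorem o_unif (P : HeightOneSpectrum B) {ϖ : A₀} (hϖ : Irreducible ϖ) :
    o P (algebraMap A₀ L ϖ) = ((IsLocalRing.maximalIdeal A₀).ramificationIdx' P.asIdeal : ℤ) := by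
  have hinj : Function.Injective (algebraMap A₀ L) := FaithfulSMul.algebraMap_injective A₀ L
  have h0 : algebraMap A₀ L ϖ ≠ 0 := fun h => hϖ.ne_zero (hinj (by rw [h, map_zero]))
  have h0' : algebraMap A₀ B ϖ ≠ 0 := by
    intro h
    apply h0
    rw [IsScalarTower.algebraMap_apply A₀ B L, h, map_zero]
  have hnn : 0 ≤ o P (algebraMap A₀ L ϖ) := by
    rw [o_nonneg_iff P h0, IsScalarTower.algebraMap_apply A₀ B L]
    exact P.valuation_le_one _
  obtain ⟨n, hn⟩ := Int.eq_ofNat_of_zero_le hnn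
  have hmap : (IsLocalRing.maximalIdeal A₀).map (algebraMap A₀ B) =
      Ideal.span {algebraMap A₀ B ϖ} := by
    rw [hϖ.maximalIdeal_eq, Ideal.map_span, Set.image_singleton]
  rw [hn]
  congr 1
  symm
  apply Ideal.ramificationIdx'_spec
  · rw [hmap, Ideal.span_singleton_le_iff_mem, ← le_o_iff (L := L) P h0',
      ← IsScalarTower.algebraMap_apply, hn]
  · rw [hmap, Ideal.span_singleton_le_iff_mem, ← le_o_iff (L := L) P h0',
      ← IsScalarTower.algebraMap_apply, hn]
    push_cast
    omega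

section OnePrime

variable (P : HeightOneSpectrum B) [hPl : P.asIdeal.LiesOver (IsLocalRing.maximalIdeal A₀)]
  {e : ℕ} {π : L} {f : ℕ} {b : Fin f → L}
  (h : ExtData A₀ (P.valuation L).valuationSubring e π b)

include h

/-- lifts of the `b k` to `B`, with the independence property. -/
theorem exists_lifts : ∃ c : Fin f → B, (∀ k, P.valuation L (algebraMap B L (c k) - b k) < 1) ∧
    LinearIndependent (A₀ ⧸ IsLocalRing.maximalIdeal A₀)
      (fun k => Ideal.Quotient.mk P.asIdeal (c k)) := by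
  choose c hc using fun k => exists_approx P ((mem_iff P _).1 (h.b_mem k))
  refine ⟨c, hc, linearIndependent_mk P.asIdeal c fun a ha => ?_⟩
  apply h.indep a
  rw [mem_nonunits_iff]
  have h1 : P.valuation L (algebraMap B L (∑ k, algebraMap A₀ B (a k) * c k)) < 1 :=
    (P.valuation_lt_one_iff_mem _).2 ha
  have h2 := sum_lt_one P a _ hc
  have h3 : ∑ k, algebraMap A₀ L (a k) * b k =
      algebraMap B L (∑ k, algebraMap A₀ B (a k) * c k) -
        ∑ k, algebraMap A₀ L (a k) * (algebraMap B L (c k) - b k) := by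
    rw [map_sum, ← Finset.sum_sub_distrib]
    apply Finset.sum_congr rfl
    intro k _
    rw [map_mul, ← IsScalarTower.algebraMap_apply]
    ring
  rw [h3]
  exact lt_of_le_of_lt (Valuation.map_sub _ _ _) (max_lt h1 h2)

theorem f_le : f ≤ (IsLocalRing.maximalIdeal A₀).inertiaDeg' P.asIdeal := by
  obtain ⟨c, -, hc⟩ := exists_lifts P h
  rw [Ideal.inertiaDeg'_algebraMap]
  have : Module.Finite (A₀ ⧸ IsLocalRing.maximalIdeal A₀) (B ⧸ P.asIdeal) := inferInstance
  simpa using hc.fintype_card_le_finrank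

theorem e_le : e ≤ (IsLocalRing.maximalIdeal A₀).ramificationIdx' P.asIdeal := by
  obtain ⟨ϖ, hϖ⟩ := IsDiscreteValuationRing.exists_irreducible A₀
  have hinj : Function.Injective (algebraMap A₀ L) := FaithfulSMul.algebraMap_injective A₀ L
  have h0 : algebraMap A₀ L ϖ ≠ 0 := fun h => hϖ.ne_zero (hinj (by rw [h, map_zero]))
  have h1 := (mem_iff P _).1 (h.pi_dvd ϖ hϖ.not_isUnit)
  rw [← o_nonneg_iff P (div_ne_zero h0 (pow_ne_zero _ h.pi_ne)),
    o_div P h0 (pow_ne_zero _ h.pi_ne), o_pow, o_unif P hϖ] at h1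
  have h2 := (mem_nonunits_iff P _).1 h.pi_mem
  rw [← o_pos_iff P h.pi_ne] at h2
  have h3 : (e : ℤ) * 1 ≤ e * o P π := by
    apply mul_le_mul_of_nonneg_left _ (Int.natCast_nonneg e)
    omega
  have h4 : (e : ℤ) ≤ ((IsLocalRing.maximalIdeal A₀).ramificationIdx' P.asIdeal : ℤ) := by omega
  exact_mod_cast h4

end OnePrime

section Family

variable (K1 : Type*) [Field K1] [Algebra A₀ K1] [IsFractionRing A₀ K1] [Algebra K1 L]
  [IsScalarTower A₀ K1 L] [Module.IsTorsionFree A₀ B]
  {ι : Type*} [Fintype ι] (Q : ι → HeightOneSpectrum B) (hQ : Function.Injective Q)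
  (hl : ∀ i, (Q i).asIdeal.LiesOver (IsLocalRing.maximalIdeal A₀)) (e f : ι → ℕ)
  (he : ∀ i, e i ≤ (IsLocalRing.maximalIdeal A₀).ramificationIdx' (Q i).asIdeal)
  (hf : ∀ i, f i ≤ (IsLocalRing.maximalIdeal A₀).inertiaDeg' (Q i).asIdeal)
  (hsum : Module.finrank K1 L ≤ ∑ i, e i * f i)

include hQ hl he hf hsum

theorem count_core :
    (∀ P : HeightOneSpectrum B, P.asIdeal.LiesOver (IsLocalRing.maximalIdeal A₀) → ∃ i, P = Q i) ∧
    ∀ i, e i = (IsLocalRing.maximalIdeal A₀).ramificationIdx' (Q i).asIdeal ∧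
      f i = (IsLocalRing.maximalIdeal A₀).inertiaDeg' (Q i).asIdeal := by
  classical
  set 𝔪 := IsLocalRing.maximalIdeal A₀ with h𝔪
  have hp0 : 𝔪 ≠ ⊥ := IsDiscreteValuationRing.not_a_field A₀
  have hS := Ideal.sum_ramification_inertia B K1 L hp0
  set S := IsDedekindDomain.primesOverFinset 𝔪 B with hSdef
  let g : Ideal B → ℕ := fun P => 𝔪.ramificationIdx' P * 𝔪.inertiaDeg' P
  have hmemS : ∀ P : Ideal B, P ∈ S ↔ P.IsPrime ∧ P.LiesOver 𝔪 := fun P =>
    IsDedekindDomain.mem_primesOverFinset_iff hp0 B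
  have hgpos : ∀ P ∈ S, 0 < g P := by
    intro P hP
    obtain ⟨h1, h2⟩ := (hmemS P).1 hP
    exact Nat.mul_pos (Nat.pos_of_ne_zero (Ideal.IsDedekindDomain.ramificationIdx'_ne_zero_of_liesOver P hp0))
      (Ideal.inertiaDeg'_pos 𝔪 P)
  let T : Finset (Ideal B) := Finset.univ.image fun i => (Q i).asIdeal
  have hinj : Function.Injective fun i => (Q i).asIdeal := fun i j hij =>
    hQ (HeightOneSpectrum.ext hij)
  have hTS : T ⊆ S := by
    intro P hP
    obtain ⟨i, -, rfl⟩ := Finset.mem_image.1 hP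
    exact (hmemS _).2 ⟨(Q i).isPrime, hl i⟩
  have hT : ∑ P ∈ T, g P = ∑ i, g (Q i).asIdeal :=
    Finset.sum_image fun i _ j _ hij => hinj hij
  have hle : ∀ i ∈ (Finset.univ : Finset ι), e i * f i ≤ g (Q i).asIdeal := fun i _ =>
    Nat.mul_le_mul (he i) (hf i)
  have h1 : ∑ i, e i * f i ≤ ∑ i, g (Q i).asIdeal := Finset.sum_le_sum hle
  have h2 : ∑ P ∈ T, g P ≤ ∑ P ∈ S, g P := Finset.sum_le_sum_of_subset hTS
  have hS' : ∑ P ∈ S, g P = Module.finrank K1 L := hS
  have hTSeq : T = S := by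
    by_contra hne
    obtain ⟨P, hPS, hPT⟩ := Finset.exists_of_ssubset (Finset.ssubset_iff_subset_ne.2 ⟨hTS, hne⟩)
    have : ∑ P ∈ T, g P < ∑ P ∈ S, g P :=
      Finset.sum_lt_sum_of_subset hTS hPS hPT (hgpos P hPS) fun _ _ _ => Nat.zero_le _
    omega
  refine ⟨fun P hP => ?_, fun i => ?_⟩
  · have : P.asIdeal ∈ T := by
      rw [hTSeq]
      exact (hmemS _).2 ⟨P.isPrime, hP⟩
    obtain ⟨i, -, hi⟩ := Finset.mem_image.1 this
    exact ⟨i, HeightOneSpectrum.ext hi.symm⟩
  · have heq : ∑ i, e i * f i = ∑ i, g (Q i).asIdeal := by omega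
    have h3 := (Finset.sum_eq_sum_iff_of_le hle).1 heq i (Finset.mem_univ i)
    have h4 := hgpos (Q i).asIdeal (hTS (Finset.mem_image_of_mem _ (Finset.mem_univ i)))
    have h5 := he i
    have h6 := hf i
    simp only [g] at h3 h4
    set E := 𝔪.ramificationIdx' (Q i).asIdeal
    set F := 𝔪.inertiaDeg' (Q i).asIdeal
    have hE : 0 < E := Nat.pos_of_mul_pos_right h4
    have hF : 0 < F := Nat.pos_of_mul_pos_left h4
    constructor
    · by_contra hne
      have hlt : e i < E := lt_of_le_of_ne h5 hne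
      have : e i * f i < E * F := lt_of_le_of_lt (Nat.mul_le_mul_left _ h6)
        (Nat.mul_lt_mul_of_pos_right hlt hF)
      omega
    · by_contra hne
      have hlt : f i < F := lt_of_le_of_ne h6 hne
      have : e i * f i < E * F := lt_of_le_of_lt (Nat.mul_le_mul_right _ h5)
        (Nat.mul_lt_mul_of_pos_left hlt hE)
      omega

end Family

section Main

variable (B) (K1 : Type*) [Field K1] [Algebra A₀ K1] [IsFractionRing A₀ K1] [Algebra K1 L]
  [IsScalarTower A₀ K1 L] [Module.IsTorsionFree A₀ B]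
  {ι : Type*} [Fintype ι] (V : ι → ValuationSubring L)
  (hV : Function.Injective V) (e f : ι → ℕ) (π : ι → L) (b : ∀ i, Fin (f i) → L)
  (h : ∀ i, ExtData A₀ (V i) (e i) (π i) (b i))
  (hsum : Module.finrank K1 L ≤ ∑ i, e i * f i)

include B hV h hsum

theorem exists_family : ∃ Q : ι → HeightOneSpectrum B,
    (∀ i, V i = ((Q i).valuation L).valuationSubring) ∧
    (∀ i, (Q i).asIdeal.LiesOver (IsLocalRing.maximalIdeal A₀)) ∧
    (∀ P : HeightOneSpectrum B, P.asIdeal.LiesOver (IsLocalRing.maximalIdeal A₀) → ∃ i, P = Q i) ∧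
    ∀ i, e i = (IsLocalRing.maximalIdeal A₀).ramificationIdx' (Q i).asIdeal ∧
      f i = (IsLocalRing.maximalIdeal A₀).inertiaDeg' (Q i).asIdeal := by
  choose Q hQV hQl using fun i => exists_centre (B := B) (V i) (h i).mem (h i).nonunit
  have hQ : Function.Injective Q := fun i j hij => hV (by rw [hQV i, hQV j, hij])
  have h' : ∀ i, ExtData A₀ ((Q i).valuation L).valuationSubring (e i) (π i) (b i) := fun i =>
    hQV i ▸ h i
  obtain ⟨h1, h2⟩ := count_core K1 Q hQ hQl e f
    (fun i => haveI := hQl i; e_le (Q i) (h' i)) (fun i => haveI := hQl i; f_le (Q i) (h' i)) hsum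
  exact ⟨Q, hQV, hQl, h1, h2⟩

theorem count_all_abs (W : ValuationSubring L) (h1 : ∀ a : A₀, algebraMap A₀ L a ∈ W)
    (h2 : ∀ a : A₀, ¬ IsUnit a → algebraMap A₀ L a ∈ W.nonunits) : ∃ i, W = V i := by
  obtain ⟨Q, hQV, -, hall, -⟩ := exists_family B K1 V hV e f π b h hsum
  obtain ⟨P, hP, hPl⟩ := exists_centre (B := B) W h1 h2
  obtain ⟨i, rfl⟩ := hall P hPl
  exact ⟨i, by rw [hP, hQV i]⟩

theorem count_integral_abs (y : L) (hy : ∀ i, y ∈ V i) : IsIntegral A₀ y := by
  obtain ⟨Q, hQV, -, hall, -⟩ := exists_family B K1 V hV e f π b h hsum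
  obtain ⟨c, rfl⟩ := HeightOneSpectrum.mem_integers_of_valuation_le_one (R := B) L y (by
    intro P
    have hmax : (P.asIdeal.comap (algebraMap A₀ B)).IsMaximal :=
      haveI := P.isMaximal
      Ideal.isMaximal_comap_of_isIntegral_of_isMaximal P.asIdeal
    obtain ⟨i, rfl⟩ := hall P ⟨(IsLocalRing.eq_maximalIdeal hmax).symm⟩
    rw [← mem_iff, ← hQV i]
    exact hy i)
  exact (Algebra.IsIntegral.isIntegral (R := A₀) c).map (IsScalarTower.toAlgHom A₀ B L)

theorem count_span_abs (i : ι) (z : L) (hz : z ∈ V i) :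
    ∃ a : Fin (f i) → A₀, z - ∑ k, algebraMap A₀ L (a k) * b i k ∈ (V i).nonunits := by
  obtain ⟨Q, hQV, hQl, -, hef⟩ := exists_family B K1 V hV e f π b h hsum
  have := hQl i
  have h' : ExtData A₀ ((Q i).valuation L).valuationSubring (e i) (π i) (b i) := hQV i ▸ h i
  obtain ⟨c, hc, hli⟩ := exists_lifts (Q i) h'
  have hcard : Fintype.card (Fin (f i)) =
      Module.finrank (A₀ ⧸ IsLocalRing.maximalIdeal A₀) (B ⧸ (Q i).asIdeal) := by
    rw [Fintype.card_fin, (hef i).2, Ideal.inertiaDeg'_algebraMap]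
  have hspan := hli.span_eq_top_of_card_eq_finrank' hcard
  rw [hQV i] at hz ⊢
  obtain ⟨cz, hcz⟩ := exists_approx (Q i) ((mem_iff _ _).1 hz)
  have hmem : Ideal.Quotient.mk (Q i).asIdeal cz ∈
      Submodule.span (A₀ ⧸ IsLocalRing.maximalIdeal A₀)
        (Set.range fun k => Ideal.Quotient.mk (Q i).asIdeal (c k)) := by
    rw [hspan]
    trivial
  obtain ⟨g, hg⟩ := (Submodule.mem_span_range_iff_exists_fun _).1 hmem
  choose a ha using fun k => Ideal.Quotient.mk_surjective (g k)
  refine ⟨a, ?_⟩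
  have h1 : cz - ∑ k, algebraMap A₀ B (a k) * c k ∈ (Q i).asIdeal := by
    rw [← Ideal.Quotient.eq_zero_iff_mem, map_sub, ← hg, map_sum, sub_eq_zero]
    apply Finset.sum_congr rfl
    intro k _
    rw [map_mul, ← ha k, Algebra.smul_def, Ideal.Quotient.algebraMap_mk_of_liesOver]
  have h2 : (Q i).valuation L (algebraMap B L (cz - ∑ k, algebraMap A₀ B (a k) * c k)) < 1 :=
    ((Q i).valuation_lt_one_iff_mem _).2 h1
  have h3 := sum_lt_one (Q i) a _ hc
  rw [mem_nonunits_iff]
  have h4 : z - ∑ k, algebraMap A₀ L (a k) * b i k =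
      (algebraMap B L (cz - ∑ k, algebraMap A₀ B (a k) * c k) +
        ∑ k, algebraMap A₀ L (a k) * (algebraMap B L (c k) - b i k)) - (algebraMap B L cz - z) := by
    have h5 : algebraMap B L (∑ k, algebraMap A₀ B (a k) * c k) =
        ∑ k, algebraMap A₀ L (a k) * algebraMap B L (c k) := by
      rw [map_sum]
      apply Finset.sum_congr rfl
      intro k _
      rw [map_mul, ← IsScalarTower.algebraMap_apply]
    simp only [mul_sub, Finset.sum_sub_distrib, map_sub, h5]
    ring
  rw [h4]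
  exact lt_of_le_of_lt (Valuation.map_sub _ _ _)
    (max_lt (lt_of_le_of_lt (Valuation.map_add _ _ _) (max_lt h2 h3)) hcz)

/-- `π i` has order one and a uniformiser of `A₀` has order `e i`. -/
theorem exists_orders (i : ι) : ∃ P : HeightOneSpectrum B,
    V i = (P.valuation L).valuationSubring ∧ o P (π i) = 1 ∧
      ∀ ϖ : A₀, Irreducible ϖ → o P (algebraMap A₀ L ϖ) = e i := by
  obtain ⟨Q, hQV, hQl, -, hef⟩ := exists_family B K1 V hV e f π b h hsum
  have := hQl i
  have h' : ExtData A₀ ((Q i).valuation L).valuationSubring (e i) (π i) (b i) := hQV i ▸ h i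
  have hu : ∀ ϖ : A₀, Irreducible ϖ → o (Q i) (algebraMap A₀ L ϖ) = e i := by
    intro ϖ hϖ
    rw [o_unif (Q i) hϖ, ← (hef i).1]
  refine ⟨Q i, hQV i, ?_, hu⟩
  obtain ⟨ϖ, hϖ⟩ := IsDiscreteValuationRing.exists_irreducible A₀
  have hinj : Function.Injective (algebraMap A₀ L) := FaithfulSMul.algebraMap_injective A₀ L
  have h0 : algebraMap A₀ L ϖ ≠ 0 := fun h => hϖ.ne_zero (hinj (by rw [h, map_zero]))
  have h1 := (mem_iff (Q i) _).1 (h'.pi_dvd ϖ hϖ.not_isUnit)
  rw [← o_nonneg_iff (Q i) (div_ne_zero h0 (pow_ne_zero _ h'.pi_ne)),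
    o_div (Q i) h0 (pow_ne_zero _ h'.pi_ne), o_pow, hu ϖ hϖ] at h1
  have h2 := (mem_nonunits_iff (Q i) _).1 h'.pi_mem
  rw [← o_pos_iff (Q i) h'.pi_ne] at h2
  have he0 : 0 < e i := by
    rw [(hef i).1]
    exact Nat.pos_of_ne_zero (Ideal.IsDedekindDomain.ramificationIdx'_ne_zero_of_liesOver _
      (IsDiscreteValuationRing.not_a_field A₀))
  have he0' : (0 : ℤ) < e i := by exact_mod_cast he0
  by_contra hne
  have h3 : 2 ≤ o (Q i) (π i) := by omega
  have h4 : (e i : ℤ) * 2 ≤ e i * o (Q i) (π i) := mul_le_mul_of_nonneg_left h3 he0'.le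
  omega

theorem count_unif_abs (i : ι) (z : L) (hz : z ∈ (V i).nonunits) : z / π i ∈ V i := by
  obtain ⟨P, hP, h1, -⟩ := exists_orders B K1 V hV e f π b h hsum i
  have hπ0 := (h i).pi_ne
  rw [hP] at hz ⊢
  by_cases hz0 : z = 0
  · rw [hz0, zero_div]
    exact zero_mem _
  rw [mem_nonunits_iff, ← o_pos_iff P hz0] at hz
  rw [mem_iff, ← o_nonneg_iff P (div_ne_zero hz0 hπ0), o_div P hz0 hπ0, h1]
  omega

theorem count_ram_abs (i : ι) (ϖ : A₀) (hϖ : Irreducible ϖ) :
    π i ^ e i / algebraMap A₀ L ϖ ∈ V i := by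
  obtain ⟨P, hP, h1, h2⟩ := exists_orders B K1 V hV e f π b h hsum i
  have hπ0 := (h i).pi_ne
  have hinj : Function.Injective (algebraMap A₀ L) := FaithfulSMul.algebraMap_injective A₀ L
  have h0 : algebraMap A₀ L ϖ ≠ 0 := fun h => hϖ.ne_zero (hinj (by rw [h, map_zero]))
  rw [hP, mem_iff, ← o_nonneg_iff P (div_ne_zero (pow_ne_zero _ hπ0) h0),
    o_div P (pow_ne_zero _ hπ0) h0, o_pow, h1, h2 ϖ hϖ]
  omega

end Main

end Abs

section Inst

variable (A₀ K1 L : Type*) [CommRing A₀] [IsDomain A₀] [IsDiscreteValuationRing A₀] [Field K1]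
  [CharZero K1] [Algebra A₀ K1] [IsFractionRing A₀ K1] [Field L] [Algebra A₀ L] [Algebra K1 L]
  [IsScalarTower A₀ K1 L] [FiniteDimensional K1 L]

include K1

theorem faithful : FaithfulSMul A₀ L := by
  rw [faithfulSMul_iff_algebraMap_injective, IsScalarTower.algebraMap_eq A₀ K1 L]
  exact (algebraMap K1 L).injective.comp (IsFractionRing.injective A₀ K1)

theorem dedekind : IsDedekindDomain (integralClosure A₀ L) :=
  integralClosure.isDedekindDomain A₀ K1 L

theorem fraction : IsFractionRing (integralClosure A₀ L) L :=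
  integralClosure.isFractionRing_of_finite_extension K1 L

theorem finite : Module.Finite A₀ (integralClosure A₀ L) :=
  IsIntegralClosure.finite A₀ K1 L (integralClosure A₀ L)

theorem torsionFree : Module.IsTorsionFree A₀ (integralClosure A₀ L) := by
  have := faithful A₀ K1 L
  infer_instance

end Inst

end Count

variable {A₀ K1 L : Type*} [CommRing A₀] [IsDomain A₀] [IsDiscreteValuationRing A₀] [Field K1] [CharZero K1]
  [Algebra A₀ K1] [IsFractionRing A₀ K1] [Field L] [Algebra A₀ L] [Algebra K1 L] [IsScalarTower A₀ K1 L]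
  [FiniteDimensional K1 L] {ι : Type*} [Fintype ι] (V : ι → ValuationSubring L)
  (hV : Function.Injective V) (e f : ι → ℕ) (π : ι → L) (b : ∀ i, Fin (f i) → L)
  (h : ∀ i, ExtData A₀ (V i) (e i) (π i) (b i))
  (hsum : Module.finrank K1 L ≤ ∑ i, e i * f i)

include hV h hsum

/-- `⋂ V i` is integral over `A₀`. -/
theorem count_integral (y : L) (hy : ∀ i, y ∈ V i) : IsIntegral A₀ y := by
  have := Count.faithful A₀ K1 L
  have := Count.dedekind A₀ K1 L
  have := Count.fraction A₀ K1 L
  have := Count.finite A₀ K1 L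
  have := Count.torsionFree A₀ K1 L
  exact Count.count_integral_abs (integralClosure A₀ L) K1 V hV e f π b h hsum y hy

/-- the `V i` are all the extensions of `A₀`. -/
theorem count_all (W : ValuationSubring L) (h1 : ∀ a : A₀, algebraMap A₀ L a ∈ W)
    (h2 : ∀ a : A₀, ¬ IsUnit a → algebraMap A₀ L a ∈ W.nonunits) : ∃ i, W = V i := by
  have := Count.faithful A₀ K1 L
  have := Count.dedekind A₀ K1 L
  have := Count.fraction A₀ K1 L
  have := Count.finite A₀ K1 L
  have := Count.torsionFree A₀ K1 L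
  exact Count.count_all_abs (integralClosure A₀ L) K1 V hV e f π b h hsum W h1 h2

/-- `f(V i / A₀) = f i`: the residues of the `b i k` span the residue field. -/
theorem count_span (i : ι) (z : L) (hz : z ∈ V i) :
    ∃ a : Fin (f i) → A₀, z - ∑ k, algebraMap A₀ L (a k) * b i k ∈ (V i).nonunits := by
  have := Count.faithful A₀ K1 L
  have := Count.dedekind A₀ K1 L
  have := Count.fraction A₀ K1 L
  have := Count.finite A₀ K1 L
  have := Count.torsionFree A₀ K1 L
  exact Count.count_span_abs (integralClosure A₀ L) K1 V hV e f π b h hsum i z hz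

/-- `π i` is a uniformiser of `V i`. -/
theorem count_unif (i : ι) (z : L) (hz : z ∈ (V i).nonunits) : z / π i ∈ V i := by
  have := Count.faithful A₀ K1 L
  have := Count.dedekind A₀ K1 L
  have := Count.fraction A₀ K1 L
  have := Count.finite A₀ K1 L
  have := Count.torsionFree A₀ K1 L
  exact Count.count_unif_abs (integralClosure A₀ L) K1 V hV e f π b h hsum i z hz

/-- `e(V i / A₀) = e i`. -/
theorem count_ram (i : ι) (ϖ : A₀) (hϖ : Irreducible ϖ) : π i ^ e i / algebraMap A₀ L ϖ ∈ V i := by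
  have := Count.faithful A₀ K1 L
  have := Count.dedekind A₀ K1 L
  have := Count.fraction A₀ K1 L
  have := Count.finite A₀ K1 L
  have := Count.torsionFree A₀ K1 L
  exact Count.count_ram_abs (integralClosure A₀ L) K1 V hV e f π b h hsum i ϖ hϖ

end Fermat.Agent.S34.V2
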