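import Fermat.Agent.S34.V2.TwoBasic
import Fermat.Agent.S34.V2.Count

set_option autoImplicit false
set_option linter.unusedSectionVars false
set_option linter.style.haveILetI false

/-!
# S34/V2 : `Vi`, `V0` are all the extensions of `VE`   (task V2-TwoCount)

Apply `Count.lean` with `A₀ := ↥T.VE` (`T.isDVR_VE`; `IsFractionRing ↥T.VE E` is a Mathlib instance for valuation subrings), `K1 := E`, `L := F`,
`Algebra ↥T.VE F := T.algVE` (`IsScalarTower ↥T.VE E F` by `IsScalarTower.of_algebraMap_eq fun _ => rfl`), `ι := Bool` (or `Fin 2`),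
`V = (Vi, V0)` (injective by `T.Vi_ne_V0`), `e = (1, 1)`, `f = (1, q)`, `π = ϖ`, `b = (1 ; xq^k, k < q)`, `∑ e f = 1 + q ≥ finrank` (`T.deg`).
`CharZero E` from `CharZero K` (`charZero_of_injective_algebraMap`).

* `extData_i`: `mem`, `nonunit`: `T.map_mem_Vi(_nonunits)` (an element `a : ↥T.VE` is a unit iff `(a : E) ∉ T.VE.nonunits`:
  `ValuationSubring.coe_mem_nonunits_iff`, compare `S18.VSide.isUnit_iff`); `pi_dvd`: `T.div_unif_i`; `indep`: one term.
* `extData_0`: the same with `V0`; `indep`: apply `T.w`: `T.jF (T.w (∑ a k * xq^k)) = ∑ qExpand q (T.jE (a k)) * (cR x₀)^k` (`T.w_E`, `T.w_w`, `T.compat`, `T.hx`) and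
  use `indep_qExpand`.
* `integral_of_mem`: `count_integral` gives a monic polynomial over `↥T.VE`; map it to `E[X]`.
* `res_deg_one`: `count_span` for `Vi`; `res_deg_one_0`: apply it to `T.w z`; `res_span_0`: `count_span` for `V0`; `eq_Vi_or_V0`: `count_all`.
-/

noncomputable section

namespace Fermat.Agent.S34.V2

open ModularCurve Polynomial IntermediateField Fermat.Agent.S18 Fermat.Agent.S18.V

namespace Two

variable {R K : Type} [CommRing R] [IsDomain R] [IsDiscreteValuationRing R] [Field K] [CharZero K]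
  [Algebra R K] [IsFractionRing R K] {q : ℕ} [NeZero q] {E F : Type} [Field E] [Field F]
  [Algebra K E] [Algebra K F] [Algebra E F] [IsScalarTower K E F] (T : Two R K q E F)

theorem tc_not_isUnit_iff (a : ↥T.VE) : ¬ IsUnit a ↔ (a : E) ∈ T.VE.nonunits := by
  rw [ValuationSubring.coe_mem_nonunits_iff, IsLocalRing.mem_maximalIdeal, mem_nonunits_iff]

theorem tc_rE_ne_zero {ϖ : R} (hϖ : Irreducible ϖ) : rE R K F ϖ ≠ 0 :=
  fun h0 => hϖ.ne_zero (rE_injective (K := K) (E := F) (by rw [h0, map_zero]))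

theorem extData_i {ϖ : R} (hϖ : Irreducible ϖ) :
    letI := T.algVE
    ExtData ↥T.VE T.Vi 1 (rE R K F ϖ) (fun _ : Fin 1 => (1 : F)) := by
  letI := T.algVE
  have hnon : ∀ a : ↥T.VE, ¬ IsUnit a → algebraMap ↥T.VE F a ∈ T.Vi.nonunits := fun a ha =>
    T.map_mem_Vi_nonunits.2 ((T.tc_not_isUnit_iff a).1 ha)
  refine ⟨fun a => T.map_mem_Vi.2 a.2, hnon, tc_rE_ne_zero hϖ,
    T.rE_mem_Vi_nonunits.2 hϖ.not_isUnit, fun a ha => ?_, fun _ => T.Vi.one_mem, ?_⟩
  · rw [pow_one]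
    exact T.div_unif_i hϖ (hnon a ha)
  · intro a ha k
    rw [Fin.sum_univ_one, mul_one] at ha
    have hk : k = 0 := Subsingleton.elim _ _
    rw [hk, T.tc_not_isUnit_iff]
    exact T.map_mem_Vi_nonunits.1 ha

theorem extData_0 {ϖ : R} (hϖ : Irreducible ϖ) :
    letI := T.algVE
    ExtData ↥T.VE T.V0 1 (rE R K F ϖ) (fun k : Fin q => T.xq ^ (k : ℕ)) := by
  letI := T.algVE
  have hnon : ∀ a : ↥T.VE, ¬ IsUnit a → algebraMap ↥T.VE F a ∈ T.V0.nonunits := fun a ha =>
    T.map_mem_V0_nonunits.2 ((T.tc_not_isUnit_iff a).1 ha)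
  refine ⟨fun a => T.map_mem_V0.2 a.2, hnon, tc_rE_ne_zero hϖ,
    T.rE_mem_V0_nonunits.2 hϖ.not_isUnit, fun a ha => ?_, fun k => pow_mem T.xq_mem_V0 _, ?_⟩
  · rw [pow_one]
    exact T.div_unif_0 hϖ (hnon a ha)
  · intro a ha k
    rw [T.mem_V0_nonunits, T.mem_Vi_nonunits] at ha
    have e : T.jF (T.w (∑ k, algebraMap ↥T.VE F (a k) * T.xq ^ (k : ℕ))) =
        ∑ k, qExpand K q (T.jE (a k : E)) * cR R K T.x₀ ^ (k : ℕ) := by
      rw [map_sum, map_sum]
      apply Finset.sum_congr rfl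
      intro k _
      rw [map_mul, map_mul, map_pow, map_pow]
      have h1 : T.jF (T.w (algebraMap ↥T.VE F (a k))) = qExpand K q (T.jE (a k : E)) :=
        T.w_E (a k : E)
      have h2 : T.jF (T.w T.xq) = cR R K T.x₀ := by
        rw [xq, T.w_w, xF, T.compat, T.hx]
      rw [h1, h2]
    rw [e] at ha
    have := indep_qExpand q T.x₀ T.hord T.hlead (fun k => T.jE (a k : E))
      (fun k => T.inQF_E _) (fun k => (a k).2) ha k
    rw [T.tc_not_isUnit_iff, T.mem_VE_nonunits]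
    exact this

/-- the family `(Vi, V0)`. -/
def tcV : Bool → ValuationSubring F := fun i => cond i T.Vi T.V0

/-- the residue degrees. -/
def tcF (q : ℕ) : Bool → ℕ := fun i => cond i 1 q

/-- the residue bases. -/
def tcB : ∀ i : Bool, Fin (tcF q i) → F
  | true => fun _ => 1
  | false => fun k => T.xq ^ (k : ℕ)

theorem tcV_injective : Function.Injective T.tcV := by
  intro i j hij
  cases i <;> cases j
  · rfl
  · exact absurd hij.symm T.Vi_ne_V0
  · exact absurd hij T.Vi_ne_V0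
  · rfl

theorem tc_extData {ϖ : R} (hϖ : Irreducible ϖ) (i : Bool) :
    letI := T.algVE
    ExtData ↥T.VE (T.tcV i) 1 (rE R K F ϖ) (T.tcB i) := by
  cases i
  · exact T.extData_0 hϖ
  · exact T.extData_i hϖ

include T in
theorem tc_sum : Module.finrank E F ≤ ∑ i : Bool, 1 * tcF q i := by
  rw [Fintype.sum_bool]
  have := T.deg
  simp only [tcF, cond_true, cond_false, one_mul]
  omega

/-- `Vi ∩ V0` is integral over `VE`. -/
theorem integral_of_mem {z : F} (hi : z ∈ T.Vi) (h0 : z ∈ T.V0) :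
    ∃ P : E[X], P.Monic ∧ (∀ i, P.coeff i ∈ T.VE) ∧ aeval z P = 0 := by
  letI := T.algVE
  haveI := T.isDVR_VE
  haveI : IsScalarTower ↥T.VE E F := IsScalarTower.of_algebraMap_eq fun _ => rfl
  haveI : CharZero E := charZero_of_injective_algebraMap (algebraMap K E).injective
  haveI := T.fin
  obtain ⟨ϖ, hϖ⟩ := IsDiscreteValuationRing.exists_irreducible R
  obtain ⟨P, hP, hPz⟩ := count_integral (K1 := E) T.tcV T.tcV_injective (fun _ => 1) (tcF q)
    (fun _ => rE R K F ϖ) T.tcB (T.tc_extData hϖ) T.tc_sum z (by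
      intro i
      cases i
      · exact h0
      · exact hi)
  refine ⟨P.map (algebraMap ↥T.VE E), hP.map _, fun i => ?_, ?_⟩
  · rw [coeff_map]
    exact (P.coeff i).2
  · rw [aeval_def, eval₂_map, ← IsScalarTower.algebraMap_eq]
    exact hPz

/-- `f(Vi / VE) = 1`. -/
theorem res_deg_one {z : F} (hz : z ∈ T.Vi) :
    ∃ y ∈ T.VE, z - algebraMap E F y ∈ T.Vi.nonunits := by
  letI := T.algVE
  haveI := T.isDVR_VE
  haveI : IsScalarTower ↥T.VE E F := IsScalarTower.of_algebraMap_eq fun _ => rfl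
  haveI : CharZero E := charZero_of_injective_algebraMap (algebraMap K E).injective
  haveI := T.fin
  obtain ⟨ϖ, hϖ⟩ := IsDiscreteValuationRing.exists_irreducible R
  obtain ⟨a, ha⟩ := count_span (K1 := E) T.tcV T.tcV_injective (fun _ => 1) (tcF q)
    (fun _ => rE R K F ϖ) T.tcB (T.tc_extData hϖ) T.tc_sum true z hz
  refine ⟨(a (0 : Fin 1) : E), (a (0 : Fin 1)).2, ?_⟩
  have e : ∑ k, algebraMap ↥T.VE F (a k) * T.tcB true k = algebraMap E F (a (0 : Fin 1) : E) := by
    have : ∑ k : Fin 1, algebraMap ↥T.VE F (a k) * T.tcB true k =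
        algebraMap ↥T.VE F (a (0 : Fin 1)) * T.tcB true (0 : Fin 1) := Fin.sum_univ_one _
    refine this.trans ?_
    show algebraMap ↥T.VE F (a (0 : Fin 1)) * 1 = _
    rw [mul_one]
    rfl
  rw [e] at ha
  exact ha

/-- `f(V0 / i2 VE) = 1`. -/
theorem res_deg_one_0 {z : F} (hz : z ∈ T.V0) : ∃ y ∈ T.VE, z - T.i2 y ∈ T.V0.nonunits := by
  obtain ⟨y, hy, h⟩ := T.res_deg_one (T.mem_V0'.1 hz)
  refine ⟨y, hy, ?_⟩
  rw [T.mem_V0_nonunits, map_sub, T.i2_apply, T.w_w]
  exact h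

/-- `f(V0 / VE) = q`, with basis `xq^k`. -/
theorem res_span_0 {z : F} (hz : z ∈ T.V0) :
    ∃ a : Fin q → E, (∀ k, a k ∈ T.VE) ∧
      z - ∑ k, algebraMap E F (a k) * T.xq ^ (k : ℕ) ∈ T.V0.nonunits := by
  letI := T.algVE
  haveI := T.isDVR_VE
  haveI : IsScalarTower ↥T.VE E F := IsScalarTower.of_algebraMap_eq fun _ => rfl
  haveI : CharZero E := charZero_of_injective_algebraMap (algebraMap K E).injective
  haveI := T.fin
  obtain ⟨ϖ, hϖ⟩ := IsDiscreteValuationRing.exists_irreducible R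
  obtain ⟨a, ha⟩ := count_span (K1 := E) T.tcV T.tcV_injective (fun _ => 1) (tcF q)
    (fun _ => rE R K F ϖ) T.tcB (T.tc_extData hϖ) T.tc_sum false z hz
  exact ⟨fun k : Fin q => (a k : E), fun k : Fin q => (a k).2, ha⟩

/-- `Vi`, `V0` are the only extensions of `VE`. -/
theorem eq_Vi_or_V0 (W : ValuationSubring F) (h1 : ∀ y ∈ T.VE, algebraMap E F y ∈ W)
    (h2 : ∀ y ∈ T.VE.nonunits, algebraMap E F y ∈ W.nonunits) : W = T.Vi ∨ W = T.V0 := by
  letI := T.algVE
  haveI := T.isDVR_VE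
  haveI : IsScalarTower ↥T.VE E F := IsScalarTower.of_algebraMap_eq fun _ => rfl
  haveI : CharZero E := charZero_of_injective_algebraMap (algebraMap K E).injective
  haveI := T.fin
  obtain ⟨ϖ, hϖ⟩ := IsDiscreteValuationRing.exists_irreducible R
  obtain ⟨i, hi⟩ := count_all (K1 := E) T.tcV T.tcV_injective (fun _ => 1) (tcF q)
    (fun _ => rE R K F ϖ) T.tcB (T.tc_extData hϖ) T.tc_sum W (fun a => h1 _ a.2)
    (fun a ha => h2 _ ((T.tc_not_isUnit_iff a).1 ha))
  cases i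
  · exact Or.inr hi
  · exact Or.inl hi

end Two

end Fermat.Agent.S34.V2
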