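import Fermat.Agent.S34.V2.Tame
import Fermat.Agent.S34.SS.Defs

set_option autoImplicit false
set_option linter.unusedSectionVars false

/-!
# S34/V2 : `Chart1` (SS/Defs.lean) for both charts from `IsTameP1`   (task V2-Chart)

* `chart1_fin`: `trans`, `fin` from `H.chart`; `normal := fun ε hε P hP hc => redNormal_fin H hϖ hε P hP hc`.
* `chart1_inf`: `trans`: `glue_transcendental_inv`; `fin`: `glue_adjoin_inv x : K⟮x⟯ = K⟮x⁻¹⟯` (rewrite/`▸`; or `(isChart_inv 𝒱 H.chart).fin`); `inO_iff`: `InO_inv_iff hϖ H.x_ne_zero`;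
  `normal`: `redNormal_inf` + `InO_inv_iff` + `CongA_inv_iff`.
-/

noncomputable section

namespace Fermat.Agent.S34.V2

open Polynomial IntermediateField Fermat.Agent.S18 Fermat.Agent.S34

variable {R K E : Type} [CommRing R] [IsDomain R] [IsDiscreteValuationRing R] [Field K] [CharZero K]
  [Algebra R K] [IsFractionRing R K] [Field E] [Algebra K E]
  {𝒱 : VData R K} {x : E} {ιx : 𝒱.Ω} {𝕜 : Type} [Field 𝕜] [IsAlgClosed 𝕜] [CharZero 𝕜]
  {jK : K →+* 𝕜} {c : R} {e0 ec einf : ℕ}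

theorem chart1_fin (H : IsTameP1 𝒱 x ιx 𝕜 jK c e0 ec einf) {ϖ : R} (hϖ : Irreducible ϖ)
    (V₁ : ValuationSubring E) (hV : ∀ y, InO K ϖ x y ↔ y ∈ V₁) (hmem : rE R K E ϖ ∈ V₁.nonunits)
    (hunif : ∀ z ∈ V₁.nonunits, (rE R K E ϖ)⁻¹ * z ∈ V₁) : Chart1 K ϖ x V₁ where
  trans := H.chart.trans
  fin := H.chart.fin
  inO_iff := hV
  mem := hmem
  unif := hunif
  normal := fun _ hε P hP hc => redNormal_fin H hϖ hε P hP hc

theorem chart1_inf (H : IsTameP1 𝒱 x ιx 𝕜 jK c e0 ec einf) {ϖ : R} (hϖ : Irreducible ϖ)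
    (V₁ : ValuationSubring E) (hV : ∀ y, InO K ϖ x y ↔ y ∈ V₁) (hmem : rE R K E ϖ ∈ V₁.nonunits)
    (hunif : ∀ z ∈ V₁.nonunits, (rE R K E ϖ)⁻¹ * z ∈ V₁) : Chart1 K ϖ x⁻¹ V₁ where
  trans := (isChart_inv 𝒱 H.chart).trans
  fin := (isChart_inv 𝒱 H.chart).fin
  inO_iff := fun y => (InO_inv_iff hϖ H.x_ne_zero).trans (hV y)
  mem := hmem
  unif := hunif
  normal := fun ε hε P hP hc => by
    obtain ⟨y, hy, hc'⟩ := redNormal_inf H hϖ ((InO_inv_iff hϖ H.x_ne_zero).1 hε) P hP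
      ((CongA_inv_iff hϖ H.x_ne_zero).1 hc)
    exact ⟨y, hy, (CongA_inv_iff hϖ H.x_ne_zero).2 hc'⟩

end Fermat.Agent.S34.V2
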