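import Fermat.Agent.S34.V2.Gauss
import Fermat.Agent.S34.BR.Defs
import Fermat.Agent.GES.RedGal

set_option autoImplicit false
set_option linter.unusedSectionVars false

/-!
# S34/V2 : restriction of `G_ℚ` to an abstract Galois number field, action on `F_{N,K}`   (task V2-Gal)

`K` an abstract field, normal (Galois) over `ℚ`, `ι : K →+* ℚ̄`.

* `exists_resK`: `letI := ι.toAlgebra` (`IsScalarTower ℚ K ℚ̄` is automatic: `ℚ`-algebra structures are unique, `IsScalarTower.of_algebraMap_eq fun _ => (map_ratCast ..)`/`Subsingleton`);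
  `τ.restrictNormal K : K ≃ₐ[ℚ] K`, `AlgEquiv.restrictNormal_commutes`.
* `exists_resR`: `r ∈ A.comap ι ↔ ι r ∈ A`; `τ ∈ A.decompositionSubgroup ℚ` means `τ • A = A`: `τ a ∈ A ↔ a ∈ A` (see `GES.exists_sigA` and `GES.residue_sigA_eq_zero_iff`);
  inverse: `resK ι τ⁻¹` (`ι` injective).
* `resR_inertia`, `resR_frob`: `GES.residue_sigA_inertia`, `GES.residue_sigA_frob` (or `S29.FDFixed.frob_sub_pow_mem`); `r : A.comap ι` is a unit iff `ι r ∉ A.nonunits`
  (`S18.VSide.isUnit_iff`, `S18.DVR.mem_nonunits_comap`).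
* `exists_galFK`: `coeffMap σ` maps `FK K N = adjoin K (divisorExpansionsC K N)` into itself (`IntermediateField.adjoin_induction`, the generators `qExpand K d (jqModC K)` are fixed:
  `coeffMap_qExpand`, `coeffMap_jqModC`; compare `S18.coeffMap_mem_FN`); inverse `coeffMap σ.symm` (`coeffMap_coeffMap`).
* `toFN_galFK`: `Subtype.ext`, `GES.coe_galF`, `S18.toFN_coe`, coefficientwise `ι_resK`.
-/

noncomputable section

namespace Fermat.Agent.S34.V2

open ModularCurve Fermat.Agent.S18 Fermat.Agent.S18.V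
open Fermat.Agent.S24 (Kb FN)
open Fermat.Agent.GES (GQ galF)

namespace Gal

theorem isUnit_iff {K : Type} [Field K] (R : ValuationSubring K) (r : R) :
    IsUnit r ↔ (r : K) ∉ R.nonunits := by
  rw [ValuationSubring.coe_mem_nonunits_iff, IsLocalRing.mem_maximalIdeal, mem_nonunits_iff, not_not]

theorem mem_nonunits_comap {K L : Type*} [Field K] [Field L] (ι : K →+* L)
    (A : ValuationSubring L) (x : K) : x ∈ (A.comap ι).nonunits ↔ ι x ∈ A.nonunits := by
  rw [ValuationSubring.mem_nonunits_iff_or, ValuationSubring.mem_nonunits_iff_or,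
    ValuationSubring.mem_comap, map_inv₀, map_eq_zero]

end Gal

section Res

variable {K : Type} [Field K] [CharZero K] [Normal ℚ K] (ι : K →+* Kb)

theorem exists_resK (τ : GQ) : ∃ τK : K ≃+* K, ∀ a, ι (τK a) = τ (ι a) := by
  let _ : Algebra K Kb := ι.toAlgebra
  have : IsScalarTower ℚ K Kb := IsScalarTower.of_algebraMap_eq' (Subsingleton.elim _ _)
  exact ⟨(τ.restrictNormal K).toRingEquiv, fun a => AlgEquiv.restrictNormal_commutes τ K a⟩

/-- the restriction of `τ` to `K`. -/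
def resK (τ : GQ) : K ≃+* K := (exists_resK ι τ).choose

theorem ι_resK (τ : GQ) (a : K) : ι (resK ι τ a) = τ (ι a) := (exists_resK ι τ).choose_spec a

variable (A : ValuationSubring Kb)

theorem exists_resR {τ : GQ} (hτ : τ ∈ A.decompositionSubgroup ℚ) :
    ∃ τR : ↥(A.comap ι) ≃+* ↥(A.comap ι), ∀ r, ((τR r : ↥(A.comap ι)) : K) = resK ι τ r := by
  have h1 : ∀ r : K, r ∈ A.comap ι → resK ι τ r ∈ A.comap ι := by
    intro r hr
    obtain ⟨s, hs⟩ := Fermat.Agent.GES.exists_sigA A hτ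
    rw [ValuationSubring.mem_comap, ι_resK, ← hs ⟨ι r, hr⟩]
    exact (s _).2
  have h2 : ∀ r : K, r ∈ A.comap ι → (resK ι τ).symm r ∈ A.comap ι := by
    intro r hr
    obtain ⟨s, hs⟩ := Fermat.Agent.GES.exists_sigA A ((A.decompositionSubgroup ℚ).inv_mem hτ)
    have h3 : ι ((resK ι τ).symm r) = τ⁻¹ (ι r) := by
      have h4 : τ (ι ((resK ι τ).symm r)) = ι r := by
        rw [← ι_resK, RingEquiv.apply_symm_apply]
      rw [← h4]
      exact (τ.symm_apply_apply _).symm
    rw [ValuationSubring.mem_comap, h3, ← hs ⟨ι r, hr⟩]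
    exact (s _).2
  exact ⟨{ toFun := fun r => ⟨resK ι τ r, h1 r r.2⟩
           invFun := fun r => ⟨(resK ι τ).symm r, h2 r r.2⟩
           left_inv := fun r => Subtype.ext ((resK ι τ).symm_apply_apply _)
           right_inv := fun r => Subtype.ext ((resK ι τ).apply_symm_apply _)
           map_mul' := fun r r' => Subtype.ext (map_mul (resK ι τ) _ _)
           map_add' := fun r r' => Subtype.ext (map_add (resK ι τ) _ _) }, fun r => rfl⟩

/-- the restriction of `τ` to `R = A ∩ K`. -/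
def resR {τ : GQ} (hτ : τ ∈ A.decompositionSubgroup ℚ) : ↥(A.comap ι) ≃+* ↥(A.comap ι) :=
  (exists_resR ι A hτ).choose

theorem coe_resR {τ : GQ} (hτ : τ ∈ A.decompositionSubgroup ℚ) (r : ↥(A.comap ι)) :
    ((resR ι A hτ r : ↥(A.comap ι)) : K) = resK ι τ r := (exists_resR ι A hτ).choose_spec r

theorem resK_algebraMap {τ : GQ} (hτ : τ ∈ A.decompositionSubgroup ℚ) (r : ↥(A.comap ι)) :
    (resK ι τ : K →+* K) (algebraMap ↥(A.comap ι) K r) = algebraMap ↥(A.comap ι) K (resR ι A hτ r) :=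
  (coe_resR ι A hτ r).symm

theorem resR_inertia {τ : GQ} (hτ : τ ∈ A.inertiaSubgroupIn ℚ) (r : ↥(A.comap ι)) :
    ¬ IsUnit (resR ι A (Fermat.Agent.GES.mem_decomposition_of_mem_inertia A hτ) r - r) := by
  rw [Gal.isUnit_iff, not_not, Gal.mem_nonunits_comap]
  have hd := Fermat.Agent.GES.mem_decomposition_of_mem_inertia A hτ
  have h1 : ι ((resR ι A hd r - r : ↥(A.comap ι)) : K) = τ (ι r) - ι r := by
    rw [← ι_resK, ← coe_resR ι A hd, ← map_sub]
    rfl
  rw [h1]
  obtain ⟨s, hs⟩ := Fermat.Agent.GES.exists_sigA A hd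
  have h2 := Fermat.Agent.GES.residue_sigA_inertia A hτ s hs ⟨ι r, r.2⟩
  rw [← sub_eq_zero, ← map_sub, IsLocalRing.residue_eq_zero_iff,
    ← ValuationSubring.coe_mem_nonunits_iff] at h2
  have h3 : ((s ⟨ι r, r.2⟩ - ⟨ι r, r.2⟩ : A) : Kb) = τ (ι r) - ι r := by
    rw [← hs ⟨ι r, r.2⟩]
    rfl
  rwa [h3] at h2

theorem resR_frob {τ : GQ} {q : ℕ} (hτ : A.IsFrobeniusAt τ q) (r : ↥(A.comap ι)) :
    ¬ IsUnit (resR ι A hτ.mem_decompositionSubgroup r - r ^ q) := by
  rw [Gal.isUnit_iff, not_not, Gal.mem_nonunits_comap]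
  have hd := hτ.mem_decompositionSubgroup
  have h1 : ι ((resR ι A hd r - r ^ q : ↥(A.comap ι)) : K) = τ (ι r) - ι r ^ q := by
    rw [← ι_resK, ← coe_resR ι A hd, ← map_pow, ← map_sub]
    rfl
  rw [h1]
  exact Fermat.Agent.S29.FDFixed.frob_sub_pow_mem A τ hτ (ι r) r.2

end Res

section GalFK

variable {K : Type} [Field K]

theorem coeffMap_mem_FK {K' : Type} [Field K'] (σ : K →+* K') (N : ℕ) {f : LaurentSeries K}
    (hf : f ∈ FK K N) : coeffMap σ f ∈ FK K' N := by
  change f ∈ IntermediateField.adjoin K (divisorExpansionsC K N) at hf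
  induction hf using IntermediateField.adjoin_induction with
  | mem x hx =>
    obtain ⟨d, hd0, hd, rfl⟩ := hx
    rw [coeffMap_qExpand, coeffMap_jqModC]
    exact IntermediateField.subset_adjoin _ _ ⟨d, hd0, hd, rfl⟩
  | algebraMap r =>
    rw [algebraMap_laurentSeries_eq_single, coeffMap_single, ← algebraMap_laurentSeries_eq_single]
    exact (FK K' N).algebraMap_mem _
  | add x y _ _ hx hy =>
    rw [map_add]; exact add_mem hx hy
  | inv x _ hx =>
    rw [map_inv₀]; exact inv_mem hx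
  | mul x y _ _ hx hy =>
    rw [map_mul]; exact mul_mem hx hy

theorem exists_galFK (σ : K ≃+* K) (N : ℕ) :
    ∃ σF : ↥(FK K N) ≃+* ↥(FK K N), ∀ f, (σF f).1 = coeffMap (σ : K →+* K) f.1 := by
  have h1 : ∀ x : LaurentSeries K,
      coeffMap (σ.symm : K →+* K) (coeffMap (σ : K →+* K) x) = x := by
    intro x
    rw [coeffMap_coeffMap]
    ext k
    simp
  have h2 : ∀ x : LaurentSeries K,
      coeffMap (σ : K →+* K) (coeffMap (σ.symm : K →+* K) x) = x := by
    intro x
    rw [coeffMap_coeffMap]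
    ext k
    simp
  exact ⟨{ toFun := fun f => ⟨coeffMap (σ : K →+* K) f.1, coeffMap_mem_FK _ N f.2⟩
           invFun := fun f => ⟨coeffMap (σ.symm : K →+* K) f.1, coeffMap_mem_FK _ N f.2⟩
           left_inv := fun f => Subtype.ext (h1 f.1)
           right_inv := fun f => Subtype.ext (h2 f.1)
           map_mul' := fun f g => Subtype.ext (map_mul (coeffMap (σ : K →+* K)) f.1 g.1)
           map_add' := fun f g => Subtype.ext (map_add (coeffMap (σ : K →+* K)) f.1 g.1) },
    fun f => rfl⟩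

/-- the coefficientwise action of `σ` on `F_{N,K}`. -/
def galFK (σ : K ≃+* K) (N : ℕ) : ↥(FK K N) ≃+* ↥(FK K N) := (exists_galFK σ N).choose

theorem coe_galFK (σ : K ≃+* K) (N : ℕ) (f : ↥(FK K N)) :
    (galFK σ N f).1 = coeffMap (σ : K →+* K) f.1 := (exists_galFK σ N).choose_spec f

theorem toFN_galFK [CharZero K] [Normal ℚ K] (ι : K →+* Kb) (N : ℕ) [NeZero N] (τ : GQ)
    (z : ↥(FK K N)) : toFN ι N (galFK (resK ι τ) N z) = galF N τ (toFN ι N z) := by
  apply Subtype.ext
  rw [Fermat.Agent.GES.coe_galF, toFN_coe, toFN_coe, coe_galFK, coeffMap_coeffMap,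
    coeffMap_coeffMap]
  refine coeffMap_congr (RingHom.ext fun a => ?_) _
  exact ι_resK ι τ a

end GalFK

end Fermat.Agent.S34.V2
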