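import Fermat.Agent.S34.V2.Inst
import Fermat.Agent.S34.V2.Chart
import Fermat.Agent.S34.V2.Gal
import Fermat.Agent.S34.Mod.Main

set_option autoImplicit false
set_option linter.unusedSectionVars false

/-!
# S34/V2 : the CONCRETE two-level context   (tasks V2-ConcA, V2-ConcB)

`𝒞 : S18.Ctx M q p A` with `𝒞.u = 1` (e.g. `trivCtx`), `q ∤ M`, `x = xK K (lineOf q) ∈ F_{M,K}` (`Mod.out_X`, `r ∣ M`).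
`E := ↥𝒞.E` (`= F_{M,K}` as a set), `F := ↥(FK K (M * q))`, `w := Mod.wQ K (M * q) q`.

KERNEL WARNING (`S18/V/Hyp.lean`): never prove equalities between elements of two different concrete subfields by `rfl`; use `Subtype.ext`, `IntermediateField.coe_inclusion`, `algIncl_coe`.
-/

noncomputable section

namespace Fermat.Agent.S34.V2

open ModularCurve Polynomial IntermediateField AlgebraicCurve Fermat.Agent.S18 Fermat.Agent.S18.V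
open Fermat.Agent.S24 (Kb FN)
open Fermat.Agent.S34

variable {M q p : ℕ} [NeZero M] [NeZero q] {A : ValuationSubring Kb} (𝒞 : Ctx M q p A)

/-! ### V2-ConcA : the inputs of `instTwo` -/

theorem Ctx.u_mem_E0 (hu : 𝒞.u = 1) : 𝒞.u ∈ 𝒞.E0 := by
  rw [hu]
  exact one_mem _

/-- (`IntermediateField.adjoin_le_iff`; the generators are in `FK K M` by `IntermediateField.subset_adjoin`, `hX`, `one_mem`.) -/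
theorem Ctx.E_le_FK (hu : 𝒞.u = 1) (hX : xK 𝒞.K 𝒞.Λ ∈ FK 𝒞.K M) : 𝒞.E ≤ FK 𝒞.K M := by
  unfold Ctx.E
  rw [IntermediateField.adjoin_le_iff]
  rintro y (hy | hy | hy)
  · exact IntermediateField.subset_adjoin _ _ hy
  · rw [hy]
    exact hX
  · rw [Set.mem_singleton_iff.1 hy, hu]
    exact one_mem _

theorem Ctx.E_le_FKq (hu : 𝒞.u = 1) (hX : xK 𝒞.K 𝒞.Λ ∈ FK 𝒞.K M) : 𝒞.E ≤ FK 𝒞.K (M * q) :=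
  (Ctx.E_le_FK 𝒞 hu hX).trans (Mod.FK_le M q)

/-- (as in the proof of `S18.Ctx.vhyp`.) -/
theorem Ctx.cR_xK : cR 𝒞.R 𝒞.K (xK 𝒞.R 𝒞.Λ) = xK 𝒞.K 𝒞.Λ := by
  rw [xK, xK, V.cR, coeffMap_coeffMap]
  exact coeffMap_congr (RingHom.ext_int _ _) _

theorem Ctx.cR_xK_mem : cR 𝒞.R 𝒞.K (xK 𝒞.R 𝒞.Λ) ∈ 𝒞.E := by
  rw [Ctx.cR_xK]
  exact 𝒞.x_mem

include 𝒞 in
theorem Ctx.conc_not_sq_dvd : ¬ q ^ 2 ∣ M * q := by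
  intro h
  rw [pow_two] at h
  exact 𝒞.hℓN (Nat.dvd_of_mul_dvd_mul_right 𝒞.hℓ.pos h)

/-- (`Mod.out_W_invol`; `q ∣ M * q`, `¬ q ^ 2 ∣ M * q` from `𝒞.hℓN`.) -/
theorem Ctx.w_w (z : ↥(FK 𝒞.K (M * q))) :
    Mod.wQ 𝒞.K (M * q) q (Mod.wQ 𝒞.K (M * q) q z) = z :=
  Mod.out_W_invol 𝒞.K (M * q) q 𝒞.hℓ (dvd_mul_left q M) (Ctx.conc_not_sq_dvd 𝒞) z

/-- (`Mod.out_W_low`; `M * q / q = M`; `IntermediateField.coe_inclusion`.) -/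
theorem Ctx.w_low (hu : 𝒞.u = 1) (hX : xK 𝒞.K 𝒞.Λ ∈ FK 𝒞.K M) (y : ↥𝒞.E) :
    (Mod.wQ 𝒞.K (M * q) q (IntermediateField.inclusion (Ctx.E_le_FKq 𝒞 hu hX) y)).1 =
      qExpand 𝒞.K q y.1 := by
  have h := Mod.out_W_low 𝒞.K (M * q) q 𝒞.hℓ (dvd_mul_left q M) (Ctx.conc_not_sq_dvd 𝒞)
    (IntermediateField.inclusion (Ctx.E_le_FKq 𝒞 hu hX) y) (by
      rw [Nat.mul_div_cancel _ 𝒞.hℓ.pos, IntermediateField.coe_inclusion]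
      exact Ctx.E_le_FK 𝒞 hu hX y.2)
  rw [IntermediateField.coe_inclusion] at h
  exact h

/-- (`Mod.degLE 𝒞.ι M q 𝒞.hℓ 𝒞.hℓN`, and `FK K M ≤ 𝒞.E` (`𝒞.FK_le_E`): the coefficients of the relation lie in the bigger field.) -/
theorem Ctx.degLE : Mod.DegLE (𝒞.E : Set (LaurentSeries 𝒞.K)) (FK 𝒞.K (M * q)) (q + 1) := by
  intro v hv
  obtain ⟨c, hc, hc0, hsum⟩ := Mod.degLE 𝒞.ι M q 𝒞.hℓ 𝒞.hℓN v hv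
  exact ⟨c, fun a => 𝒞.FK_le_E (hc a), hc0, hsum⟩

/-- (`frob_congr_int q 𝒞.hℓ 𝒞.not_isUnit_ℓ (xZ 𝒞.Λ)`, `xK = coeffMap (Int.castRingHom _) (xZ _)`, `Ctx.cR_xK`.) -/
theorem Ctx.hfrob :
    qExpand 𝒞.K q (cR 𝒞.R 𝒞.K (xK 𝒞.R 𝒞.Λ)) - cR 𝒞.R 𝒞.K (xK 𝒞.R 𝒞.Λ) ^ q ∈
      (gaussL 𝒞.R 𝒞.K).nonunits := by
  rw [Ctx.cR_xK]
  exact frob_congr_int q 𝒞.hℓ 𝒞.not_isUnit_ℓ (xZ 𝒞.Λ)

/-- the algebra structure of `F_{Mq,K}` over `𝒞.E`. -/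
abbrev Ctx.alg (hu : 𝒞.u = 1) (hX : xK 𝒞.K 𝒞.Λ ∈ FK 𝒞.K M) : Algebra ↥𝒞.E ↥(FK 𝒞.K (M * q)) :=
  algIncl (Ctx.E_le_FKq 𝒞 hu hX)

/-- the concrete two-level context. -/
def Ctx.two (hu : 𝒞.u = 1) (hX : xK 𝒞.K 𝒞.Λ ∈ FK 𝒞.K M) :
    letI := Ctx.alg 𝒞 hu hX
    Two 𝒞.R 𝒞.K q ↥𝒞.E ↥(FK 𝒞.K (M * q)) :=
  instTwo (Ctx.E_le_FKq 𝒞 hu hX) (fun _ hz => InQF.of_mem_FK hz) (Mod.wQ 𝒞.K (M * q) q) (Ctx.w_w 𝒞)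
    (Ctx.w_low 𝒞 hu hX) (Ctx.degLE 𝒞) (xK 𝒞.R 𝒞.Λ) (Ctx.cR_xK_mem 𝒞) (VSide.order_xR 𝒞.R 𝒞.Λ).1
    (by rw [(VSide.order_xR 𝒞.R 𝒞.Λ).2]; exact isUnit_one) 𝒞.hℓ 𝒞.not_isUnit_ℓ (Ctx.hfrob 𝒞)

end Fermat.Agent.S34.V2
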