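import Fermat.Agent.S34.V2.Gauss

set_option autoImplicit false
set_option linter.unusedSectionVars false

/-!
# S34/V2 : operations compatible with the Gauss valuation   (task V2-OpsGal)

Everything is proved with the "fraction" API of `Gauss.lean`:
`InQF.exists_frac` (`f ∈ gaussL`, `InQF f` ⇒ `f * cR β = cR α`, `β` primitive), `frac_mem`, `frac_mem_nonunits_iff`, `InQF.nf`,
`nf_mem_iff`, `nf_mem_nonunits_iff`, `Prim.mul`.

## Sketch
* **OpsGal** `coeffMap σ (cR α) = cR (coeffMap σR α)` (`coeffMap_coeffMap`, `coeffMap_congr`); `σR` is an automorphism of `R`, so it preserves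
  units and nonunits, and `σR ϖ` is again irreducible: transport fractions.
  `coeffMap_sub_mem_nonunits`: `f = a/b` (`a = cR α`, `b = cR β`), `σ f - f = ((σ a - a) b - a (σ b - b)) / (b σ b)`; the numerator is `cR` of a series
  all of whose coefficients are nonunits (a product `γ * δ` with all coefficients of `γ` nonunits has the same property: reduce mod `𝔪`
  with `S18.V.Gauss.redR`, `redR_eq_zero_iff`), the denominator is `cR` of a primitive series.
-/

noncomputable section

namespace Fermat.Agent.S34.V2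

open ModularCurve Fermat.Agent.S18 Fermat.Agent.S18.V

variable {R K : Type} [CommRing R] [IsDomain R] [IsDiscreteValuationRing R] [Field K]
  [Algebra R K] [IsFractionRing R K]

section OpsGal

variable (σ : K →+* K) (σR : R ≃+* R) (hσ : ∀ r, σ (algebraMap R K r) = algebraMap R K (σR r))

include hσ

theorem coeffMap_cR (α : LaurentSeries R) :
    coeffMap σ (cR R K α) = cR R K (coeffMap (σR : R →+* R) α) := by
  ext n
  simp only [coeffMap_coeff]
  exact hσ _

omit hσ in
theorem Prim.map_coeffMap {α : LaurentSeries R} (h : Prim α) :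
    Prim (coeffMap (σR : R →+* R) α) := by
  obtain ⟨n, hn⟩ := h
  exact ⟨n, by rw [coeffMap_coeff]; exact hn.map (σR : R →+* R)⟩

omit hσ in
theorem coeffMap_equiv_ne_zero {α : LaurentSeries R} (h : α ≠ 0) :
    coeffMap (σR : R →+* R) α ≠ 0 := by
  intro h0
  apply h
  ext n
  have h1 := congrArg (fun s => s.coeff n) h0
  simp only [coeffMap_coeff, HahnSeries.coeff_zero] at h1
  rw [HahnSeries.coeff_zero]
  exact (map_eq_zero_iff (σR : R →+* R) σR.injective).mp h1

theorem coeffMap_cst (r : R) : coeffMap σ (cst R K r) = cst R K (σR r) := by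
  rw [cst_eq_cR, coeffMap_cR σ σR hσ, cst_eq_cR]
  congr 1
  exact coeffMap_single _ _ _

theorem coeffMap_nf {ϖ : R} {f : LaurentSeries K} {k : ℤ} {α β : LaurentSeries R}
    (h : f * cR R K β = cst R K ϖ ^ k * cR R K α) :
    coeffMap σ f * cR R K (coeffMap (σR : R →+* R) β) =
      cst R K (σR ϖ) ^ k * cR R K (coeffMap (σR : R →+* R) α) := by
  rw [← coeffMap_cR σ σR hσ, ← coeffMap_cR σ σR hσ, ← map_mul, h, map_mul, map_zpow₀,
    coeffMap_cst σ σR hσ]

theorem InQF.map_coeffMap {f : LaurentSeries K} (hf : InQF R f) : InQF R (coeffMap σ f) := by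
  obtain ⟨α, β, hβ, h⟩ := hf
  exact ⟨coeffMap (σR : R →+* R) α, coeffMap (σR : R →+* R) β, coeffMap_equiv_ne_zero σR hβ, by
    rw [← coeffMap_cR σ σR hσ, ← coeffMap_cR σ σR hσ, ← map_mul, h]⟩

theorem coeffMap_mem_iff {f : LaurentSeries K} (hf : InQF R f) :
    coeffMap σ f ∈ gaussL R K ↔ f ∈ gaussL R K := by
  rcases eq_or_ne f 0 with rfl | hf0
  · rw [map_zero]
  obtain ⟨ϖ, hϖ⟩ := IsDiscreteValuationRing.exists_irreducible R
  have hϖ' : Irreducible (σR ϖ) := (MulEquiv.irreducible_iff σR).mpr hϖ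
  obtain ⟨k, α, β, hα, hβ, h⟩ := hf.nf hϖ hf0
  rw [nf_mem_iff hϖ hα hβ h,
    nf_mem_iff hϖ' (hα.map_coeffMap σR) (hβ.map_coeffMap σR) (coeffMap_nf σ σR hσ h)]

theorem coeffMap_mem_nonunits_iff {f : LaurentSeries K} (hf : InQF R f) :
    coeffMap σ f ∈ (gaussL R K).nonunits ↔ f ∈ (gaussL R K).nonunits := by
  rcases eq_or_ne f 0 with rfl | hf0
  · rw [map_zero]
  obtain ⟨ϖ, hϖ⟩ := IsDiscreteValuationRing.exists_irreducible R
  have hϖ' : Irreducible (σR ϖ) := (MulEquiv.irreducible_iff σR).mpr hϖ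
  obtain ⟨k, α, β, hα, hβ, h⟩ := hf.nf hϖ hf0
  rw [nf_mem_nonunits_iff hϖ hα hβ h,
    nf_mem_nonunits_iff hϖ' (hα.map_coeffMap σR) (hβ.map_coeffMap σR) (coeffMap_nf σ σR hσ h)]

/-- inertia acts trivially on the residue field of the Gauss valuation. -/
theorem coeffMap_sub_mem_nonunits (hI : ∀ r, ¬ IsUnit (σR r - r)) {f : LaurentSeries K}
    (hf : InQF R f) (h : f ∈ gaussL R K) : coeffMap σ f - f ∈ (gaussL R K).nonunits := by
  obtain ⟨α, β, hβ, hfr⟩ := hf.exists_frac h
  set α' := coeffMap (σR : R →+* R) α with hα'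
  set β' := coeffMap (σR : R →+* R) β with hβ'
  have hfr' : coeffMap σ f * cR R K β' = cR R K α' := by
    rw [hα', hβ', ← coeffMap_cR σ σR hσ, ← coeffMap_cR σ σR hσ, ← map_mul, hfr]
  have hrel : (coeffMap σ f - f) * cR R K (β * β') = cR R K (α' * β - α * β') := by
    rw [map_sub, map_mul, map_mul, map_mul, ← hfr, ← hfr']
    ring
  rw [frac_mem_nonunits_iff (hβ.mul (hβ.map_coeffMap σR)) hrel, ← Gauss.redR_eq_zero_iff]
  have hred : ∀ γ : LaurentSeries R, Gauss.redR R (coeffMap (σR : R →+* R) γ) = Gauss.redR R γ := by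
    intro γ
    rw [← sub_eq_zero, ← map_sub, Gauss.redR_eq_zero_iff]
    intro n
    rw [HahnSeries.coeff_sub, coeffMap_coeff]
    exact hI _
  rw [map_sub, map_mul, map_mul, hα', hβ', hred, hred, mul_comm, sub_self]

end OpsGal

end Fermat.Agent.S34.V2
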