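import Fermat.Agent.S34.V2.OpsQ
import Fermat.Agent.S34.V2.OpsGal
import Fermat.Agent.GES.FrobSeries

set_option autoImplicit false
set_option linter.unusedSectionVars false

/-!
# S34/V2 : operations compatible with the Gauss valuation   (task V2-Frob)

Everything is proved with the "fraction" API of `Gauss.lean`:
`InQF.exists_frac` (`f ∈ gaussL`, `InQF f` ⇒ `f * cR β = cR α`, `β` primitive), `frac_mem`, `frac_mem_nonunits_iff`, `InQF.nf`,
`nf_mem_iff`, `nf_mem_nonunits_iff`, `Prim.mul`.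

## Sketch
* **Frob** in `κ((q))`, `κ = R/𝔪` of characteristic `q`: `redR (qExpand q (coeffMap σR α)) = (redR α)^q` by `GES.pow_char_eq` (and
  `residue (σR r) = residue r ^ q`).  So `A := qExpand q (σ a) ≡ a^q`, `B := qExpand q (σ b) ≡ b^q`, and
  `A/B - (a/b)^q = ((A - a^q) b^q - a^q (B - b^q)) / (B b^q)`.
-/

noncomputable section

namespace Fermat.Agent.S34.V2

open ModularCurve Fermat.Agent.S18 Fermat.Agent.S18.V

variable {R K : Type} [CommRing R] [IsDomain R] [IsDiscreteValuationRing R] [Field K]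
  [Algebra R K] [IsFractionRing R K]

namespace Frob

theorem prim_pow {α : LaurentSeries R} (h : Prim α) (n : ℕ) : Prim (α ^ n) := by
  rw [prim_iff_redR_ne_zero] at h ⊢
  rw [map_pow]
  exact pow_ne_zero n h

theorem prim_coeffMap (σR : R ≃+* R) {α : LaurentSeries R} (h : Prim α) :
    Prim (coeffMap (σR : R →+* R) α) := by
  obtain ⟨n, hn⟩ := h
  exact ⟨n, by rw [coeffMap_coeff]; exact hn.map (σR : R →+* R)⟩

theorem charP_residue {q : ℕ} (hq : q.Prime) (hqR : ¬ IsUnit (q : R)) :
    CharP (IsLocalRing.ResidueField R) q := by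
  rw [CharP.charP_iff_prime_eq_zero hq]
  have h1 : IsLocalRing.residue R (q : R) = 0 :=
    (IsLocalRing.residue_eq_zero_iff _).mpr ((IsLocalRing.mem_maximalIdeal _).mpr hqR)
  rwa [map_natCast] at h1

/-- the reduction of `(s α)(Q^q)` is the `q`-th power of the reduction of `α`. -/
theorem redR_qExpand (q : ℕ) [NeZero q] (hq : q.Prime) (hqR : ¬ IsUnit (q : R)) (φ : R →+* R)
    (hF : ∀ r, ¬ IsUnit (φ r - r ^ q)) (α : LaurentSeries R) :
    Gauss.redR R (qExpand R q (coeffMap φ α)) = Gauss.redR R α ^ q := by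
  have : Fact q.Prime := ⟨hq⟩
  have := charP_residue hq hqR
  rw [GES.pow_char_eq, coeffMap_qExpand, coeffMap_coeffMap, coeffMap_coeffMap]
  refine congrArg _ (coeffMap_congr (RingHom.ext fun r => ?_) α)
  show IsLocalRing.residue R (φ r) = (IsLocalRing.residue R r) ^ q
  rw [← map_pow, ← sub_eq_zero, ← map_sub, IsLocalRing.residue_eq_zero_iff,
    IsLocalRing.mem_maximalIdeal]
  exact hF r

/-- abstract form: two ring endomorphisms, one of `K((q))` and one of `R((q))`. -/
theorem congr_aux (q : ℕ) (Φ : LaurentSeries K →+* LaurentSeries K)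
    (ΦR : LaurentSeries R →+* LaurentSeries R) (hΦ : ∀ α, Φ (cR R K α) = cR R K (ΦR α))
    (hprim : ∀ α, Prim α → Prim (ΦR α)) (hred : ∀ α, Gauss.redR R (ΦR α) = Gauss.redR R α ^ q)
    {f : LaurentSeries K} (hf : InQF R f) (h : f ∈ gaussL R K) :
    Φ f - f ^ q ∈ (gaussL R K).nonunits := by
  obtain ⟨α, β, hβ, e⟩ := hf.exists_frac h
  have e1 : Φ f * cR R K (ΦR β) = cR R K (ΦR α) := by
    rw [← hΦ, ← hΦ, ← map_mul, e]
  have e2 : f ^ q * cR R K (β ^ q) = cR R K (α ^ q) := by
    rw [map_pow, map_pow, ← mul_pow, e]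
  have e3 : (Φ f - f ^ q) * cR R K (ΦR β * β ^ q) = cR R K (ΦR α * β ^ q - α ^ q * ΦR β) := by
    rw [map_mul, map_sub, map_mul, map_mul, ← e1, ← e2]
    ring
  rw [frac_mem_nonunits_iff ((hprim β hβ).mul (prim_pow hβ q)) e3, ← Gauss.redR_eq_zero_iff,
    map_sub, map_mul, map_mul, hred, hred, map_pow, map_pow]
  ring

end Frob

section Frob

variable (q : ℕ) [NeZero q] (hq : q.Prime) (hqR : ¬ IsUnit (q : R))

include hq hqR

/-- the twisted Frobenius congruence `(s f)(Q^q) ≡ f(Q)^q`. -/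
theorem frob_congr (σ : K →+* K) (σR : R ≃+* R)
    (hσ : ∀ r, σ (algebraMap R K r) = algebraMap R K (σR r)) (hF : ∀ r, ¬ IsUnit (σR r - r ^ q))
    {f : LaurentSeries K} (hf : InQF R f) (h : f ∈ gaussL R K) :
    qExpand K q (coeffMap σ f) - f ^ q ∈ (gaussL R K).nonunits := by
  refine Frob.congr_aux q ((qExpand K q).comp (coeffMap σ))
    ((qExpand R q).comp (coeffMap (σR : R →+* R))) ?_ ?_ ?_ hf h
  · intro α
    rw [RingHom.comp_apply, RingHom.comp_apply, coeffMap_cR σ σR hσ, qExpand_cR]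
  · intro α hα
    exact (Frob.prim_coeffMap σR hα).map_qExpand q
  · intro α
    exact Frob.redR_qExpand q hq hqR (σR : R →+* R) hF α

/-- the untwisted Frobenius congruence for series with integer coefficients. -/
theorem frob_congr_int (X₀ : LaurentSeries ℤ) :
    qExpand K q (coeffMap (Int.castRingHom K) X₀) - coeffMap (Int.castRingHom K) X₀ ^ q
      ∈ (gaussL R K).nonunits := by
  have : Fact q.Prime := ⟨hq⟩
  have := Frob.charP_residue hq hqR
  set α : LaurentSeries R := coeffMap (Int.castRingHom R) X₀ with hα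
  have h1 : coeffMap (Int.castRingHom K) X₀ = cR R K α := by
    rw [hα, coeffMap_coeffMap]
    exact coeffMap_congr (Subsingleton.elim _ _) X₀
  rw [h1, qExpand_cR, ← map_pow, ← map_sub, cR_mem_nonunits_iff, ← Gauss.redR_eq_zero_iff,
    map_sub, map_pow, GES.pow_char_eq, coeffMap_qExpand, sub_eq_zero]
  refine congrArg _ ?_
  rw [hα, coeffMap_coeffMap, coeffMap_coeffMap]
  exact coeffMap_congr (Subsingleton.elim _ _) X₀

end Frob

end Fermat.Agent.S34.V2
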