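import Fermat.Agent.S34.V2.OpsQ

set_option autoImplicit false
set_option linter.unusedSectionVars false

/-!
# S34/V2 : operations compatible with the Gauss valuation   (task V2-Indep)

Everything is proved with the "fraction" API of `Gauss.lean`:
`InQF.exists_frac` (`f ∈ gaussL`, `InQF f` ⇒ `f * cR β = cR α`, `β` primitive), `frac_mem`, `frac_mem_nonunits_iff`, `InQF.nf`,
`nf_mem_iff`, `nf_mem_nonunits_iff`, `Prim.mul`.

## Sketch
* **Indep** multiply by the (primitive) product of the `qExpand d (β k)`: we get `∑ k, qExpand d (γ k) * x₀^k` with all coefficients nonunits, where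
  `γ k = α k * ∏_{l ≠ k} β l`.  Reduce mod `𝔪`: `∑ k, qExpand d (γ̄ k) * x̄^k = 0` in `κ((q))`, `x̄` of order `-1`; the nonzero terms have orders
  `≡ -k mod d`, pairwise distinct, so all terms vanish (`HahnSeries.order_mul`, look at the term of smallest order).  `γ̄ k = 0` and `β̄ l ≠ 0` give
  `ᾱ k = 0`.
-/

noncomputable section

namespace Fermat.Agent.S34.V2

open ModularCurve Fermat.Agent.S18 Fermat.Agent.S18.V

variable {R K : Type} [CommRing R] [IsDomain R] [IsDiscreteValuationRing R] [Field K]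
  [Algebra R K] [IsFractionRing R K]

section field

variable {κ : Type*} [Field κ]

theorem indep_order_qExpand (k : ℕ) [NeZero k] (f : LaurentSeries κ) :
    (qExpand κ k f).order = k * f.order := by
  rcases eq_or_ne f 0 with rfl | hf
  · simp
  have hf' : qExpand κ k f ≠ 0 := by
    intro h
    exact hf (qExpand_injective k (by rw [h, map_zero]))
  have hk : (0 : ℤ) < k := by exact_mod_cast Nat.pos_of_ne_zero (NeZero.ne k)
  apply le_antisymm
  · apply HahnSeries.order_le_of_coeff_ne_zero
    rw [qExpand_coeff_mul]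
    exact fun h => hf (HahnSeries.coeff_order_eq_zero.mp h)
  · have h1 : (qExpand κ k f).coeff (qExpand κ k f).order ≠ 0 :=
      fun h => hf' (HahnSeries.coeff_order_eq_zero.mp h)
    by_cases hn : (k : ℤ) ∣ (qExpand κ k f).order
    · obtain ⟨m, hm⟩ := hn
      rw [hm, qExpand_coeff_mul] at h1
      rw [hm]
      exact mul_le_mul_of_nonneg_left (HahnSeries.order_le_of_coeff_ne_zero h1) hk.le
    · exact absurd (qExpand_coeff_of_not_dvd k f hn) h1

/-- a finite sum of series whose nonzero terms have pairwise distinct orders vanishes only if all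
terms vanish. -/
theorem indep_sum_eq_zero {ι : Type*} (s : Finset ι) (t : ι → LaurentSeries κ)
    (hdist : ∀ i ∈ s, ∀ j ∈ s, t i ≠ 0 → t j ≠ 0 → (t i).order = (t j).order → i = j)
    (hsum : ∑ i ∈ s, t i = 0) : ∀ i ∈ s, t i = 0 := by
  classical
  by_contra hcon
  push Not at hcon
  obtain ⟨i₁, hi₁, hne₁⟩ := hcon
  have hne : (s.filter fun i => t i ≠ 0).Nonempty := ⟨i₁, Finset.mem_filter.mpr ⟨hi₁, hne₁⟩⟩
  obtain ⟨i₀, hi₀, hmin⟩ := Finset.exists_min_image _ (fun i => (t i).order) hne
  rw [Finset.mem_filter] at hi₀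
  have h1 := congrArg (fun y : LaurentSeries κ => y.coeff (t i₀).order) hsum
  simp only [HahnSeries.coeff_sum, HahnSeries.coeff_zero] at h1
  rw [Finset.sum_eq_single_of_mem i₀ hi₀.1] at h1
  · exact hi₀.2 (HahnSeries.coeff_order_eq_zero.mp h1)
  · intro j hj hji
    by_cases hj0 : t j = 0
    · rw [hj0, HahnSeries.coeff_zero]
    · apply HahnSeries.coeff_eq_zero_of_lt_order
      have h2 := hmin j (Finset.mem_filter.mpr ⟨hj, hj0⟩)
      rcases lt_or_eq_of_le h2 with h3 | h3
      · exact h3
      · exact absurd (hdist i₀ hi₀.1 j hj hi₀.2 hj0 h3).symm hji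

theorem indep_field (d : ℕ) [NeZero d] (x : LaurentSeries κ) (hx0 : x ≠ 0) (hord : x.order = -1)
    (c : Fin d → LaurentSeries κ) (h : ∑ k, qExpand κ d (c k) * x ^ (k : ℕ) = 0) :
    ∀ k, c k = 0 := by
  have hord' : ∀ k : Fin d, qExpand κ d (c k) * x ^ (k : ℕ) ≠ 0 →
      (qExpand κ d (c k) * x ^ (k : ℕ)).order = d * (c k).order - k := by
    intro k hk
    rw [HahnSeries.order_mul (left_ne_zero_of_mul hk) (right_ne_zero_of_mul hk),
      indep_order_qExpand, HahnSeries.order_pow, hord]
    simp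
    ring
  have key := indep_sum_eq_zero Finset.univ (fun k : Fin d => qExpand κ d (c k) * x ^ (k : ℕ))
    (by
      intro i _ j _ hi hj hij
      rw [hord' i hi, hord' j hj] at hij
      have hdvd : (d : ℤ) ∣ (i : ℤ) - (j : ℤ) := ⟨(c i).order - (c j).order, by linarith⟩
      have hlt : |(i : ℤ) - (j : ℤ)| < d := by
        have hi' := i.2
        have hj' := j.2
        rw [abs_lt]
        constructor <;> omega
      have := Int.eq_zero_of_abs_lt_dvd hdvd hlt
      apply Fin.ext
      omega) h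
  intro k
  have h1 := key k (Finset.mem_univ k)
  rcases mul_eq_zero.mp h1 with h2 | h2
  · exact qExpand_injective d (by rw [h2, map_zero])
  · exact absurd h2 (pow_ne_zero _ hx0)

end field

theorem indep_red_ne_zero (x₀ : LaurentSeries R) (hlead : IsUnit (x₀.coeff (-1))) :
    Gauss.redR R x₀ ≠ 0 := by
  rw [Ne, Gauss.redR_eq_zero_iff]
  exact fun h => h _ hlead

theorem indep_red_order (x₀ : LaurentSeries R) (hord : x₀.order = -1)
    (hlead : IsUnit (x₀.coeff (-1))) : (Gauss.redR R x₀).order = -1 := by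
  have h0 := indep_red_ne_zero x₀ hlead
  apply le_antisymm
  · apply HahnSeries.order_le_of_coeff_ne_zero
    rw [coeffMap_coeff]
    intro h
    exact ((IsLocalRing.residue_eq_zero_iff _).1 h) hlead
  · by_contra hcon
    push Not at hcon
    have h1 : (Gauss.redR R x₀).coeff (Gauss.redR R x₀).order ≠ 0 :=
      fun h => h0 (HahnSeries.coeff_order_eq_zero.mp h)
    apply h1
    rw [coeffMap_coeff, HahnSeries.coeff_eq_zero_of_lt_order (by rw [hord]; exact hcon), map_zero]

theorem indep_prim_prod {ι : Type*} (s : Finset ι) (β : ι → LaurentSeries R)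
    (h : ∀ i ∈ s, Prim (β i)) : Prim (∏ i ∈ s, β i) :=
  Finset.prod_induction _ _ (fun _ _ => Prim.mul) prim_one h

/-- `1, x, …, x^(d-1)` are linearly independent over the residue field of `{a(Q^d)}`. -/
theorem indep_qExpand (d : ℕ) [NeZero d] (x₀ : LaurentSeries R) (hord : x₀.order = -1)
    (hlead : IsUnit (x₀.coeff (-1))) (a : Fin d → LaurentSeries K) (ha : ∀ k, InQF R (a k))
    (ha' : ∀ k, a k ∈ gaussL R K)
    (h : ∑ k, qExpand K d (a k) * cR R K x₀ ^ (k : ℕ) ∈ (gaussL R K).nonunits) :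
    ∀ k, a k ∈ (gaussL R K).nonunits := by
  classical
  choose α β hβ hαβ using fun k => (ha k).exists_frac (ha' k)
  set B : LaurentSeries R := ∏ l, β l with hB
  have hBprim : Prim B := indep_prim_prod _ _ (fun i _ => hβ i)
  obtain ⟨γ, hγB⟩ : ∃ γ : Fin d → LaurentSeries R, ∀ k, a k * cR R K B = cR R K (γ k) := by
    refine ⟨fun k => α k * ∏ l ∈ Finset.univ.erase k, β l, fun k => ?_⟩
    rw [hB, ← Finset.mul_prod_erase Finset.univ β (Finset.mem_univ k), map_mul, ← mul_assoc, hαβ k,
      map_mul]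
  set σ : LaurentSeries R := ∑ k, qExpand R d (γ k) * x₀ ^ (k : ℕ) with hσ
  have h1 : (∑ k, qExpand K d (a k) * cR R K x₀ ^ (k : ℕ)) * cR R K (qExpand R d B) = cR R K σ := by
    rw [hσ, map_sum, Finset.sum_mul]
    refine Finset.sum_congr rfl fun k _ => ?_
    rw [map_mul, map_pow, ← qExpand_cR, ← qExpand_cR, ← hγB k, map_mul]
    ring
  have h2 : cR R K σ ∈ (gaussL R K).nonunits := by
    rw [← h1]
    exact mul_mem_nonunits' _ h (cR_mem_gaussL _)
  rw [cR_mem_nonunits_iff, ← Gauss.redR_eq_zero_iff] at h2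
  rw [hσ, map_sum] at h2
  have h3 : ∑ k : Fin d, qExpand _ d (Gauss.redR R (γ k)) * (Gauss.redR R x₀) ^ (k : ℕ) = 0 := by
    rw [← h2]
    refine Finset.sum_congr rfl fun k _ => ?_
    rw [map_mul, map_pow, coeffMap_qExpand]
  have h4 := indep_field d _ (indep_red_ne_zero x₀ hlead) (indep_red_order x₀ hord hlead) _ h3
  intro k
  rw [frac_mem_nonunits_iff hBprim (hγB k), ← Gauss.redR_eq_zero_iff]
  exact h4 k

/-- a series of negative order with unit leading coefficient: `x - (x(Q^d))^d` is a Gauss unit (`d ≥ 2`). -/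
theorem sub_pow_notMem_nonunits (d : ℕ) [NeZero d] (hd : 2 ≤ d) (x₀ : LaurentSeries R)
    (hord : x₀.order = -1) (hlead : IsUnit (x₀.coeff (-1))) :
    cR R K x₀ - qExpand K d (cR R K x₀) ^ d ∉ (gaussL R K).nonunits := by
  rw [qExpand_cR, ← map_pow, ← map_sub]
  apply cR_notMem_nonunits
  rw [prim_iff_redR_ne_zero, map_sub, map_pow, coeffMap_qExpand, sub_ne_zero]
  intro h
  have h1 := congrArg HahnSeries.order h
  rw [HahnSeries.order_pow, indep_order_qExpand, indep_red_order x₀ hord hlead] at h1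
  simp only [nsmul_eq_mul] at h1
  have hd' : (2 : ℤ) ≤ d := by exact_mod_cast hd
  nlinarith

end Fermat.Agent.S34.V2
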