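import Fermat.Agent.S34.V2.Gauss
import Fermat.Agent.S18.V.Main
import Fermat.Agent.S18.AT.Chart
import Fermat.Agent.S18.B.Trans

set_option autoImplicit false
set_option linter.unusedSectionVars false

/-!
# S34/V2 : level prime to the residue characteristic: `InO ↔ Gauss`   (task V2-LevelM)

`N` prime to `ℓ` (the residue characteristic of `R`), `M` a VARIABLE intermediate field of `K((q))` which is equal to `F_{N,K} = FK K N` as a set
(`hFM`, `hMF`; kernel warning of `S18/V/Hyp.lean`: never compare two concrete subfields by `rfl`), `xM : M` satisfying `VHyp`.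

* `isChart`: `trans`: an algebraic element of `K((q))` is constant (`S18.trans_const`), but `xM.1 = cR x₀` has order `-1`; `fin` = hypothesis;
  `gauss := H.isGauss_x`; `dred := H.distinctRed hFM (hMF.trans (FK_le_EE0 _))`.
* `nf_FK` (normal form INSIDE `FK K N`): `BR_frac` (`f * d = c`, `c d ∈ BR`), `BR_normalize` for `c` and `d`, `BR_le_FK`; `BRInt.algebraMap_eq` /
  `BRFrac.algebraMap_R_eq` to rewrite `algebraMap R K((q)) (ϖ^n)` as `cst R K ϖ ^ n`.
* `inO_iff_gauss`: `S18.inO_iff_mem_OInt (vdata R K) hϖ (isChart ..)`: `InO K ϖ xM y ↔ ∀ φ ∈ Emb, φ y ∈ gaussO`.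
  (→) `φ := incM M` (`incM_mem`, `incM_apply`).  (←) `y.1 ∈ FK K N` by `hMF`; `nf_FK` + `nf_mem_iff` give `k ≥ 0`, so `y.1 * cR β = cR (C (ϖ^k) * α)`;
  for `φ ∈ Emb`, `φ' := φ.comp (inclF hFM)` is a `GaussHom` (`H.gaussHom hFM hφ`), `y = inclF hFM ⟨cR α', _⟩ / inclF hFM ⟨cR β, _⟩` (`Subtype.ext`, `inclF_coe`), and
  `GaussHom.div_mem` concludes.
-/

noncomputable section

namespace Fermat.Agent.S34.V2

open ModularCurve Polynomial IntermediateField Fermat.Agent.S18 Fermat.Agent.S18.V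

variable {R K : Type} [CommRing R] [IsDomain R] [IsDiscreteValuationRing R] [Field K] [CharZero K]
  [Algebra R K] [IsFractionRing R K] {N : ℕ} [NeZero N] {ℓ : ℕ} [Fact ℓ.Prime]
  {M : IntermediateField K (LaurentSeries K)}

theorem isChart {xM : ↥M} (H : VHyp R N ℓ xM.1) (hFM : FK K N ≤ M) (hMF : M ≤ FK K N)
    (hfin : FiniteDimensional K⟮xM⟯ ↥M) : IsChart (vdata R K) xM (inc K xM.1) := by
  refine ⟨?_, hfin, H.isGauss_x, H.distinctRed hFM (hMF.trans (FK_le_EE0 _))⟩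
  intro h
  have h1 : IsAlgebraic K (xM : LaurentSeries K) := by
    have := h.algebraMap (A := LaurentSeries K)
    exact this
  obtain ⟨c, hc⟩ := S18.trans_const _ h1
  obtain ⟨x₀, hx₀, -, hu⟩ := H.hx
  have h2 : (xM : LaurentSeries K).coeff (-1) = 0 := by
    rw [← hc, algebraMap_laurentSeries_eq_single, HahnSeries.coeff_single_of_ne (by norm_num)]
  rw [← hx₀, coeffMap_coeff] at h2
  have h3 : x₀.coeff (-1) = 0 := IsFractionRing.injective R K (by rw [h2, map_zero])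
  rw [h3] at hu
  exact not_isUnit_zero hu

/-- normal form inside `FK K N`. -/
theorem nf_FK (hℓR : ¬ IsUnit (ℓ : R)) (hℓN : ¬ ℓ ∣ N) {ϖ : R} (hϖ : Irreducible ϖ)
    {f : LaurentSeries K} (hf : f ∈ FK K N) (hf0 : f ≠ 0) :
    ∃ (k : ℤ) (α β : LaurentSeries R), Prim α ∧ Prim β ∧ cR R K α ∈ FK K N ∧ cR R K β ∈ FK K N ∧
      f * cR R K β = cst R K ϖ ^ k * cR R K α := by
  obtain ⟨c, hc, d, hd, hd0, hfd⟩ := BR_frac (R := R) (ℓ := ℓ) hf
  have hc0 : c ≠ 0 := by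
    rw [← hfd]
    exact mul_ne_zero hf0 hd0
  obtain ⟨n, α, hα, hα', rfl⟩ := BR_normalize hℓR hℓN ϖ hϖ hc hc0
  obtain ⟨m, β, hβ, hβ', rfl⟩ := BR_normalize hℓR hℓN ϖ hϖ hd hd0
  refine ⟨(n : ℤ) - m, α, β, hα', hβ', BR_le_FK hα, BR_le_FK hβ, ?_⟩
  have hcst : ∀ r : R, algebraMap R (LaurentSeries K) r = cst R K r := fun r =>
    BRInt.algebraMap_eq' r
  have hc := cst_ne_zero (K := K) hϖ.ne_zero
  rw [hcst, hcst, map_pow, map_pow] at hfd
  rw [zpow_sub₀ hc, zpow_natCast, zpow_natCast]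
  field_simp
  linear_combination hfd

/-- an element of `M` in normal form, as a quotient. -/
theorem levelM_eq_div (hFM : FK K N ≤ M) (y : ↥M) {α β : LaurentSeries R} (hβ : Prim β)
    (hα' : cR R K α ∈ FK K N) (hβ' : cR R K β ∈ FK K N) (e : y.1 * cR R K β = cR R K α) :
    y = inclF hFM ⟨cR R K α, hα'⟩ / inclF hFM ⟨cR R K β, hβ'⟩ := by
  have hb0 : inclF hFM ⟨cR R K β, hβ'⟩ ≠ 0 := by
    intro h
    have h1 := congrArg Subtype.val h
    rw [inclF_coe] at h1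
    exact hβ.cR_ne_zero h1
  rw [eq_div_iff hb0]
  apply Subtype.ext
  rw [MulMemClass.coe_mul, inclF_coe, inclF_coe]
  exact e

theorem levelM_emb_mem_iff {xM : ↥M} (H : VHyp R N ℓ xM.1) (hFM : FK K N ≤ M) (hMF : M ≤ FK K N)
    (y : ↥M) : (∀ φ ∈ Emb (vdata R K) xM (inc K xM.1), φ y ∈ (vdata R K).O) ↔ y.1 ∈ gaussL R K := by
  constructor
  · intro h
    have h1 := h (incM M) (incM_mem R xM)
    rw [incM_apply] at h1
    exact h1
  · intro h φ hφ
    by_cases hy0 : y.1 = 0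
    · have : y = 0 := Subtype.ext hy0
      rw [this, map_zero]
      exact zero_mem _
    obtain ⟨ϖ, hϖ⟩ := IsDiscreteValuationRing.exists_irreducible R
    obtain ⟨k, α, β, hα, hβ, hα', hβ', e⟩ := nf_FK H.hℓR H.hℓN hϖ (hMF y.2) hy0
    have hk := (nf_mem_iff hϖ hα hβ e).mp h
    obtain ⟨n, rfl⟩ := Int.eq_ofNat_of_zero_le hk
    have e' : y.1 * cR R K β = cR R K (HahnSeries.C (ϖ ^ n) * α) := by
      rw [e, map_mul, cR_C, map_pow]
      rfl
    have hα'' : cR R K (HahnSeries.C (ϖ ^ n) * α) ∈ FK K N := by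
      rw [← e']
      exact mul_mem (hMF y.2) hβ'
    rw [levelM_eq_div hFM y hβ hα'' hβ' e', map_div₀]
    exact GaussHom.div_mem (H.gaussHom hFM hφ) H.hℓR H.hℓN _ β hα'' hβ' hβ

theorem inO_iff_gauss {xM : ↥M} (H : VHyp R N ℓ xM.1) (hFM : FK K N ≤ M) (hMF : M ≤ FK K N)
    (hfin : FiniteDimensional K⟮xM⟯ ↥M) {ϖ : R} (hϖ : Irreducible ϖ) (y : ↥M) :
    InO K ϖ xM y ↔ y.1 ∈ gaussL R K := by
  rw [S18.inO_iff_mem_OInt (vdata R K) hϖ (isChart H hFM hMF hfin) y, mem_OInt]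
  exact levelM_emb_mem_iff H hFM hMF y

/-- all conjugates are integral iff the `q`-expansion is Gauss-integral. -/
theorem emb_mem_iff_gauss {xM : ↥M} (H : VHyp R N ℓ xM.1) (hFM : FK K N ≤ M) (hMF : M ≤ FK K N)
    (y : ↥M) : (∀ φ ∈ Emb (vdata R K) xM (inc K xM.1), φ y ∈ (vdata R K).O) ↔ y.1 ∈ gaussL R K :=
  levelM_emb_mem_iff H hFM hMF y

theorem emb_mem_nonunits_iff_gauss {xM : ↥M} (H : VHyp R N ℓ xM.1) (hFM : FK K N ≤ M)
    (hMF : M ≤ FK K N) (y : ↥M) :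
    (∀ φ ∈ Emb (vdata R K) xM (inc K xM.1), φ y ∈ (vdata R K).O.nonunits) ↔
      y.1 ∈ (gaussL R K).nonunits := by
  constructor
  · intro h
    have h1 := h (incM M) (incM_mem R xM)
    rw [incM_apply] at h1
    exact (mem_nonunits_gaussL_iff _).2 h1
  · intro h φ hφ
    by_cases hy0 : y.1 = 0
    · have : y = 0 := Subtype.ext hy0
      rw [this, map_zero, ValuationSubring.mem_nonunits_iff, map_zero]
      exact zero_lt_one
    obtain ⟨ϖ, hϖ⟩ := IsDiscreteValuationRing.exists_irreducible R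
    obtain ⟨k, α, β, hα, hβ, hα', hβ', e⟩ := nf_FK H.hℓR H.hℓN hϖ (hMF y.2) hy0
    have hk := (nf_mem_nonunits_iff hϖ hα hβ e).mp h
    obtain ⟨n, rfl⟩ := Int.eq_ofNat_of_zero_le hk.le
    have hn : n ≠ 0 := by
      rintro rfl
      exact lt_irrefl _ hk
    have e' : y.1 * cR R K β = cR R K (HahnSeries.C (ϖ ^ n) * α) := by
      rw [e, map_mul, cR_C, map_pow]
      rfl
    have hα'' : cR R K (HahnSeries.C (ϖ ^ n) * α) ∈ FK K N := by
      rw [← e']
      exact mul_mem (hMF y.2) hβ'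
    rw [levelM_eq_div hFM y hβ hα'' hβ' e', map_div₀]
    refine GaussHom.div_mem_nonunits (H.gaussHom hFM hφ) H.hℓR H.hℓN _ β hα'' hβ' ?_ hβ
    intro i hi
    rw [HahnSeries.C_mul_eq_smul, HahnSeries.coeff_smul, smul_eq_mul] at hi
    have h1 : IsUnit (ϖ ^ n) := isUnit_of_mul_isUnit_left hi
    exact hϖ.not_isUnit ((isUnit_pow_iff hn).1 h1)

end Fermat.Agent.S34.V2
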