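import Fermat.Agent.S34.V2.TwoBasic
import Fermat.Agent.S34.V2.OpsGal
import Fermat.Agent.S34.V2.Frob

set_option autoImplicit false
set_option linter.unusedSectionVars false

/-!
# S34/V2 : Galois action on the two-level context   (task V2-TwoGal)

`σ : K →+* K` restricting to an automorphism `σR` of `R`; `σF : F ≃+* F` acts coefficientwise on `q`-expansions and commutes with `w`.

* `gal_mem_*`: `coeffMap_mem_iff`, `coeffMap_mem_nonunits_iff` through `T.jF` (`T.inQF`); for `V0` use `hσw`.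
* `gal_rE`: `T.jF` is injective; `coeffMap σ (cst r) = cst (σR r)` (`cst_eq_cR`, `coeffMap_cR`, `coeffMap_single`).
* `inertiaLike`: `map_R := ⟨σR r, gal_rE⟩`, `map_R_symm := ⟨σR.symm r, _⟩`; `triv_i`: `coeffMap_sub_mem_nonunits`; `triv_0`: apply `triv_i` to `T.w z`.
* `frob_i`: `T.jF (T.i2 (σE y)) = qExpand q (coeffMap σ (T.jE y))` (`T.w_E`, `hσE`), then `frob_congr`.  `frob_0`: apply `T.w` (`T.w_w`).
-/

noncomputable section

namespace Fermat.Agent.S34.V2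

open ModularCurve Polynomial IntermediateField Fermat.Agent.S18 Fermat.Agent.S18.V

namespace Two

variable {R K : Type} [CommRing R] [IsDomain R] [IsDiscreteValuationRing R] [Field K] [CharZero K]
  [Algebra R K] [IsFractionRing R K] {q : ℕ} [NeZero q] {E F : Type} [Field E] [Field F]
  [Algebra K E] [Algebra K F] [Algebra E F] [IsScalarTower K E F] (T : Two R K q E F)
  (σ : K →+* K) (σR : R ≃+* R) (hσ : ∀ r, σ (algebraMap R K r) = algebraMap R K (σR r))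

section F

variable (σF : F ≃+* F) (hσF : ∀ z, T.jF (σF z) = coeffMap σ (T.jF z))

include hσ hσF

theorem gal_rE (r : R) : σF (rE R K F r) = rE R K F (σR r) := by
  apply T.jF.toRingHom.injective
  show T.jF (σF (rE R K F r)) = T.jF (rE R K F (σR r))
  rw [hσF, T.jF_rE, T.jF_rE, cst_eq_cR, cst_eq_cR, coeffMap_cR σ σR hσ, coeffMap_single]
  rfl

theorem gal_mem_Vi {z : F} : σF z ∈ T.Vi ↔ z ∈ T.Vi := by
  rw [T.mem_Vi, T.mem_Vi, hσF, coeffMap_mem_iff σ σR hσ (T.inQF z)]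

theorem gal_mem_Vi_nonunits {z : F} : σF z ∈ T.Vi.nonunits ↔ z ∈ T.Vi.nonunits := by
  rw [T.mem_Vi_nonunits, T.mem_Vi_nonunits, hσF, coeffMap_mem_nonunits_iff σ σR hσ (T.inQF z)]

variable (hσw : ∀ z, σF (T.w z) = T.w (σF z))

include hσw

theorem gal_mem_V0 {z : F} : σF z ∈ T.V0 ↔ z ∈ T.V0 := by
  rw [T.mem_V0', T.mem_V0', ← hσw, T.gal_mem_Vi σ σR hσ σF hσF]

theorem gal_mem_V0_nonunits {z : F} : σF z ∈ T.V0.nonunits ↔ z ∈ T.V0.nonunits := by
  rw [T.mem_V0_nonunits, T.mem_V0_nonunits, ← hσw, T.gal_mem_Vi_nonunits σ σR hσ σF hσF]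

/-- inertia. -/
theorem inertiaLike (hI : ∀ r, ¬ IsUnit (σR r - r)) (hx : σF T.xF = T.xF) :
    InertiaLike (R := R) (K := K) T.xF T.Vi T.V0 σF := by
  have htriv : ∀ z ∈ T.Vi, σF z - z ∈ T.Vi.nonunits := by
    intro z hz
    rw [T.mem_Vi_nonunits, map_sub, hσF]
    exact coeffMap_sub_mem_nonunits σ σR hσ hI (T.inQF z) hz
  refine ⟨hx, fun r => ⟨σR r, T.gal_rE σ σR hσ σF hσF r⟩, fun r => ⟨σR.symm r, ?_⟩, htriv, ?_⟩
  · rw [RingEquiv.symm_apply_eq, T.gal_rE σ σR hσ σF hσF, RingEquiv.apply_symm_apply]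
  · intro z hz
    rw [T.mem_V0_nonunits, map_sub, ← hσw]
    exact htriv (T.w z) hz

end F

section E

variable (σE : E →+* E) (hσE : ∀ y, T.jE (σE y) = coeffMap σ (T.jE y))

include hσ hσE

theorem galE_mem_VE {y : E} : σE y ∈ T.VE ↔ y ∈ T.VE := by
  rw [T.mem_VE, T.mem_VE, hσE, coeffMap_mem_iff σ σR hσ (T.inQF_E y)]

/-- twisted Frobenius congruence on the branch `∞`: `V_q (s y) ≡ y^q`. -/
theorem frob_i (hF : ∀ r, ¬ IsUnit (σR r - r ^ q)) {y : E} (hy : y ∈ T.VE) :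
    T.i2 (σE y) - algebraMap E F y ^ q ∈ T.Vi.nonunits := by
  rw [T.mem_Vi_nonunits, map_sub, map_pow, T.i2_apply, T.w_E, T.compat, hσE]
  exact frob_congr q T.hq T.hqR σ σR hσ hF (T.inQF_E y) hy

/-- twisted Frobenius congruence on the branch `0`: `s y ≡ (V_q y)^q`. -/
theorem frob_0 (hF : ∀ r, ¬ IsUnit (σR r - r ^ q)) {y : E} (hy : y ∈ T.VE) :
    algebraMap E F (σE y) - T.i2 y ^ q ∈ T.V0.nonunits := by
  rw [T.mem_V0_nonunits, map_sub, map_pow, T.i2_apply, T.w_w, ← T.i2_apply]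
  exact T.frob_i σ σR hσ σE hσE hF hy

end E

end Two

end Fermat.Agent.S34.V2
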