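import Fermat.Agent.S34.V2.TwoBranches
import Fermat.Agent.S34.V2.TwoGal
import Fermat.Agent.S34.V2.LevelM
import Fermat.Agent.S34.Mod.BCDeg

set_option autoImplicit false
set_option linter.unusedSectionVars false

/-!
# S34/V2 : the two-level context for VARIABLE intermediate fields `E₁ ≤ F₁ ≤ K((q))`   (task V2-Inst)

KERNEL WARNING (see `S18/V/Hyp.lean`): everything here is stated for variable `E₁ F₁`; instantiate only at the very end.
-/

noncomputable section

namespace Fermat.Agent.S34.V2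

open ModularCurve Polynomial IntermediateField Fermat.Agent.S18 Fermat.Agent.S18.V

variable {R K : Type} [CommRing R] [IsDomain R] [IsDiscreteValuationRing R] [Field K] [CharZero K]
  [Algebra R K] [IsFractionRing R K] {q : ℕ} [NeZero q]
  {E₁ F₁ : IntermediateField K (LaurentSeries K)}

/-- `F₁` as an algebra over `E₁`. -/
abbrev algIncl (h : E₁ ≤ F₁) : Algebra ↥E₁ ↥F₁ := (IntermediateField.inclusion h).toRingHom.toAlgebra

theorem algIncl_tower (h : E₁ ≤ F₁) :
    letI := algIncl h
    IsScalarTower K ↥E₁ ↥F₁ := by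
  letI := algIncl h
  exact IsScalarTower.of_algebraMap_eq fun c => ((IntermediateField.inclusion h).commutes c).symm

theorem algIncl_coe (h : E₁ ≤ F₁) (y : ↥E₁) :
    letI := algIncl h
    ((algebraMap ↥E₁ ↥F₁ y : ↥F₁) : LaurentSeries K) = y.1 :=
  IntermediateField.coe_inclusion h y

/-- abstract form: if any `n + 1` elements of `B` are linearly dependent over `A` then `[B : A] ≤ n`.
(`rank_le` : every finite linearly independent set has `≤ n` elements ⇒ `Module.rank ≤ n`; then `Module.rank_lt_aleph0_iff` / `Module.finite_of_rank..`, `Module.finrank_le_of_rank_le`;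
a linearly independent `Finset` with `≥ n + 1` elements contains an injective family `Fin (n+1) → B` which is linearly independent: `Fintype.linearIndependent_iff`.) -/
theorem finrank_le_of_dep {A B : Type*} [Field A] [Field B] [Algebra A B] (n : ℕ)
    (h : ∀ v : Fin (n + 1) → B, ∃ c : Fin (n + 1) → A, c ≠ 0 ∧ ∑ a, c a • v a = 0) :
    FiniteDimensional A B ∧ Module.finrank A B ≤ n := by
  have hrank : Module.rank A B ≤ n := by
    apply rank_le
    intro s hs
    by_contra hcard
    have hcard' : Fintype.card (Fin (n + 1)) ≤ Fintype.card s := by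
      rw [Fintype.card_fin, Fintype.card_coe]; omega
    obtain ⟨e⟩ := Function.Embedding.nonempty_of_card_le hcard'
    have hli : LinearIndependent A (fun a : Fin (n + 1) => ((e a : s) : B)) :=
      hs.comp e e.injective
    obtain ⟨c, hc0, hc⟩ := h (fun a => ((e a : s) : B))
    exact hc0 (funext fun a => Fintype.linearIndependent_iff.1 hli c hc a)
  have hfin : FiniteDimensional A B :=
    Module.rank_lt_aleph0_iff.1 (hrank.trans_lt (Cardinal.natCast_lt_aleph0))
  exact ⟨hfin, Module.finrank_le_of_rank_le hrank⟩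

theorem DegLE.dep {n : ℕ} (h : E₁ ≤ F₁) (hs : Mod.DegLE (E₁ : Set (LaurentSeries K)) F₁ n) :
    letI := algIncl h
    ∀ v : Fin (n + 1) → ↥F₁, ∃ c : Fin (n + 1) → ↥E₁, c ≠ 0 ∧ ∑ a, c a • v a = 0 := by
  letI := algIncl h
  intro v
  obtain ⟨c, hcE, hc0, hc⟩ := hs (fun a => (v a).1) (fun a => (v a).2)
  refine ⟨fun a => ⟨c a, hcE a⟩, ?_, ?_⟩
  · intro h0
    apply hc0
    funext a
    exact congrArg Subtype.val (congrFun h0 a)
  · apply Subtype.ext
    rw [AddSubmonoidClass.coe_finsetSum]
    rw [ZeroMemClass.coe_zero, ← hc]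
    refine Finset.sum_congr rfl fun a _ => ?_
    rw [Algebra.smul_def, MulMemClass.coe_mul, algIncl_coe]

theorem DegLE.finite {n : ℕ} (h : E₁ ≤ F₁) (hs : Mod.DegLE (E₁ : Set (LaurentSeries K)) F₁ n) :
    letI := algIncl h
    FiniteDimensional ↥E₁ ↥F₁ := by
  letI := algIncl h
  exact (finrank_le_of_dep n (DegLE.dep h hs)).1

theorem DegLE.finrank_le {n : ℕ} (h : E₁ ≤ F₁) (hs : Mod.DegLE (E₁ : Set (LaurentSeries K)) F₁ n) :
    letI := algIncl h
    Module.finrank ↥E₁ ↥F₁ ≤ n := by
  letI := algIncl h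
  exact (finrank_le_of_dep n (DegLE.dep h hs)).2

/-- the two-level context attached to `E₁ ≤ F₁`. -/
def instTwo (h : E₁ ≤ F₁) (hQF : ∀ z ∈ F₁, InQF R z) (w : ↥F₁ ≃ₐ[K] ↥F₁) (w_w : ∀ z, w (w z) = z)
    (w_low : ∀ y : ↥E₁, (w (IntermediateField.inclusion h y)).1 = qExpand K q y.1)
    (hs : Mod.DegLE (E₁ : Set (LaurentSeries K)) F₁ (q + 1)) (x₀ : LaurentSeries R) (hx : cR R K x₀ ∈ E₁)
    (hord : x₀.order = -1) (hlead : IsUnit (x₀.coeff (-1))) (hq : q.Prime) (hqR : ¬ IsUnit (q : R))
    (hfrob : qExpand K q (cR R K x₀) - cR R K x₀ ^ q ∈ (gaussL R K).nonunits) :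
    letI := algIncl h
    Two R K q ↥E₁ ↥F₁ :=
  letI := algIncl h
  { jE := E₁.val
    jF := F₁.val
    compat := fun y => IntermediateField.coe_inclusion h y
    inQF := fun z => hQF z.1 z.2
    w := w
    w_w := w_w
    w_E := w_low
    fin := DegLE.finite h hs
    deg := DegLE.finrank_le h hs
    x := ⟨cR R K x₀, hx⟩
    x₀ := x₀
    hx := rfl
    hord := hord
    hlead := hlead
    hq := hq
    hqR := hqR
    hfrob := hfrob }

end Fermat.Agent.S34.V2
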