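import Fermat.Agent.S34.V2.Gauss

set_option autoImplicit false
set_option linter.unusedSectionVars false

/-!
# S34/V2 : operations compatible with the Gauss valuation   (task V2-OpsQ)

Everything is proved with the "fraction" API of `Gauss.lean`:
`InQF.exists_frac` (`f ∈ gaussL`, `InQF f` ⇒ `f * cR β = cR α`, `β` primitive), `frac_mem`, `frac_mem_nonunits_iff`, `InQF.nf`,
`nf_mem_iff`, `nf_mem_nonunits_iff`, `Prim.mul`.

## Sketch
* **OpsQ** `qExpand K d (cR α) = cR (qExpand R d α)` (`coeffMap_qExpand`), `qExpand` preserves `Prim` (`qExpand_coeff_mul`) and fixes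
  constants (`qExpand_C`/`qExpand_single`); transport a normal form `f * cR β = ϖ^k * cR α`.
-/

noncomputable section

namespace Fermat.Agent.S34.V2

open ModularCurve Fermat.Agent.S18 Fermat.Agent.S18.V

variable {R K : Type} [CommRing R] [IsDomain R] [IsDiscreteValuationRing R] [Field K]
  [Algebra R K] [IsFractionRing R K]

section OpsQ

variable (d : ℕ) [NeZero d]

theorem qExpand_cR (α : LaurentSeries R) : qExpand K d (cR R K α) = cR R K (qExpand R d α) :=
  (coeffMap_qExpand (algebraMap R K) d α).symm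

theorem Prim.map_qExpand {α : LaurentSeries R} (h : Prim α) : Prim (qExpand R d α) := by
  obtain ⟨n, hn⟩ := h
  exact ⟨d * n, by rwa [qExpand_coeff_mul]⟩

theorem qExpand_cst (r : R) : qExpand K d (cst R K r) = cst R K r := by
  rw [cst_eq_cR, qExpand_cR, qExpand_single, mul_zero]

theorem qExpand_ne_zero {α : LaurentSeries R} (h : α ≠ 0) : qExpand R d α ≠ 0 := by
  intro h0
  apply h
  apply qExpand_injective (R := R) (N := d)
  rw [h0, map_zero]

theorem qExpand_nf {ϖ : R} {f : LaurentSeries K} {k : ℤ} {α β : LaurentSeries R}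
    (h : f * cR R K β = cst R K ϖ ^ k * cR R K α) :
    qExpand K d f * cR R K (qExpand R d β) = cst R K ϖ ^ k * cR R K (qExpand R d α) := by
  rw [← qExpand_cR, ← qExpand_cR, ← map_mul, h, map_mul, map_zpow₀, qExpand_cst]

theorem InQF.map_qExpand {f : LaurentSeries K} (hf : InQF R f) : InQF R (qExpand K d f) := by
  obtain ⟨α, β, hβ, h⟩ := hf
  exact ⟨qExpand R d α, qExpand R d β, qExpand_ne_zero d hβ, by
    rw [← qExpand_cR, ← qExpand_cR, ← map_mul, h]⟩

theorem qExpand_mem_iff {f : LaurentSeries K} (hf : InQF R f) :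
    qExpand K d f ∈ gaussL R K ↔ f ∈ gaussL R K := by
  rcases eq_or_ne f 0 with rfl | hf0
  · rw [map_zero]
  obtain ⟨ϖ, hϖ⟩ := IsDiscreteValuationRing.exists_irreducible R
  obtain ⟨k, α, β, hα, hβ, h⟩ := hf.nf hϖ hf0
  rw [nf_mem_iff hϖ hα hβ h,
    nf_mem_iff hϖ (hα.map_qExpand d) (hβ.map_qExpand d) (qExpand_nf d h)]

theorem qExpand_mem_nonunits_iff {f : LaurentSeries K} (hf : InQF R f) :
    qExpand K d f ∈ (gaussL R K).nonunits ↔ f ∈ (gaussL R K).nonunits := by
  rcases eq_or_ne f 0 with rfl | hf0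
  · rw [map_zero]
  obtain ⟨ϖ, hϖ⟩ := IsDiscreteValuationRing.exists_irreducible R
  obtain ⟨k, α, β, hα, hβ, h⟩ := hf.nf hϖ hf0
  rw [nf_mem_nonunits_iff hϖ hα hβ h,
    nf_mem_nonunits_iff hϖ (hα.map_qExpand d) (hβ.map_qExpand d) (qExpand_nf d h)]

end OpsQ

end Fermat.Agent.S34.V2
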