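import Fermat.Agent.S34.V2.Gauss

set_option autoImplicit false
set_option linter.unusedSectionVars false

/-!
# S34/V2 : `Frac R((q))` is a subfield of `K((q))` containing `K` and the modular function fields   (task V2-QF)

`InQF R f` : `∃ α β, β ≠ 0 ∧ f * cR β = cR α`.  `cR` is an injective ring hom (`S18.V.Gauss.cR_injective`).
* `of_algebraMap`: `a = r / s` (`IsFractionRing.div_surjective`), `α = single 0 r`, `β = single 0 s`
  (`algebraMap_laurentSeries_eq_single`, `coeffMap_single`).
* `of_adjoin`: `IntermediateField.adjoin_induction` (compare `S18.V.BR_frac`).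
* `of_mem_FK`: `FK K N = adjoin K (divisorExpansionsC K N)`, the generators are `qExpand K d (jqModC K)` and
  `jqModC K = coeffMap (algebraMap R K) (jqModC R)` (`coeffMap_jqModC`, `coeffMap_qExpand`).
-/

noncomputable section

namespace Fermat.Agent.S34.V2

open ModularCurve Fermat.Agent.S18 Fermat.Agent.S18.V

variable {R K : Type} [CommRing R] [IsDomain R] [IsDiscreteValuationRing R] [Field K]
  [Algebra R K] [IsFractionRing R K]

theorem InQF.of_cR (α : LaurentSeries R) : InQF R (cR R K α) :=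
  ⟨α, 1, one_ne_zero, by rw [map_one, mul_one]⟩

theorem cR_ne_zero_of_ne {β : LaurentSeries R} (hβ : β ≠ 0) : cR R K β ≠ 0 := by
  intro h0
  apply hβ
  apply Gauss.cR_injective R K
  rw [h0, map_zero]

theorem InQF.of_algebraMap (a : K) : InQF R (algebraMap K (LaurentSeries K) a) := by
  obtain ⟨r, s, hs, rfl⟩ := IsFractionRing.div_surjective (A := R) a
  have hs0 : s ≠ 0 := nonZeroDivisors.ne_zero hs
  have hs1 : algebraMap R K s ≠ 0 := (map_ne_zero_iff _ (IsFractionRing.injective R K)).mpr hs0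
  refine ⟨HahnSeries.single 0 r, HahnSeries.single 0 s, ?_, ?_⟩
  · rw [Ne, HahnSeries.single_eq_zero_iff]; exact hs0
  · rw [coeffMap_single, coeffMap_single, ← algebraMap_laurentSeries_eq_single,
      ← algebraMap_laurentSeries_eq_single, ← map_mul]
    congr 1
    field_simp

theorem InQF.add {f g : LaurentSeries K} (hf : InQF R f) (hg : InQF R g) : InQF R (f + g) := by
  obtain ⟨α, β, hβ, h⟩ := hf
  obtain ⟨α', β', hβ', h'⟩ := hg
  refine ⟨α * β' + α' * β, β * β', mul_ne_zero hβ hβ', ?_⟩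
  rw [map_add, map_mul, map_mul, map_mul, ← h, ← h']
  ring

theorem InQF.neg {f : LaurentSeries K} (hf : InQF R f) : InQF R (-f) := by
  obtain ⟨α, β, hβ, h⟩ := hf
  exact ⟨-α, β, hβ, by rw [map_neg, ← h]; ring⟩

theorem InQF.sub {f g : LaurentSeries K} (hf : InQF R f) (hg : InQF R g) : InQF R (f - g) := by
  rw [sub_eq_add_neg]
  exact hf.add hg.neg

theorem InQF.mul {f g : LaurentSeries K} (hf : InQF R f) (hg : InQF R g) : InQF R (f * g) := by
  obtain ⟨α, β, hβ, h⟩ := hf
  obtain ⟨α', β', hβ', h'⟩ := hg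
  refine ⟨α * α', β * β', mul_ne_zero hβ hβ', ?_⟩
  rw [map_mul, map_mul, ← h, ← h']
  ring

theorem InQF.inv {f : LaurentSeries K} (hf : InQF R f) : InQF R f⁻¹ := by
  by_cases hf0 : f = 0
  · rw [hf0, inv_zero]
    exact ⟨0, 1, one_ne_zero, by simp⟩
  obtain ⟨α, β, hβ, h⟩ := hf
  have hα : α ≠ 0 := by
    rintro rfl
    rw [map_zero] at h
    exact (mul_ne_zero hf0 (cR_ne_zero_of_ne hβ)) h
  refine ⟨β, α, hα, ?_⟩
  rw [← h]
  field_simp

theorem InQF.pow {f : LaurentSeries K} (hf : InQF R f) (n : ℕ) : InQF R (f ^ n) := by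
  obtain ⟨α, β, hβ, h⟩ := hf
  exact ⟨α ^ n, β ^ n, pow_ne_zero n hβ, by rw [map_pow, map_pow, ← h, mul_pow]⟩

theorem InQF.of_adjoin {S : Set (LaurentSeries K)} (hS : ∀ f ∈ S, InQF R f) {f : LaurentSeries K}
    (hf : f ∈ IntermediateField.adjoin K S) : InQF R f := by
  induction hf using IntermediateField.adjoin_induction with
  | mem x hx => exact hS x hx
  | algebraMap a => exact InQF.of_algebraMap a
  | add x y _ _ hx hy => exact hx.add hy
  | inv x _ hx => exact hx.inv
  | mul x y _ _ hx hy => exact hx.mul hy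

/-- the function field of `X₀(N)` over `K` lies in `Frac R((q))`. -/
theorem InQF.of_mem_FK {N : ℕ} {f : LaurentSeries K} (hf : f ∈ FK K N) : InQF R f := by
  refine InQF.of_adjoin ?_ hf
  rintro g ⟨d, hd, -, rfl⟩
  rw [← coeffMap_jqModC (algebraMap R K), ← coeffMap_qExpand]
  exact InQF.of_cR _

end Fermat.Agent.S34.V2
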