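import Fermat.Agent.S18.CCPrime
import Fermat.Agent.S18.AT.Normal

set_option autoImplicit false
set_option linter.unusedSectionVars false

/-!
# S34/V2 : level prime to `ℓ`: the trivial context, `IsTameP1`, normality of the special fibre in algebraic form
(task V2-Tame)
-/

noncomputable section

namespace Fermat.Agent.S34.V2

open ModularCurve Polynomial IntermediateField AlgebraicCurve Fermat.Agent.S18 Fermat.Agent.S18.V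
open Fermat.Agent.S24 (Kb FN)

/-! ### abstract: `IsTameP1` gives normality of the special fibre, in algebraic form -/

section Abs

variable {R K E : Type} [CommRing R] [IsDomain R] [IsDiscreteValuationRing R] [Field K] [CharZero K]
  [Algebra R K] [IsFractionRing R K] [Field E] [Algebra K E]
  {𝒱 : VData R K} {x : E} {ιx : 𝒱.Ω} {𝕜 : Type} [Field 𝕜] [IsAlgClosed 𝕜] [CharZero 𝕜]
  {jK : K →+* 𝕜} {c : R} {e0 ec einf : ℕ}

/-- `InO` + integral mod `ϖ` ⇒ `IntLike`.  (`inO_iff_mem_OInt`; `P(ε) = ϖ η`, `φ (rE ϖ) = 𝒱.ιK ϖ ∈ 𝔪` by `𝒱.map_nonunit`, `φ η ∈ O`.) -/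
theorem intLike_of_inO (hch : IsChart 𝒱 x ιx) {ϖ : R} (hϖ : Irreducible ϖ) {ε : E}
    (hε : InO K ϖ x ε) (P : R[X][X]) (hP : P.Monic)
    (hc : CongA K ϖ x (P.eval₂ (evR R K x) ε) 0) : IntLike 𝒱 x ιx ε := by
  refine ⟨(inO_iff_mem_OInt 𝒱 hϖ hch ε).1 hε, P, hP, ?_⟩
  obtain ⟨η, hη, he⟩ := hc
  rw [sub_zero] at he
  intro φ hφ
  have hη' : φ η ∈ 𝒱.O := (inO_iff_mem_OInt 𝒱 hϖ hch η).1 hη φ hφ
  have hϖ' : φ (rE R K E ϖ) ∈ 𝒱.O.nonunits := by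
    have h1 : φ (rE R K E ϖ) = 𝒱.ιK (algebraMap R K ϖ) :=
      congrArg (fun f : K →+* 𝒱.Ω => f (algebraMap R K ϖ)) hφ.1
    rw [h1]
    exact 𝒱.map_nonunit ϖ hϖ.not_isUnit
  rw [he, map_mul]
  obtain ⟨h2, h3⟩ := (ValuationSubring.mem_nonunits_iff_exists_mem_maximalIdeal).1 hϖ'
  refine (ValuationSubring.mem_nonunits_iff_exists_mem_maximalIdeal).2
    ⟨𝒱.O.mul_mem _ _ h2 hη', ?_⟩
  exact Ideal.mul_mem_right (⟨φ η, hη'⟩ : 𝒱.O) _ h3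

theorem redNormal_fin (H : IsTameP1 𝒱 x ιx 𝕜 jK c e0 ec einf) {ϖ : R} (hϖ : Irreducible ϖ) {ε : E}
    (hε : InO K ϖ x ε) (P : R[X][X]) (hP : P.Monic)
    (hc : CongA K ϖ x (P.eval₂ (evR R K x) ε) 0) : ∃ y ∈ CInt R K x, CongA K ϖ x y ε :=
  normal_fin H hϖ (intLike_of_inO H.chart hϖ hε P hP hc)

/-- (`isChart_inv`, `InO_inv_iff`, `CongA_inv_iff`, `intLike_of_inO` for the chart `x⁻¹`, `normal_inf`.) -/
theorem redNormal_inf (H : IsTameP1 𝒱 x ιx 𝕜 jK c e0 ec einf) {ϖ : R} (hϖ : Irreducible ϖ) {ε : E}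
    (hε : InO K ϖ x ε) (P : R[X][X]) (hP : P.Monic)
    (hc : CongA K ϖ x (P.eval₂ (evR R K x⁻¹) ε) 0) : ∃ y ∈ CInt R K x⁻¹, CongA K ϖ x y ε := by
  have hx0 := H.x_ne_zero
  exact normal_inf H hϖ (intLike_of_inO (isChart_inv 𝒱 H.chart) hϖ ((InO_inv_iff hϖ hx0).2 hε) P hP
    ((CongA_inv_iff hϖ hx0).2 hc))

end Abs

/-! ### the trivial context -/

instance instDVRCtx {N : ℕ} [NeZero N] {ℓ p : ℕ} {A : ValuationSubring Kb} (𝒞 : Ctx N ℓ p A) :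
    IsDiscreteValuationRing 𝒞.R := 𝒞.isDVR

theorem tame_intA_one {K : Type} [Field K] (ι : K →+* Kb) (A : ValuationSubring Kb) {N : ℕ} :
    IntA A (coeffMap ι (1 : modularFunctionFieldFullC K N).1) := by
  intro n
  have h1 : ((1 : modularFunctionFieldFullC K N).1 : LaurentSeries K) = 1 := rfl
  rw [h1, map_one, HahnSeries.coeff_one]
  split_ifs
  · exact A.one_mem
  · exact A.zero_mem

theorem tame_not_smallA_one {K : Type} [Field K] (ι : K →+* Kb) (A : ValuationSubring Kb) {N : ℕ} :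
    ¬ SmallA A (coeffMap ι (1 : modularFunctionFieldFullC K N).1) := by
  intro h
  have h0 := h 0
  have h1 : ((1 : modularFunctionFieldFullC K N).1 : LaurentSeries K) = 1 := rfl
  rw [h1, map_one, HahnSeries.coeff_one, if_pos rfl] at h0
  exact ((ValuationSubring.mem_nonunits_iff A).1 h0).ne (map_one _)

/-- the context with `a = b = u = 1`. -/
def trivCtx (N : ℕ) [NeZero N] (ℓ p : ℕ) (A : ValuationSubring Kb) (hℓ : ℓ.Prime) (hℓN : ¬ ℓ ∣ N)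
    (hA : A.LiesOverPrime ℓ) (hp : p.Prime) (hpℓ : p ≠ ℓ) (K : Type) [Field K] [NumberField K]
    [IsGalois ℚ K] (ι : K →+* Kb) (ζ : K) (hζ : IsPrimitiveRoot ζ p) (ζN : K)
    (hζN : IsPrimitiveRoot ζN N) : Ctx N ℓ p A where
  hℓ := hℓ
  hℓN := hℓN
  hA := hA
  hp := hp
  hpℓ := hpℓ
  K := K
  ι := ι
  ζ := ζ
  hζ := hζ
  ζN := ζN
  hζN := hζN
  a := 1
  b := 1
  ha := tame_intA_one ι A
  hb := tame_intA_one ι A
  hb' := tame_not_smallA_one ι A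
  hab := by
    intro n
    rw [sub_self, HahnSeries.coeff_zero]
    rw [ValuationSubring.mem_nonunits_iff, map_zero]
    exact zero_lt_one
  hord := by
    intro v
    rw [div_one, map_one, v.ord_one]
    exact dvd_zero _
  u := 1
  hu := by
    rw [one_pow, div_one]
    rfl

variable {N : ℕ} [NeZero N] {ℓ p : ℕ} {A : ValuationSubring Kb} (𝒞 : Ctx N ℓ p A)

theorem Ctx.E_le_EE0 (hu : 𝒞.u ∈ 𝒞.E0) : 𝒞.E ≤ EE0 𝒞.K N (xK 𝒞.K 𝒞.Λ) := by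
  refine IntermediateField.adjoin_le_iff.2 ?_
  rintro y (hy | hy | hy)
  · exact IntermediateField.subset_adjoin _ _ (Or.inl hy)
  · exact IntermediateField.subset_adjoin _ _ (Or.inr hy)
  · rw [Set.mem_singleton_iff] at hy
    rw [hy]
    exact hu

theorem Ctx.isChart (hu : 𝒞.u ∈ 𝒞.E0) :
    IsChart (vdata 𝒞.R 𝒞.K) 𝒞.x (inc 𝒞.K (xK 𝒞.K 𝒞.Λ)) := by
  haveI : Fact ℓ.Prime := ⟨𝒞.hℓ⟩
  have hFM : FK 𝒞.K N ≤ 𝒞.E :=
    IntermediateField.adjoin.mono 𝒞.K _ _ Set.subset_union_left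
  have H' : VHyp 𝒞.R N ℓ (𝒞.x : LaurentSeries 𝒞.K) := 𝒞.vhyp
  exact ⟨𝒞.x_transcendental, 𝒞.finiteDimensional, 𝒞.vhyp.isGauss_x,
    H'.distinctRed hFM (Ctx.E_le_EE0 𝒞 hu)⟩

theorem Ctx.isTameP1 (hu : 𝒞.u ∈ 𝒞.E0) :
    IsTameP1 (vdata 𝒞.R 𝒞.K) 𝒞.x (inc 𝒞.K (xK 𝒞.K 𝒞.Λ)) ℂ 𝒞.jK 𝒞.cR N 𝒞.Λ.ec N where
  chart := Ctx.isChart 𝒞 hu
  hc := 𝒞.isUnit_c
  he0 := 𝒞.isUnit_N
  hec := 𝒞.isUnit_ec
  heinf := 𝒞.isUnit_N
  hirr0 := 𝒞.irr0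
  hirrc := 𝒞.irrc
  hirrinf := 𝒞.irrinf
  Hgen := 𝒞.Hgen
  H0 := 𝒞.H0
  Hc := 𝒞.Hc
  Hinf := 𝒞.Hinf

end Fermat.Agent.S34.V2
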