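import Fermat.Agent.S34.V2.Two
import Fermat.Agent.S34.V2.QF
import Fermat.Agent.S34.V2.OpsQ
import Fermat.Agent.S34.V2.Indep
import Fermat.Agent.S34.Tower
import Fermat.Agent.S18.B.Trans
import Fermat.Agent.S18.B.DVR

set_option autoImplicit false
set_option linter.unusedSectionVars false

/-!
# S34/V2 : basic API of the two-level context   (task V2-TwoBasic)

All statements are translations of `Gauss.lean` / `OpsQ.lean` through `T.jE`, `T.jF`, `T.w`.
* nonunits of a `comap`: `S18.DVR.mem_nonunits_comap`.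
* `map_mem_V0`: `T.w_E` + `qExpand_mem_iff` (`T.inQF_E`).
* `jF_rE`: `T.jF` is a `K`-algebra hom (`AlgHom.commutes`), `rE = algebraMap K F ∘ algebraMap R K`, `cst` likewise.
* `unif_*`: `InQF.exists_unit`; `div_unif_*`: `InQF.div_unif`; for `V0` apply the `Vi` statement to `T.w z` (`w_rE`).
* `isDVR_VE`: e.g. `IsDiscreteValuationRing.ofHasUnitMulPowIrreducibleFactorization`, or: a valuation ring (`ValuationSubring` instance) whose maximal ideal
  is principal (`div_unif_E`), not a field, and noetherian / `⋂ ϖ^n = 0` (`unif_E`);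
  `(IsDiscreteValuationRing.TFAE _ _)`, `ValuationRing.isPrincipalIdealRing_iff..` may help.  `ϖ` := any irreducible of `R`
  (`IsDiscreteValuationRing.exists_irreducible R`).
* `Vi_ne_V0`: `z := T.xq - T.xF ^ q` lies in `𝔪_{Vi}` by `T.hfrob` (`T.w_E`, `T.compat`), while `T.w z = T.xF - T.xq ^ q` is not in `𝔪_{Vi}` by
  `sub_pow_notMem_nonunits` (`T.hq.two_le`), i.e. `z ∉ 𝔪_{V0}`.
* `const`: `S18.trans_const` applied to `T.jF y`; `trans_x`: an algebraic element would be a constant, of order `0` or zero, but `T.jE x = cR x₀` has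
  a nonzero coefficient at `-1`.
-/

noncomputable section

namespace Fermat.Agent.S34.V2

open ModularCurve Polynomial IntermediateField Fermat.Agent.S18 Fermat.Agent.S18.V

/-- a valuation subring with a uniformiser is a DVR. -/
theorem isDVR_of_unif {E : Type*} [Field E] (V : ValuationSubring E) (π : E)
    (hπ : π ∈ V.nonunits) (hπ0 : π ≠ 0)
    (hunif : ∀ y : E, y ≠ 0 → ∃ k : ℤ, π ^ k * y ∈ V ∧ (π ^ k * y)⁻¹ ∈ V) :
    IsDiscreteValuationRing V := by
  have hlt : V.valuation π < 1 := (ValuationSubring.mem_nonunits_iff V).mp hπ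
  have hpos : 0 < V.valuation π := by rw [zero_lt_iff, Ne, map_eq_zero]; exact hπ0
  have hval : ∀ y : E, y ≠ 0 → ∃ k : ℤ, V.valuation y = V.valuation π ^ k := by
    intro y hy
    obtain ⟨k, h1, h2⟩ := hunif y hy
    rw [← ValuationSubring.valuation_le_one_iff] at h1 h2
    rw [map_inv₀] at h2
    have hne : V.valuation (π ^ k * y) ≠ 0 := by
      rw [Ne, map_eq_zero]; exact mul_ne_zero (zpow_ne_zero _ hπ0) hy
    have h3 : V.valuation (π ^ k * y) = 1 := by
      apply le_antisymm h1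
      rwa [inv_le_one₀ (zero_lt_iff.mpr hne)] at h2
    refine ⟨-k, ?_⟩
    rw [map_mul, map_zpow₀] at h3
    rw [zpow_neg]
    exact eq_inv_of_mul_eq_one_right h3
  have hπV : π ∈ V := ValuationSubring.nonunits_subset hπ
  have hirr : Irreducible (⟨π, hπV⟩ : V) := by
    constructor
    · rw [ValuationSubring.valuation_eq_one_iff]
      exact hlt.ne
    · intro a b hab
      have hab' : π = (a : E) * b := congrArg Subtype.val hab
      have ha0 : (a : E) ≠ 0 := by rintro h; rw [h, zero_mul] at hab'; exact hπ0 hab'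
      have hb0 : (b : E) ≠ 0 := by rintro h; rw [h, mul_zero] at hab'; exact hπ0 hab'
      obtain ⟨i, hi⟩ := hval _ ha0
      obtain ⟨j, hj⟩ := hval _ hb0
      have hi0 : 0 ≤ i := by
        rw [← zpow_le_one_iff_right_of_lt_one₀ hpos hlt, ← hi]
        exact (V.valuation_le_one_iff _).mpr a.2
      have hj0 : 0 ≤ j := by
        rw [← zpow_le_one_iff_right_of_lt_one₀ hpos hlt, ← hj]
        exact (V.valuation_le_one_iff _).mpr b.2
      have hij : i + j = 1 := by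
        have h1 := congrArg V.valuation hab'
        rw [map_mul, hi, hj, ← zpow_add₀ hpos.ne'] at h1
        have h2 : V.valuation π ^ (1 : ℤ) = V.valuation π ^ (i + j) := by rw [zpow_one]; exact h1
        exact ((zpow_right_inj₀ hpos hlt.ne).mp h2).symm
      rw [ValuationSubring.valuation_eq_one_iff, ValuationSubring.valuation_eq_one_iff, hi, hj]
      rcases (show i = 0 ∨ j = 0 by omega) with h | h
      · left; rw [h, zpow_zero]
      · right; rw [h, zpow_zero]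
  have hfact : IsDiscreteValuationRing.HasUnitMulPowIrreducibleFactorization V := by
    refine ⟨⟨π, hπV⟩, hirr, fun {x} hx => ?_⟩
    have hx0 : (x : E) ≠ 0 := by simpa using hx
    obtain ⟨k, hk⟩ := hval _ hx0
    have hk0 : 0 ≤ k := by
      rw [← zpow_le_one_iff_right_of_lt_one₀ hpos hlt, ← hk]
      exact (V.valuation_le_one_iff _).mpr x.2
    obtain ⟨n, rfl⟩ := Int.eq_ofNat_of_zero_le hk0
    refine ⟨n, ?_⟩
    have hu : V.valuation ((x : E) * (π ^ n)⁻¹) = 1 := by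
      rw [map_mul, map_inv₀, map_pow, hk, zpow_natCast]
      exact mul_inv_cancel₀ (pow_ne_zero _ hpos.ne')
    set u : V := ⟨(x : E) * (π ^ n)⁻¹, (V.valuation_le_one_iff _).mp hu.le⟩ with hudef
    have huu : IsUnit u := (V.valuation_eq_one_iff u).mpr hu
    refine ⟨huu.unit, ?_⟩
    ext
    simp only [IsUnit.unit_spec, hudef, MulMemClass.coe_mul, SubmonoidClass.coe_pow]
    field_simp
  exact IsDiscreteValuationRing.ofHasUnitMulPowIrreducibleFactorization hfact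

namespace Two

variable {R K : Type} [CommRing R] [IsDomain R] [IsDiscreteValuationRing R] [Field K] [CharZero K]
  [Algebra R K] [IsFractionRing R K] {q : ℕ} [NeZero q] {E F : Type} [Field E] [Field F]
  [Algebra K E] [Algebra K F] [Algebra E F] [IsScalarTower K E F] (T : Two R K q E F)

theorem mem_VE_nonunits {y : E} : y ∈ T.VE.nonunits ↔ T.jE y ∈ (gaussL R K).nonunits := by
  exact DVR.mem_nonunits_comap _ _ _

theorem mem_Vi_nonunits {z : F} : z ∈ T.Vi.nonunits ↔ T.jF z ∈ (gaussL R K).nonunits := by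
  exact DVR.mem_nonunits_comap _ _ _

theorem mem_V0_nonunits {z : F} : z ∈ T.V0.nonunits ↔ T.w z ∈ T.Vi.nonunits := by
  exact DVR.mem_nonunits_comap _ _ _

theorem w_mem_V0 {z : F} : T.w z ∈ T.V0 ↔ z ∈ T.Vi := by
  rw [mem_V0', T.w_w]

theorem w_mem_V0_nonunits {z : F} : T.w z ∈ T.V0.nonunits ↔ z ∈ T.Vi.nonunits := by
  rw [mem_V0_nonunits, T.w_w]

theorem inQF_E (y : E) : InQF R (T.jE y) := by
  rw [← T.compat]
  exact T.inQF _

theorem map_mem_Vi {y : E} : algebraMap E F y ∈ T.Vi ↔ y ∈ T.VE := by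
  rw [mem_Vi, T.compat, mem_VE]

theorem map_mem_Vi_nonunits {y : E} : algebraMap E F y ∈ T.Vi.nonunits ↔ y ∈ T.VE.nonunits := by
  rw [mem_Vi_nonunits, T.compat, mem_VE_nonunits]

theorem map_mem_V0 {y : E} : algebraMap E F y ∈ T.V0 ↔ y ∈ T.VE := by
  rw [mem_V0, T.w_E, qExpand_mem_iff q (T.inQF_E y), mem_VE]

theorem map_mem_V0_nonunits {y : E} : algebraMap E F y ∈ T.V0.nonunits ↔ y ∈ T.VE.nonunits := by
  rw [mem_V0_nonunits, mem_Vi_nonunits, T.w_E, qExpand_mem_nonunits_iff q (T.inQF_E y),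
    mem_VE_nonunits]

theorem i2_mem_Vi {y : E} : T.i2 y ∈ T.Vi ↔ y ∈ T.VE := by
  rw [i2_apply, mem_Vi, T.w_E, qExpand_mem_iff q (T.inQF_E y), mem_VE]

theorem i2_mem_Vi_nonunits {y : E} : T.i2 y ∈ T.Vi.nonunits ↔ y ∈ T.VE.nonunits := by
  rw [i2_apply, mem_Vi_nonunits, T.w_E, qExpand_mem_nonunits_iff q (T.inQF_E y), mem_VE_nonunits]

theorem i2_mem_V0 {y : E} : T.i2 y ∈ T.V0 ↔ y ∈ T.VE := by
  rw [i2_apply, w_mem_V0, map_mem_Vi]

theorem i2_mem_V0_nonunits {y : E} : T.i2 y ∈ T.V0.nonunits ↔ y ∈ T.VE.nonunits := by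
  rw [i2_apply, w_mem_V0_nonunits, map_mem_Vi_nonunits]

theorem jF_rE (r : R) : T.jF (rE R K F r) = cst R K r := by
  exact T.jF.commutes _

theorem jE_rE (r : R) : T.jE (rE R K E r) = cst R K r := by
  exact T.jE.commutes _

theorem w_rE (r : R) : T.w (rE R K F r) = rE R K F r := by
  exact T.w.commutes _

theorem rE_mem_VE (r : R) : rE R K E r ∈ T.VE := by
  rw [mem_VE, jE_rE]; exact cst_mem_gaussL r

theorem rE_mem_Vi (r : R) : rE R K F r ∈ T.Vi := by
  rw [mem_Vi, jF_rE]; exact cst_mem_gaussL r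

theorem rE_mem_V0 (r : R) : rE R K F r ∈ T.V0 := by
  rw [mem_V0', w_rE]; exact T.rE_mem_Vi r

theorem rE_mem_VE_nonunits {r : R} : rE R K E r ∈ T.VE.nonunits ↔ ¬ IsUnit r := by
  rw [mem_VE_nonunits, jE_rE, cst_mem_nonunits_iff]

theorem rE_mem_Vi_nonunits {r : R} : rE R K F r ∈ T.Vi.nonunits ↔ ¬ IsUnit r := by
  rw [mem_Vi_nonunits, jF_rE, cst_mem_nonunits_iff]

theorem rE_mem_V0_nonunits {r : R} : rE R K F r ∈ T.V0.nonunits ↔ ¬ IsUnit r := by
  rw [mem_V0_nonunits, w_rE, rE_mem_Vi_nonunits]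

theorem unif_E {ϖ : R} (hϖ : Irreducible ϖ) {y : E} (hy : y ≠ 0) :
    ∃ k : ℤ, rE R K E ϖ ^ k * y ∈ T.VE ∧ (rE R K E ϖ ^ k * y)⁻¹ ∈ T.VE := by
  have hy' : T.jE y ≠ 0 := by rwa [Ne, map_eq_zero]
  obtain ⟨k, h1, h2⟩ := (T.inQF_E y).exists_unit hϖ hy'
  refine ⟨k, ?_, ?_⟩
  · rw [mem_VE, map_mul, map_zpow₀, jE_rE]; exact h1
  · rw [mem_VE, map_inv₀, map_mul, map_zpow₀, jE_rE]; exact h2

theorem unif_i {ϖ : R} (hϖ : Irreducible ϖ) {z : F} (hz : z ≠ 0) :
    ∃ k : ℤ, rE R K F ϖ ^ k * z ∈ T.Vi ∧ (rE R K F ϖ ^ k * z)⁻¹ ∈ T.Vi := by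
  have hz' : T.jF z ≠ 0 := by rwa [Ne, map_eq_zero]
  obtain ⟨k, h1, h2⟩ := (T.inQF z).exists_unit hϖ hz'
  refine ⟨k, ?_, ?_⟩
  · rw [mem_Vi, map_mul, map_zpow₀, jF_rE]; exact h1
  · rw [mem_Vi, map_inv₀, map_mul, map_zpow₀, jF_rE]; exact h2

theorem unif_0 {ϖ : R} (hϖ : Irreducible ϖ) {z : F} (hz : z ≠ 0) :
    ∃ k : ℤ, rE R K F ϖ ^ k * z ∈ T.V0 ∧ (rE R K F ϖ ^ k * z)⁻¹ ∈ T.V0 := by
  have hz' : T.w z ≠ 0 := by rwa [Ne, map_eq_zero]
  obtain ⟨k, h1, h2⟩ := T.unif_i hϖ hz'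
  refine ⟨k, ?_, ?_⟩
  · rw [mem_V0', map_mul, map_zpow₀, w_rE]; exact h1
  · rw [mem_V0', map_inv₀, map_mul, map_zpow₀, w_rE]; exact h2

theorem div_unif_E {ϖ : R} (hϖ : Irreducible ϖ) {y : E} (hy : y ∈ T.VE.nonunits) :
    y / rE R K E ϖ ∈ T.VE := by
  rw [mem_VE, map_div₀, jE_rE]
  exact (T.inQF_E y).div_unif hϖ (T.mem_VE_nonunits.mp hy)

theorem div_unif_i {ϖ : R} (hϖ : Irreducible ϖ) {z : F} (hz : z ∈ T.Vi.nonunits) :
    z / rE R K F ϖ ∈ T.Vi := by
  rw [mem_Vi, map_div₀, jF_rE]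
  exact (T.inQF z).div_unif hϖ (T.mem_Vi_nonunits.mp hz)

theorem div_unif_0 {ϖ : R} (hϖ : Irreducible ϖ) {z : F} (hz : z ∈ T.V0.nonunits) :
    z / rE R K F ϖ ∈ T.V0 := by
  rw [mem_V0', map_div₀, w_rE]
  exact T.div_unif_i hϖ (T.mem_V0_nonunits.mp hz)

theorem x_mem_VE : T.x ∈ T.VE := by
  rw [mem_VE, ← T.hx]; exact cR_mem_gaussL _

theorem xF_mem_Vi : T.xF ∈ T.Vi := by
  exact T.map_mem_Vi.mpr T.x_mem_VE

theorem xF_mem_V0 : T.xF ∈ T.V0 := by
  exact T.map_mem_V0.mpr T.x_mem_VE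

theorem xq_mem_Vi : T.xq ∈ T.Vi := by
  exact T.i2_mem_Vi.mpr T.x_mem_VE

theorem xq_mem_V0 : T.xq ∈ T.V0 := by
  exact T.i2_mem_V0.mpr T.x_mem_VE

theorem isDVR_VE : IsDiscreteValuationRing ↥T.VE := by
  obtain ⟨ϖ, hϖ⟩ := IsDiscreteValuationRing.exists_irreducible R
  refine isDVR_of_unif T.VE (rE R K E ϖ) (T.rE_mem_VE_nonunits.mpr hϖ.not_isUnit) ?_
    (fun y hy => T.unif_E hϖ hy)
  intro h0
  have := T.jE_rE ϖ
  rw [h0, map_zero] at this
  exact cst_ne_zero hϖ.ne_zero this.symm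

theorem Vi_ne_V0 : T.Vi ≠ T.V0 := by
  intro heq
  have h1 : T.xq - T.xF ^ q ∈ T.Vi.nonunits := by
    rw [mem_Vi_nonunits, map_sub, map_pow]
    have e1 : T.jF T.xq = qExpand K q (T.jE T.x) := T.w_E T.x
    have e2 : T.jF T.xF = T.jE T.x := T.compat T.x
    rw [e1, e2]
    exact T.hfrob
  rw [heq, mem_V0_nonunits, mem_Vi_nonunits, map_sub, map_pow, map_sub, map_pow] at h1
  have e0 : T.w T.xq = T.xF := T.w_w _
  have e1 : T.jF (T.w T.xF) = qExpand K q (T.jE T.x) := T.w_E T.x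
  have e2 : T.jF T.xF = T.jE T.x := T.compat T.x
  rw [e0, e1, e2, ← T.hx] at h1
  exact sub_pow_notMem_nonunits q T.hq.two_le T.x₀ T.hord T.hlead h1

include T in
theorem const (y : F) (hy : IsAlgebraic K y) : y ∈ (algebraMap K F).range := by
  obtain ⟨c, hc⟩ := trans_const (T.jF y) (hy.algHom T.jF)
  refine ⟨c, ?_⟩
  apply T.jF.injective
  exact (T.jF.commutes c).trans hc

theorem trans_x : Transcendental K T.x := by
  intro halg
  obtain ⟨c, hc⟩ := trans_const (T.jE T.x) (halg.algHom T.jE)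
  have h1 := congrArg (fun s : LaurentSeries K => s.coeff (-1)) hc
  simp only [algebraMap_laurentSeries_eq_single] at h1
  rw [HahnSeries.coeff_single_of_ne (by norm_num), ← T.hx, coeffMap_coeff] at h1
  have h2 : T.x₀.coeff (-1) = 0 := by
    apply IsFractionRing.injective R K
    rw [← h1, map_zero]
  have := T.hlead
  rw [h2] at this
  exact not_isUnit_zero this

theorem trans_xF : Transcendental K T.xF := by
  intro halg
  apply T.trans_x
  exact (isAlgebraic_algebraMap_iff (algebraMap E F).injective).mp halg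

end Two

end Fermat.Agent.S34.V2
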